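import Fermat.Agent.HuaCubes.CompleteSum
import Mathlib.Combinatorics.Additive.CauchyDavenport
import Fermat.Agent.WaringAsymptotic.Positivity

/-!
# The singular series for nine cubes of primes

`𝔖 (N) = ∑ A_q (N)` converges absolutely and uniformly in `N`, and is bounded below for
odd `N`: the local factors are positive, every residue modulo `9` and modulo `p ≥ 5` being a sum of
nine cubes of units (Cauchy and Davenport).
-/

set_option autoImplicit false

noncomputable section

namespace FA.HuaCubes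

open Finset FA.ThreePrimes Filter Topology
open scoped Pointwise

/-- The summand of `A_q (N)`. -/
def localSummand (N q r : ℕ) : ℂ :=
  primeFactor q r ^ 9 * eAdd (-((N : ℝ) * r / q))

/-- `A_q (N)`. -/
def singularTerm (N q : ℕ) : ℂ := ∑ r ∈ unitResidues q, localSummand N q r

/-- The sum of the absolute values in `A_q (N)`. -/
def absTerm (q : ℕ) : ℝ := ∑ r ∈ unitResidues q, ‖primeFactor q r‖ ^ 9

/-- The singular series. -/
def singularSeries (N : ℕ) : ℝ := (∑' q, singularTerm N q).re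

theorem absTerm_nonneg (q : ℕ) : 0 ≤ absTerm q := sum_nonneg fun _ _ => by positivity

theorem norm_singularTerm_le (N q : ℕ) : ‖singularTerm N q‖ ≤ absTerm q := by
  refine (norm_sum_le _ _).trans (le_of_eq (sum_congr rfl fun r _ => ?_))
  rw [localSummand, norm_mul, norm_pow, norm_eAdd, mul_one]

theorem singularTerm_zero (N : ℕ) : singularTerm N 0 = 0 := by simp [singularTerm, unitResidues]

theorem singularTerm_one (N : ℕ) : singularTerm N 1 = 1 := by
  simp [singularTerm, localSummand, unitResidues, primeFactor, primeCubeSum,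
    show ∀ x : ℝ, x * 0 = 0 from mul_zero]

theorem absTerm_one : absTerm 1 = 1 := by
  simp [absTerm, unitResidues, primeFactor, primeCubeSum,
    show ∀ x : ℝ, x * 0 = 0 from mul_zero]

theorem primeFactor_crt {q₁ q₂ : ℕ} (hco : q₁.Coprime q₂) (h₁ : 0 < q₁) (h₂ : 0 < q₂)
    (r₁ r₂ : ℕ) : primeFactor (q₁ * q₂) (WaringAsymptotic.crtResidue q₁ q₂ r₁ r₂ : ℕ) =
      primeFactor q₁ r₁ * primeFactor q₂ r₂ := by
  rw [primeFactor, primeFactor, primeFactor, primeCubeSum_crt hco h₁ h₂, Nat.totient_mul hco,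
    Nat.cast_mul, mul_div_mul_comm]

theorem absTerm_mul {m n : ℕ} (h : m.Coprime n) : absTerm (m * n) = absTerm m * absTerm n := by
  classical
  rcases Nat.eq_zero_or_pos m with rfl | hm
  · simp [absTerm, unitResidues]
  rcases Nat.eq_zero_or_pos n with rfl | hn
  · simp [absTerm, unitResidues]
  obtain ⟨hinj, himg⟩ := HuaSquares.crtResidue_bijOn h
  rw [absTerm, absTerm, absTerm, ← himg, sum_image hinj, sum_mul_sum, ← sum_product']
  refine sum_congr rfl fun z _ => ?_
  rw [primeFactor_crt h hm hn, norm_mul, mul_pow]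

theorem singularTerm_mul (N : ℕ) {m n : ℕ} (h : m.Coprime n) :
    singularTerm N (m * n) = singularTerm N m * singularTerm N n := by
  classical
  rcases Nat.eq_zero_or_pos m with rfl | hm
  · simp [singularTerm, unitResidues]
  rcases Nat.eq_zero_or_pos n with rfl | hn
  · simp [singularTerm, unitResidues]
  obtain ⟨hinj, himg⟩ := HuaSquares.crtResidue_bijOn h
  rw [singularTerm, singularTerm, singularTerm, ← himg, sum_image hinj, sum_mul_sum, ← sum_product']
  refine sum_congr rfl fun z _ => ?_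
  have e := HuaSquares.eAdd_crt_split hm hn z.1 z.2 (-(N : ℤ))
  push_cast at e
  rw [localSummand, localSummand, localSummand, primeFactor_crt h hm hn, mul_pow,
    show -((N : ℝ) * (WaringAsymptotic.crtResidue m n z.1 z.2 : ℕ) / (m * n : ℕ)) =
      -(N : ℝ) * (WaringAsymptotic.crtResidue m n z.1 z.2 : ℕ) / ((m : ℝ) * n) by push_cast; ring,
    e, show -((N : ℝ) * z.1 / m) = -(N : ℝ) * z.1 / m by ring,
    show -((N : ℝ) * z.2 / n) = -(N : ℝ) * z.2 / n by ring]
  ring

/-- Only `p` itself, and `9`, contribute. -/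
theorem absTerm_primePow_eq_zero {p l : ℕ} (hp : p.Prime) (hl : 2 ≤ l) (h3 : p ≠ 3 ∨ 3 ≤ l) :
    absTerm (p ^ l) = 0 := by
  refine sum_eq_zero fun r hr => ?_
  rw [unitResidues, mem_filter] at hr
  rw [primeFactor, primeCubeSum_primePow hp hl h3 (a := (r : ℤ))
    (by rw [Int.cast_natCast]; exact (ZMod.isUnit_iff_coprime r _).2 hr.2.symm)]
  simp

theorem singularTerm_primePow_eq_zero (N : ℕ) {p l : ℕ} (hp : p.Prime) (hl : 2 ≤ l)
    (h3 : p ≠ 3 ∨ 3 ≤ l) : singularTerm N (p ^ l) = 0 :=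
  norm_eq_zero.1 (le_antisymm ((norm_singularTerm_le N _).trans
    (absTerm_primePow_eq_zero hp hl h3).le) (norm_nonneg _))

theorem absTerm_le (q : ℕ) : absTerm q ≤ q := by
  refine (sum_le_card_nsmul (unitResidues q) (fun r => ‖primeFactor q r‖ ^ 9) 1
    fun r _ => pow_le_one₀ (norm_nonneg _) (norm_primeFactor_le_one q r)).trans ?_
  rw [card_unitResidues, nsmul_eq_mul, mul_one]
  exact Nat.cast_le.2 (Nat.totient_le q)

theorem absTerm_prime_le {p : ℕ} (hp : p.Prime) :
    absTerm p ≤ 14 ^ 9 * (p : ℝ) ^ (-2 : ℝ) := by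
  have hp2 : (2 : ℝ) ≤ p := by exact_mod_cast hp.two_le
  have hs : (0 : ℝ) < √(p : ℝ) := Real.sqrt_pos.2 (by linarith)
  refine (sum_le_card_nsmul _ _ ((14 / √(p : ℝ)) ^ 9) fun r hr => ?_).trans ?_
  · rw [unitResidues, mem_filter] at hr
    refine pow_le_pow_left₀ (norm_nonneg _) ?_ 9
    have h := norm_primeCubeSum_prime_le hp (a := (r : ℤ))
      (by rw [Int.cast_natCast]; exact (ZMod.isUnit_iff_coprime r _).2 hr.2.symm)
    rw [primeFactor, norm_div, Complex.norm_natCast, Nat.totient_prime hp,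
      Nat.cast_sub hp.one_le, Nat.cast_one, div_le_div_iff₀ (by linarith) hs]
    have hss := Real.mul_self_sqrt (show (0 : ℝ) ≤ p by linarith)
    have h1 := mul_le_mul_of_nonneg_right h hs.le
    rw [mul_assoc, hss] at h1
    linarith
  · rw [nsmul_eq_mul, card_unitResidues, Nat.totient_prime hp, div_pow, mul_div_assoc',
      show (-2 : ℝ) = -((2 : ℕ) : ℝ) by norm_num, Real.rpow_neg (by linarith), Real.rpow_natCast,
      ← div_eq_mul_inv, div_le_div_iff₀ (by positivity) (by positivity)]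
    have hs1 : (1 : ℝ) ≤ √(p : ℝ) := Real.one_le_sqrt.2 (by linarith)
    have h3 : (p : ℝ) * (p : ℝ) ^ 2 ≤ √(p : ℝ) ^ 9 := by
      calc (p : ℝ) * (p : ℝ) ^ 2 = √(p : ℝ) ^ (2 * 3) := by
            rw [pow_mul, Real.sq_sqrt (by linarith)]; ring
        _ ≤ _ := pow_le_pow_right₀ hs1 (by norm_num)
    have h4 : ((p - 1 : ℕ) : ℝ) ≤ p := Nat.cast_le.2 (Nat.sub_le p 1)
    calc ((p - 1 : ℕ) : ℝ) * 14 ^ 9 * (p : ℝ) ^ 2 ≤ (p : ℝ) * 14 ^ 9 * (p : ℝ) ^ 2 := by gcongr
      _ = 14 ^ 9 * ((p : ℝ) * (p : ℝ) ^ 2) := by ring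
      _ ≤ _ := mul_le_mul_of_nonneg_left h3 (by norm_num)

theorem tsum_absTerm_primePow {p : ℕ} (hp : p.Prime) :
    Summable (fun l => ‖absTerm (p ^ l)‖) ∧
      ∑' l, absTerm (p ^ l) ≤ 1 + 3 * 14 ^ 9 * (p : ℝ) ^ (-2 : ℝ) := by
  have h0 : ∀ l ∉ range 3, absTerm (p ^ l) = 0 := fun l hl => by
    rw [mem_range] at hl
    exact absTerm_primePow_eq_zero hp (by omega) (Or.inr (by omega))
  refine ⟨summable_of_ne_finset_zero (s := range 3) fun l hl => by rw [h0 l hl, norm_zero], ?_⟩
  rw [tsum_eq_sum h0]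
  simp only [sum_range_succ, range_zero, sum_empty, zero_add, pow_zero, pow_one, absTerm_one]
  have h1 := absTerm_prime_le hp
  rcases eq_or_ne p 3 with rfl | hne
  · have a1 := absTerm_le (3 ^ 1)
    have a2 := absTerm_le (3 ^ 2)
    norm_num at a1 a2 ⊢
    linarith
  · rw [absTerm_primePow_eq_zero hp le_rfl (Or.inl hne)]
    have : 0 ≤ (p : ℝ) ^ (-2 : ℝ) := by positivity
    linarith

theorem summable_absTerm : Summable absTerm := by
  obtain ⟨Z, hZ⟩ : ∃ Z : ℝ, Z = ∑' p : ℕ, 3 * 14 ^ 9 * (p : ℝ) ^ (-2 : ℝ) := ⟨_, rfl⟩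
  have hb : Summable fun p : ℕ => 3 * 14 ^ 9 * (p : ℝ) ^ (-2 : ℝ) :=
    (Real.summable_nat_rpow.2 (by norm_num)).mul_left _
  refine summable_of_sum_range_le (c := Real.exp Z) absTerm_nonneg fun n => ?_
  obtain ⟨hs, hsum⟩ := EulerProduct.summable_and_hasSum_factoredNumbers_prod_filter_prime_tsum
    absTerm_one (fun h => absTerm_mul h) (fun hp => (tsum_absTerm_primePow hp).1) (range n)
  have h1 : ∑ q ∈ range n, absTerm q ≤ ∏ p ∈ range n with p.Prime, ∑' l, absTerm (p ^ l) := by
    rw [← hsum.tsum_eq]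
    classical
    calc ∑ q ∈ range n, absTerm q
        = ∑ q ∈ (range n).filter (fun q => q ∈ Nat.factoredNumbers (range n)), absTerm q := by
          refine (sum_filter_of_ne fun q hq hne => ?_).symm
          have hq0 : q ≠ 0 := fun h => hne (by simp [h, absTerm, unitResidues])
          rw [mem_range] at hq
          exact Nat.mem_factoredNumbers.2 ⟨hq0, fun p hp => mem_range.2
            (lt_of_le_of_lt (Nat.le_of_mem_primeFactorsList hp) hq)⟩
      _ = ∑ q ∈ (range n).subtype (fun q => q ∈ Nat.factoredNumbers (range n)),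
            absTerm q := (sum_subtype_eq_sum_filter _).symm
      _ ≤ _ := Summable.sum_le_tsum _ (fun i _ => absTerm_nonneg _) hsum.summable
  refine h1.trans ?_
  calc ∏ p ∈ range n with p.Prime, ∑' l, absTerm (p ^ l)
      ≤ ∏ p ∈ range n with p.Prime, Real.exp (3 * 14 ^ 9 * (p : ℝ) ^ (-2 : ℝ)) :=
        prod_le_prod (fun p _ => tsum_nonneg fun l => absTerm_nonneg _) fun p hp =>
          ((tsum_absTerm_primePow (mem_filter.1 hp).2).2.trans
            (by linarith [Real.add_one_le_exp (3 * 14 ^ 9 * (p : ℝ) ^ (-2 : ℝ))]))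
    _ = Real.exp (∑ p ∈ range n with p.Prime, 3 * 14 ^ 9 * (p : ℝ) ^ (-2 : ℝ)) :=
        (Real.exp_sum _ _).symm
    _ ≤ _ := Real.exp_le_exp.2 (hZ ▸ hb.sum_le_tsum _ fun p _ => by positivity)

theorem summable_singularTerm (N : ℕ) : Summable fun q => ‖singularTerm N q‖ :=
  Summable.of_nonneg_of_le (fun _ => norm_nonneg _) (norm_singularTerm_le N) summable_absTerm

/-- **The tail**, uniform in `N`. -/
theorem exists_singular_tail {ε : ℝ} (hε : 0 < ε) : ∃ Q₀ : ℕ, ∀ Q, Q₀ ≤ Q → ∀ N,
    ‖∑ q ∈ Icc 1 Q, singularTerm N q - ∑' q, singularTerm N q‖ ≤ ε := by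
  obtain ⟨Q₀, hQ₀⟩ := eventually_atTop.1 ((tendsto_sum_nat_add absTerm).eventually
    (eventually_le_nhds hε))
  refine ⟨Q₀, fun Q hQ N => ?_⟩
  have hs := (summable_singularTerm N).of_norm
  have e : ∑ q ∈ Icc 1 Q, singularTerm N q = ∑ q ∈ range (Q + 1), singularTerm N q := by
    refine sum_subset (fun q hq => mem_range.2 (by rw [mem_Icc] at hq; omega)) fun q hq hq' => ?_
    rw [mem_range] at hq
    rw [mem_Icc] at hq'
    rw [show q = 0 by omega, singularTerm_zero]
  rw [e, ← hs.sum_add_tsum_nat_add (Q + 1), sub_add_cancel_left, norm_neg]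
  exact (tsum_of_norm_bounded ((summable_nat_add_iff (Q + 1)).2 summable_absTerm).hasSum
    fun i => norm_singularTerm_le N _).trans (hQ₀ (Q + 1) (by omega))

/-! ### Positivity -/

/-- The sums of `k` cubes of units. -/
def cubeSums (p : ℕ) [NeZero p] : ℕ → Finset (ZMod p)
  | 0 => {0}
  | k + 1 => ((univ : Finset (ZMod p)).filter fun x => x ≠ 0).image (fun x => x ^ 3) + cubeSums p k

theorem exists_of_mem_cubeSums {p : ℕ} [NeZero p] : ∀ {k : ℕ} {n : ZMod p}, n ∈ cubeSums p k →
    ∃ x : Fin k → ZMod p, (∀ i, x i ≠ 0) ∧ ∑ i, x i ^ 3 = n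
  | 0, n, hn => ⟨fun i => 0, fun i => i.elim0, by simpa [cubeSums, eq_comm] using hn⟩
  | k + 1, n, hn => by
    rw [cubeSums, Finset.mem_add] at hn
    obtain ⟨a, ha, b, hb, rfl⟩ := hn
    obtain ⟨x, hx, rfl⟩ := mem_image.1 ha
    obtain ⟨y, hy, rfl⟩ := exists_of_mem_cubeSums hb
    exact ⟨Fin.cons x y, Fin.cases (by simpa using hx) (by simpa using hy),
      by simp [Fin.sum_univ_succ]⟩

theorem exists_nine_cubes {p : ℕ} (hp : p.Prime) (h5 : 5 ≤ p) (n : ZMod p) :
    ∃ x : Fin 9 → ZMod p, (∀ i, x i ≠ 0) ∧ ∑ i, x i ^ 3 = n := by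
  classical
  have : Fact p.Prime := ⟨hp⟩
  refine exists_of_mem_cubeSums ?_
  obtain ⟨A, hA⟩ : ∃ A, A = ((univ : Finset (ZMod p)).filter fun x => x ≠ 0).image (fun x => x ^ 3) :=
    ⟨_, rfl⟩
  have hA3 : p - 1 ≤ 3 * A.card := by
    refine le_trans (le_of_eq ?_) (card_le_mul_card_image (n := 3)
      ((univ : Finset (ZMod p)).filter fun x => x ≠ 0) (f := fun x => x ^ 3) fun b _ => ?_) |>.trans
      (le_of_eq (by rw [hA]))
    · rw [filter_ne', card_erase_of_mem (mem_univ _), card_univ, ZMod.card]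
    · exact (card_le_card (filter_subset_filter _ (filter_subset _ _))).trans
        (WaringAsymptotic.card_pow_eq_le (by norm_num) b)
  have hAne : A.Nonempty := card_pos.1 (by omega)
  have key : ∀ k, min p (k * (A.card - 1) + 1) ≤ (cubeSums p k).card ∧ (cubeSums p k).Nonempty := by
    intro k
    induction k with
    | zero => simp [cubeSums]
    | succ k ih =>
      have hne : (cubeSums p (k + 1)).Nonempty := by
        rw [cubeSums, ← hA]
        exact hAne.add ih.2
      refine ⟨?_, hne⟩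
      have h := ZMod.cauchy_davenport hp hAne ih.2
      rw [cubeSums, ← hA, Nat.succ_mul]
      have := hAne.card_pos
      omega
  have hfull : cubeSums p 9 = univ := by
    refine eq_univ_of_card _ ?_
    rw [ZMod.card]
    have := (key 9).1
    have h1 : (cubeSums p 9).card ≤ p := by
      simpa using card_le_univ (cubeSums p 9)
    omega
  exact hfull ▸ mem_univ n

/-- `∑_{r mod q}` of the summands is `q T / φ q ⁹`, `T` the number of solutions in units. -/
theorem sum_localSummand_eq (N : ℕ) {q : ℕ} (hq : 0 < q) :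
    ∑ r ∈ range q, localSummand N q r = (((q : ℝ) *
      ((Fintype.piFinset fun _ : Fin 9 => unitResidues q).filter
        fun z => (q : ℤ) ∣ ((∑ i, z i ^ 3 : ℕ) : ℤ) - N).card / (q.totient : ℝ) ^ 9 : ℝ) : ℂ) := by
  have e : ∀ r ∈ range q, localSummand N q r =
      (∑ z ∈ Fintype.piFinset (fun _ : Fin 9 => unitResidues q),
        eAdd (((((∑ i, z i ^ 3 : ℕ) : ℤ) - N : ℤ) : ℝ) * r / q)) / (q.totient : ℂ) ^ 9 := by
    intro r _
    rw [localSummand, primeFactor, div_pow, div_mul_eq_mul_div]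
    congr 1
    have h := WaringAsymptotic.sum_eAdd_pow (unitResidues q) (fun _ => 1) (fun x => x ^ 3) 9
      ((r : ℝ) / q)
    simp only [one_mul, prod_const_one] at h
    rw [primeCubeSum, show ∑ x ∈ unitResidues q, eAdd (((r : ℕ) : ℤ) * (x : ℝ) ^ 3 / q) =
      ∑ i ∈ unitResidues q, eAdd ((i ^ 3 : ℕ) * ((r : ℝ) / q)) from sum_congr rfl fun x _ => by
        push_cast; ring_nf, h, sum_mul]
    refine sum_congr rfl fun z _ => ?_
    rw [← eAdd_add]
    push_cast
    ring_nf
  rw [sum_congr rfl e, ← sum_div]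
  simp only [Complex.ofReal_div, Complex.ofReal_mul, Complex.ofReal_pow, Complex.ofReal_natCast]
  congr 1
  rw [sum_comm, card_filter, Nat.cast_sum, mul_sum]
  refine sum_congr rfl fun z _ => ?_
  rw [sum_eAdd_grid hq]
  split_ifs <;> simp

theorem localSummand_zero (N : ℕ) {q : ℕ} (hq : 0 < q) : localSummand N q 0 = 1 := by
  have hφ : (q.totient : ℂ) ≠ 0 := Nat.cast_ne_zero.2 (Nat.totient_pos.2 hq).ne'
  rw [localSummand, primeFactor, primeCubeSum]
  simp [card_unitResidues, hφ]

theorem localSummand_nine (N s : ℕ) :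
    localSummand N 9 (3 * s) = localSummand N 3 s := by
  have h9 : unitResidues 9 = {1, 2, 4, 5, 7, 8} := by decide
  have h3 : unitResidues 3 = {1, 2} := by decide
  have t9 : Nat.totient 9 = 6 := by decide
  have t3 : Nat.totient 3 = 2 := by decide
  have hper : ∀ (x : ℝ) (m : ℕ), eAdd (x + m) = eAdd x := fun x m => by
    exact_mod_cast eAdd_add_intCast x (m : ℤ)
  have hC : primeCubeSum 9 (3 * s : ℕ) = 3 * primeCubeSum 3 (s : ℕ) := by
    rw [primeCubeSum, primeCubeSum, h9, h3]
    simp only [sum_insert, mem_insert, mem_singleton, sum_singleton, OfNat.one_ne_ofNat,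
      not_false_eq_true, Nat.reduceEqDiff, or_self]
    push_cast
    rw [show (3 : ℝ) * s * 1 ^ 3 / 9 = s * 1 ^ 3 / 3 by ring,
      show (3 : ℝ) * s * 2 ^ 3 / 9 = s * 2 ^ 3 / 3 by ring,
      show (3 : ℝ) * s * 4 ^ 3 / 9 = s * 1 ^ 3 / 3 + (21 * s : ℕ) by push_cast; ring,
      show (3 : ℝ) * s * 5 ^ 3 / 9 = s * 2 ^ 3 / 3 + (39 * s : ℕ) by push_cast; ring,
      show (3 : ℝ) * s * 7 ^ 3 / 9 = s * 1 ^ 3 / 3 + (114 * s : ℕ) by push_cast; ring,
      show (3 : ℝ) * s * 8 ^ 3 / 9 = s * 2 ^ 3 / 3 + (168 * s : ℕ) by push_cast; ring,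
      hper, hper, hper, hper]
    ring
  rw [localSummand, localSummand, primeFactor, primeFactor, hC, t9, t3]
  push_cast
  rw [show (N : ℝ) * (3 * s) / 9 = N * s / 3 by ring]
  ring

/-- The local factor. -/
def localDensity (N p : ℕ) : ℂ := ∑' l, singularTerm N (p ^ l)

theorem localDensity_eq (N : ℕ) {p : ℕ} (hp : p.Prime) :
    localDensity N p = 1 + singularTerm N p + singularTerm N (p ^ 2) := by
  rw [localDensity, tsum_eq_sum (s := range 3) fun l hl => by
    rw [mem_range] at hl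
    exact singularTerm_primePow_eq_zero N hp (by omega) (Or.inr (by omega))]
  simp [sum_range_succ, singularTerm_one]

/-- The modulus whose solutions give the local factor at `p`. -/
def localModulus (p : ℕ) : ℕ := if p = 3 then 9 else p

theorem localModulus_pos {p : ℕ} (hp : p.Prime) : 0 < localModulus p := by
  unfold localModulus
  split_ifs
  · norm_num
  · exact hp.pos

theorem localDensity_eq_sum (N : ℕ) {p : ℕ} (hp : p.Prime) :
    localDensity N p = ∑ r ∈ range (localModulus p), localSummand N (localModulus p) r := by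
  rw [localDensity_eq N hp, localModulus]
  split_ifs with h
  · subst h
    have h9 : range 9 = insert 0 (insert (3 * 1) (insert (3 * 2) (unitResidues 9))) := by decide
    have h3 : unitResidues 3 = {1, 2} := by decide
    rw [h9, sum_insert (by decide), sum_insert (by decide), sum_insert (by decide),
      localSummand_zero N (by norm_num), localSummand_nine N 1,
      localSummand_nine N 2, singularTerm, singularTerm, show (3 : ℕ) ^ 2 = 9 by norm_num,
      h3, sum_pair (by norm_num)]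
    ring
  · rw [singularTerm_primePow_eq_zero N hp le_rfl (Or.inl h), add_zero, singularTerm]
    have hins : range p = insert 0 (unitResidues p) := by
      ext r
      rw [unitResidues, mem_insert, mem_filter, mem_range, hp.coprime_iff_not_dvd]
      constructor
      · intro h
        rcases Nat.eq_zero_or_pos r with h0 | h0
        · exact Or.inl h0
        · exact Or.inr ⟨h, fun hd => absurd (Nat.le_of_dvd h0 hd) (by omega)⟩
      · rintro (rfl | h)
        · exact hp.pos
        · exact h.1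
    rw [hins, sum_insert (by
      rw [unitResidues, mem_filter, hp.coprime_iff_not_dvd]
      simp), localSummand_zero N hp.pos]

theorem exists_solution {N : ℕ} (hN : N % 2 = 1) {p : ℕ} (hp : p.Prime) :
    ∃ z : Fin 9 → ℕ, (∀ i, z i ∈ unitResidues (localModulus p)) ∧
      (localModulus p : ℤ) ∣ ((∑ i, z i ^ 3 : ℕ) : ℤ) - N := by
  rcases eq_or_ne p 3 with rfl | h3
  · obtain ⟨k, hk, hk'⟩ : ∃ k : ℕ, k ≤ 9 ∧ (9 : ℤ) ∣ ((9 - k) + 512 * k : ℤ) - N := by
      refine ⟨4 * N % 9, by omega, ?_⟩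
      omega
    refine ⟨fun i => if i.val < k then 8 else 1, fun i => ?_, ?_⟩
    · rw [localModulus, if_pos rfl]
      dsimp only
      split_ifs <;> decide
    · rw [localModulus, if_pos rfl]
      have e : ∑ i : Fin 9, (if i.val < k then 8 else 1) ^ 3 = (9 - k) + 512 * k := by
        interval_cases k <;> decide
      rw [e]
      push_cast [Nat.cast_sub hk]
      exact hk'
  rcases eq_or_ne p 2 with rfl | h2
  · refine ⟨fun _ => 1, fun i => ?_, ?_⟩
    · rw [localModulus, if_neg (by norm_num)]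
      dsimp only
      decide
    · rw [localModulus, if_neg (by norm_num)]
      simp
      omega
  have h5 : 5 ≤ p := by
    by_contra h
    have := hp.two_le
    have h4 : p = 4 := by omega
    exact absurd (h4 ▸ hp) (by decide)
  have : NeZero p := ⟨hp.ne_zero⟩
  obtain ⟨x, hx0, hx⟩ := exists_nine_cubes hp h5 (N : ZMod p)
  rw [localModulus, if_neg h3]
  refine ⟨fun i => (x i).val, fun i => ?_, ?_⟩
  · rw [unitResidues, mem_filter, mem_range, hp.coprime_iff_not_dvd]
    refine ⟨ZMod.val_lt _, fun hd => hx0 i ?_⟩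
    rw [← ZMod.natCast_zmod_val (x i), ZMod.natCast_eq_zero_iff]
    exact hd
  · rw [← ZMod.intCast_zmod_eq_zero_iff_dvd]
    push_cast
    simp [hx]

/-- The local factors at odd `N`. -/
theorem localDensity_spec {N : ℕ} (hN : N % 2 = 1) {p : ℕ} (hp : p.Prime) :
    ∃ v : ℝ, localDensity N p = v ∧
      (localModulus p : ℝ) / ((localModulus p).totient : ℝ) ^ 9 ≤ v ∧
      1 - 3 * 14 ^ 9 * (p : ℝ) ^ (-2 : ℝ) ≤ v := by
  obtain ⟨z, hz, hzN⟩ := exists_solution hN hp
  have e := (localDensity_eq_sum N hp).trans (sum_localSummand_eq N (localModulus_pos hp))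
  refine ⟨_, e, div_le_div_of_nonneg_right (le_mul_of_one_le_right (Nat.cast_nonneg _) ?_)
    (by positivity), ?_⟩
  · rw [Nat.one_le_cast, Finset.one_le_card]
    exact ⟨z, mem_filter.2 ⟨Fintype.mem_piFinset.2 hz, hzN⟩⟩
  · have h1 := congrArg Complex.re ((localDensity_eq N hp).symm.trans e)
    simp only [Complex.add_re, Complex.one_re, Complex.ofReal_re] at h1
    have b1 := (abs_le.1 ((Complex.abs_re_le_norm _).trans (norm_singularTerm_le N p))).1
    have b2 := (abs_le.1 ((Complex.abs_re_le_norm _).trans (norm_singularTerm_le N (p ^ 2)))).1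
    have b3 := (tsum_absTerm_primePow hp).2
    rw [tsum_eq_sum (s := range 3) fun l hl => by
      rw [mem_range] at hl
      exact absTerm_primePow_eq_zero hp (by omega) (Or.inr (by omega))] at b3
    simp only [sum_range_succ, range_zero, sum_empty, zero_add, pow_zero, pow_one, absTerm_one]
      at b3
    linarith

/-- **The singular series is bounded below.** -/
theorem exists_singularSeries_pos : ∃ c : ℝ, 0 < c ∧
    ∀ N, N % 2 = 1 → c ≤ singularSeries N := by
  obtain ⟨a, ha⟩ : ∃ a : ℕ → ℝ, a = fun p : ℕ => 3 * 14 ^ 9 * (p : ℝ) ^ (-2 : ℝ) := ⟨_, rfl⟩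
  have hasum : Summable a := ha ▸ (Real.summable_nat_rpow.2 (by norm_num)).mul_left _
  have ha0 : ∀ p, 0 ≤ a p := fun p => by rw [ha]; positivity
  obtain ⟨p₀, hp₀⟩ := ((tendsto_sum_nat_add a).eventually
    (eventually_le_nhds (show (0 : ℝ) < 1 / 2 by norm_num))).exists
  obtain ⟨m, hm⟩ : ∃ m : ℕ → ℝ, m = fun p : ℕ =>
      (localModulus p : ℝ) / ((localModulus p).totient : ℝ) ^ 9 := ⟨_, rfl⟩
  have hm0 : ∀ p ∈ Nat.primesBelow p₀, 0 < m p := fun p hp => by
    have h1 := localModulus_pos (Nat.mem_primesBelow.1 hp).2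
    have h2 := Nat.totient_pos.2 h1
    rw [hm]
    positivity
  refine ⟨(∏ p ∈ Nat.primesBelow p₀, m p) * (1 / 2), mul_pos (prod_pos hm0) (by norm_num),
    fun N hN => ?_⟩
  have hE := EulerProduct.eulerProduct (f := singularTerm N) (singularTerm_one N)
    (fun h => singularTerm_mul N h) (summable_singularTerm N) (singularTerm_zero N)
  refine ge_of_tendsto ((Complex.continuous_re.tendsto _).comp hE)
    (eventually_atTop.2 ⟨p₀, fun n hn => ?_⟩)
  obtain ⟨S, hS⟩ : ∃ S, S = Nat.primesBelow n := ⟨_, rfl⟩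
  obtain ⟨d, hd⟩ : ∃ d : ℕ → ℝ, d = fun p => (localDensity N p).re := ⟨_, rfl⟩
  have hspec : ∀ p, p.Prime → localDensity N p = (d p : ℂ) ∧ m p ≤ d p ∧ 1 - a p ≤ d p := by
    intro p hp
    obtain ⟨v, hv, h1, h2⟩ := localDensity_spec hN hp
    have : d p = v := by rw [hd]; simp [hv]
    rw [this, hm, ha]
    exact ⟨hv, h1, h2⟩
  have hreal : ∏ p ∈ S, ∑' e, singularTerm N (p ^ e) = ((∏ p ∈ S, d p : ℝ) : ℂ) := by
    rw [Complex.ofReal_prod]
    exact prod_congr rfl fun p hp => (hspec p (Nat.mem_primesBelow.1 (hS ▸ hp)).2).1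
  simp only [Function.comp, ← hS, hreal, Complex.ofReal_re]
  have hlow : S.filter (fun p => p < p₀) = Nat.primesBelow p₀ := by
    ext p
    simp only [hS, mem_filter, Nat.mem_primesBelow]
    exact ⟨fun h => ⟨h.2, h.1.2⟩, fun h => ⟨⟨h.1.trans_le hn, h.2⟩, h.1⟩⟩
  rw [← prod_filter_mul_prod_filter_not S (fun p => p < p₀), hlow]
  have hsum : ∑ p ∈ S.filter (fun p => ¬p < p₀), a p ≤ 1 / 2 := by
    refine le_trans ?_ hp₀
    refine (sum_le_sum_of_subset_of_nonneg (t := Ico p₀ n) (fun p hp => ?_)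
      fun p _ _ => ha0 p).trans ?_
    · rw [hS, mem_filter, Nat.mem_primesBelow] at hp
      exact mem_Ico.2 ⟨not_lt.1 hp.2, hp.1.1⟩
    · rw [sum_Ico_eq_sum_range]
      simp only [add_comm p₀]
      exact ((summable_nat_add_iff p₀).2 hasum).sum_le_tsum _ fun i _ => ha0 _
  refine mul_le_mul (prod_le_prod (fun p hp => (hm0 p hp).le)
    fun p hp => (hspec p (Nat.mem_primesBelow.1 hp).2).2.1) ?_ (by norm_num)
    (prod_nonneg fun p hp =>
      le_trans (hm0 p hp).le (hspec p (Nat.mem_primesBelow.1 hp).2).2.1)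
  have hle1 : ∀ p ∈ S.filter (fun p => ¬p < p₀), a p ≤ 1 := fun p hp =>
    ((single_le_sum (fun q _ => ha0 q) hp).trans hsum).trans (by norm_num)
  refine le_trans (by linarith) ((WaringAsymptotic.one_sub_sum_le_prod _ a (fun p _ => ha0 p)
    hle1).trans (prod_le_prod (fun p hp => sub_nonneg.2 (hle1 p hp)) fun p hp => ?_))
  exact (hspec p (Nat.mem_primesBelow.1 (hS ▸ (mem_filter.1 hp).1)).2).2.2

end FA.HuaCubes
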