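import Fermat.Agent.HuaCubes.Major
import Fermat.Agent.HuaCubes.Singular
import Fermat.Agent.WaringAsymptotic.Main

/-!
# The circle method for nine cubes of primes

With major arcs `q ≤ R = (log P) ^ K`, `|α - a/q| ≤ R/N` and the eighth moment on the minor arcs,
the weighted number of representations of `N` is `J (N) ∑_{q ≤ R} A_q (N) + O (N ^ 2 / log P)`.
-/

set_option autoImplicit false
set_option exponentiation.threshold 300

noncomputable section

namespace FA.HuaCubes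

open Finset FA.ThreePrimes ArithmeticFunction
open scoped Real

/-- The weighted representations of `N` by nine cubes. -/
def nineSum (f : ℕ → ℝ) (N : ℕ) : ℝ :=
  ∑ z ∈ (Fintype.piFinset fun _ : Fin 9 => Icc 1 N).filter (fun z => ∑ i, z i ^ 3 = N),
    ∏ i, f (z i)

theorem sum_grid_nineSum (f : ℕ → ℝ) {N M P : ℕ} (hN : 1 ≤ N) (hM : M = 9 * N) (hPN : P ^ 3 ≤ N)
    (hNP : N < (P + 1) ^ 3) :
    ∑ h ∈ range M, cubeTwist ((h : ℝ) / M) f P ^ 9 * eAdd (-((N : ℝ) * ((h : ℝ) / M))) =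
      (M : ℂ) * nineSum f N := by
  have hg := WaringAsymptotic.sum_pow_grid (Ioc 0 P) (fun n => (f n : ℂ)) (fun n => n ^ 3) (s := 9)
    (N := N) (M := M) (B := P ^ 3) (fun i hi => Nat.pow_le_pow_left (mem_Ioc.1 hi).2 3)
    (by omega) (by omega) 0
  simp only [add_zero] at hg
  have e : ∀ x : ℝ, cubeTwist x f P =
      ∑ i ∈ Ioc 0 P, (f i : ℂ) * eAdd ((i ^ 3 : ℕ) * x) := fun x => by
    rw [cubeTwist]
    refine sum_congr rfl fun i _ => ?_
    rw [mul_comm x]
    push_cast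
    rfl
  simp only [e]
  rw [hg, nineSum, Complex.ofReal_sum]
  congr 1
  refine sum_congr (ext fun z => ?_) fun z _ => by push_cast; rfl
  simp only [mem_filter, Fintype.mem_piFinset, mem_Icc, mem_Ioc]
  refine ⟨fun h => ⟨fun i => ⟨(h.1 i).1, (h.1 i).2.trans
    ((Nat.le_self_pow three_ne_zero P).trans hPN)⟩, h.2⟩, fun h => ⟨fun i => ⟨(h.1 i).1, ?_⟩, h.2⟩⟩
  by_contra hlt
  have h3 := Nat.pow_le_pow_left (show P + 1 ≤ z i by omega) 3
  have h4 := single_le_sum (f := fun j => z j ^ 3) (fun j _ => Nat.zero_le _) (mem_univ i)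
  have h5 := h.2
  omega

theorem sum_grid_conv {N M : ℕ} (hN : 1 ≤ N) (hM : M = 9 * N) (θ : ℝ) :
    ∑ h ∈ range M, WaringAsymptotic.weightSum (1 / 3) N ((h : ℝ) / M + θ) ^ 9 *
        eAdd (-((N : ℝ) * ((h : ℝ) / M + θ))) =
      (M : ℂ) * WaringAsymptotic.weightConv (1 / 3) 9 N := by
  have hg := WaringAsymptotic.sum_pow_grid (Ioc 0 N)
    (fun m => (WaringAsymptotic.weight (1 / 3) m : ℂ)) (fun m => m) (s := 9) (N := N) (M := M)
    (B := N) (fun i hi => (mem_Ioc.1 hi).2) (by omega) (by omega) θ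
  rw [WaringAsymptotic.weightConv, Complex.ofReal_sum]
  push_cast
  exact hg

/-- The coefficient of an arc. -/
def arcFactor (N : ℕ) (z : Σ _ : ℕ, ℕ) : ℂ :=
  primeFactor z.1 z.2 ^ 9 * eAdd (-((N : ℝ) * centre z))

theorem sum_arcFactor (N Q : ℕ) :
    ∑ z ∈ arcCentres Q, arcFactor N z = ∑ q ∈ Icc 1 Q, singularTerm N q := by
  rw [arcCentres, sum_sigma]
  refine sum_congr rfl fun q _ => sum_congr rfl fun r _ => ?_
  simp only [arcFactor, localSummand, centre]
  ring_nf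

theorem sum_norm_arcFactor_le (N Q : ℕ) :
    ∑ z ∈ arcCentres Q, ‖arcFactor N z‖ ≤ ∑' q, absTerm q := by
  rw [arcCentres, sum_sigma]
  refine le_trans (le_of_eq (sum_congr rfl fun q _ => sum_congr rfl fun r _ => ?_))
    (summable_absTerm.sum_le_tsum (Icc 1 Q) fun q _ => absTerm_nonneg q)
  rw [arcFactor, norm_mul, norm_pow, norm_eAdd, mul_one]

theorem cubeTwist_eq_cubeTrig (f : ℕ → ℝ) (P : ℕ) (x : ℝ) :
    cubeTwist x f P = cubeTrig (fun n => (f n : ℂ)) P x := by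
  refine sum_congr rfl fun n _ => ?_
  push_cast
  ring_nf

/-- **The eighth power of the weighted sum.** -/
theorem sum_cubeTwist_pow_eight_le {f : ℕ → ℝ} {P M : ℕ} {B : ℝ}
    (hf : ∀ n ∈ Ioc 0 P, |f n| ≤ B) (hM : 4 * P ^ 3 < M) :
    ∑ h ∈ range M, ‖cubeTwist ((h : ℝ) / M) f P‖ ^ 8 ≤ M * (B ^ 8 * eighthMoment P) := by
  simp only [cubeTwist_eq_cubeTrig]
  exact sum_cubeTrig_pow_eight_le (fun n hn => by simpa using hf n hn) hM

/-- **The minor arcs.** -/
theorem exists_minor_bound (A : ℕ) : ∃ (K : ℕ) (C L₀ : ℝ), 2 ≤ K ∧ 0 < C ∧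
    ∀ (N P : ℕ) (α : ℝ), P = cubeRoot N → 1 ≤ N → L₀ ≤ Real.log P →
      Real.log P ^ K ≤ N →
      (∀ z ∈ arcCentres ⌊Real.log P ^ K⌋₊, Real.log P ^ K / N < nearDist (α - centre z)) →
        ‖cubeTwist α Λ P‖ ≤ C * (P / Real.log P ^ A) := by
  obtain ⟨B, C, hC, hbd⟩ := exists_cube_exp_sum_le A
  refine ⟨B + 2, 2 * C, max 3 (3 ^ B), by omega, by positivity,
    fun N P α hP hN hL hRN hout => ?_⟩
  obtain ⟨l, hl⟩ : ∃ l, l = Real.log P := ⟨_, rfl⟩
  rw [← hl] at hL hRN hout ⊢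
  have hl2 : 3 ≤ l := le_trans (le_max_left _ _) hL
  have hl1 : 1 ≤ l := by linarith
  have hl3 : (3 : ℝ) ^ B ≤ l := le_trans (le_max_right _ _) hL
  have hP2 : 2 ≤ P := by
    by_contra h
    interval_cases P <;> simp at hl <;> linarith
  have hPN : P ^ 3 ≤ N := hP ▸ (cubeRoot_spec hN).2.1
  have hNP : N < (P + 1) ^ 3 := hP ▸ (cubeRoot_spec hN).2.2
  have hPr : (2 : ℝ) ≤ P := by exact_mod_cast hP2
  have hN0 : (0 : ℝ) < N := Nat.cast_pos.2 hN
  have hN2P : (N : ℝ) ≤ (2 * (P : ℝ)) ^ 3 := by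
    exact_mod_cast hNP.le.trans (Nat.pow_le_pow_left (show P + 1 ≤ 2 * P by omega) 3)
  have hlogN : l ≤ Real.log N ∧ Real.log N ≤ 4 * l := by
    refine ⟨hl ▸ Real.log_le_log (by linarith)
      (by exact_mod_cast (Nat.le_self_pow three_ne_zero P).trans hPN), ?_⟩
    have h1 := Real.log_le_log hN0 hN2P
    rw [Real.log_pow, Real.log_mul two_ne_zero (by linarith), ← hl] at h1
    push_cast at h1
    linarith [Real.log_two_lt_d9]
  obtain ⟨R, hR⟩ : ∃ R, R = l ^ (B + 2) := ⟨_, rfl⟩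
  rw [← hR] at hRN hout
  have hR1 : 1 ≤ R := hR ▸ one_le_pow₀ hl1
  have hRB : Real.log N ^ B ≤ R := by
    refine (pow_le_pow_left₀ (Real.log_natCast_nonneg N) hlogN.2 B).trans ?_
    rw [hR, mul_pow, pow_add, mul_comm]
    refine mul_le_mul_of_nonneg_left ?_ (by positivity)
    calc (4 : ℝ) ^ B ≤ (3 ^ B) ^ 2 := by
          rw [← pow_mul, mul_comm, pow_mul]
          exact pow_le_pow_left₀ (by norm_num) (by norm_num) B
      _ ≤ l ^ 2 := pow_le_pow_left₀ (by positivity) hl3 2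
  obtain ⟨n, hn⟩ : ∃ n, n = ⌊(N : ℝ) / R⌋₊ := ⟨_, rfl⟩
  have hn0 : 0 < n := hn ▸ Nat.floor_pos.2 ((one_le_div (by linarith)).2 hRN)
  obtain ⟨ρ, hρ, hρn⟩ := Real.exists_rat_abs_sub_le_and_den_le α hn0
  obtain ⟨q, hq⟩ : ∃ q, q = ρ.den := ⟨_, rfl⟩
  have : NeZero q := ⟨hq ▸ ρ.den_ne_zero⟩
  have hq0 : (0 : ℝ) < q := Nat.cast_pos.2 (NeZero.pos q)
  have hρv : (ρ : ℝ) = (ρ.num : ℝ) / q := by rw [hq, Rat.cast_def]
  rw [hρv, ← hq] at hρ
  have hunit : IsUnit (ρ.num : ZMod q) := by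
    rw [ZMod.coe_int_isUnit_iff_isCoprime, isCoprime_comm, Int.isCoprime_iff_nat_coprime, hq]
    simpa using ρ.reduced
  have hn1 : (N : ℝ) / R ≤ (n : ℝ) + 1 := hn ▸ (Nat.lt_floor_add_one _).le
  have hqR : R < q := by
    by_contra hle
    rw [not_lt] at hle
    obtain ⟨r, hr⟩ : ∃ r, r = (ρ.num : ZMod q).val := ⟨_, rfl⟩
    have hmem : (⟨q, r⟩ : Σ _ : ℕ, ℕ) ∈ arcCentres ⌊R⌋₊ := by
      refine mem_arcCentres.2 ⟨⟨NeZero.pos q, Nat.le_floor hle⟩, hr ▸ ZMod.val_lt _, ?_⟩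
      have h1 : IsUnit ((r : ℕ) : ZMod q) := by rwa [hr, ZMod.natCast_zmod_val]
      exact ((ZMod.isUnit_iff_coprime r q).1 h1).symm
    obtain ⟨m, hm⟩ : (q : ℤ) ∣ ρ.num - r := by
      rw [← ZMod.intCast_zmod_eq_zero_iff_dvd, hr]
      push_cast
      rw [ZMod.natCast_zmod_val, sub_self]
    have h2 : nearDist (α - centre ⟨q, r⟩) ≤ R / N := by
      refine (nearDist_le_abs_sub _ m).trans ?_
      have e : α - centre ⟨q, r⟩ - (m : ℝ) = α - (ρ.num : ℝ) / q := by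
        have h3 : (ρ.num : ℝ) - r = q * m := by exact_mod_cast hm
        simp only [centre]
        field_simp
        linarith
      rw [e]
      refine hρ.trans ?_
      rw [div_le_div_iff₀ (by positivity) hN0, one_mul]
      have h4 : (N : ℝ) ≤ R * ((n : ℝ) + 1) := by
        rw [div_le_iff₀ (by linarith)] at hn1
        linarith
      refine h4.trans (mul_le_mul_of_nonneg_left ?_ (by linarith))
      refine le_mul_of_one_le_right (by positivity) ?_
      exact_mod_cast NeZero.pos q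
    exact absurd (hout _ hmem) (not_lt.2 h2)
  have hqn : (q : ℝ) ≤ (n : ℝ) + 1 := by
    have : (q : ℝ) ≤ n := Nat.cast_le.2 (hq ▸ hρn)
    linarith
  have hα : |α - (ρ.num : ℝ) / q| ≤ 1 / (q : ℝ) ^ 2 := by
    refine hρ.trans (one_div_le_one_div_of_le (by positivity) ?_)
    rw [sq]
    exact mul_le_mul_of_nonneg_right hqn hq0.le
  have hlogB : 0 < Real.log N ^ B := pow_pos (lt_of_lt_of_le (by linarith) hlogN.1) B
  have hqN : (q : ℝ) ≤ N / Real.log N ^ B :=
    ((Nat.cast_le.2 (hq ▸ hρn)).trans (hn ▸ Nat.floor_le (by positivity))).trans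
      (div_le_div_of_nonneg_left hN0.le hlogB hRB)
  refine le_trans (hP ▸ hbd N q ρ.num α hunit hα (hRB.trans hqR.le) hqN) ?_
  have hsq : (N : ℝ) ^ (1 / 3 : ℝ) ≤ 2 * P := by
    rw [show (1 / 3 : ℝ) = ((3 : ℕ) : ℝ)⁻¹ by norm_num,
      Real.rpow_inv_le_iff_of_pos (Nat.cast_nonneg _) (by positivity) (by norm_num),
      Real.rpow_natCast]
    exact hN2P
  calc C * ((N : ℝ) ^ (1 / 3 : ℝ) / Real.log N ^ A) ≤ C * (2 * P / l ^ A) := by
        refine mul_le_mul_of_nonneg_left ?_ hC.le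
        exact div_le_div₀ (by positivity) hsq (by positivity)
          (pow_le_pow_left₀ (by linarith) hlogN.1 A)
    _ = _ := by ring

/-- **The major arcs and the singular series.** -/
theorem exists_circle_bound : ∃ (K N₀ : ℕ) (C : ℝ), 1 ≤ K ∧ 0 < C ∧ ∀ N P : ℕ, N₀ ≤ N →
    P = cubeRoot N → 1 ≤ Real.log P ∧
      ‖(nineSum Λ N : ℂ) - (WaringAsymptotic.weightConv (1 / 3) 9 N : ℂ) *
          ∑ q ∈ Icc 1 ⌊Real.log P ^ K⌋₊, singularTerm N q‖ ≤
        C * ((N : ℝ) ^ 2 / Real.log P) := by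
  obtain ⟨K, C₁, L₀, hK2, hC₁, hmin⟩ := exists_minor_bound 273
  obtain ⟨C₈, hC₈, hmom⟩ := exists_eighthMoment_le
  obtain ⟨C₂, hC₂, hmaj⟩ := exists_cube_major K (4 * K + 2)
  obtain ⟨K₀, hK₀, hpow⟩ := exists_log_pow_le (max (4 * K + 2) (3 * K))
  obtain ⟨Z₀, hZ₀⟩ : ∃ Z₀ : ℝ, Z₀ = ∑' q, absTerm q := ⟨_, rfl⟩
  have hZ₀0 : 0 ≤ Z₀ := hZ₀ ▸ tsum_nonneg absTerm_nonneg
  obtain ⟨T₀, hT₀⟩ : ∃ T₀ : ℕ,
      T₀ = max ⌈(2 * K₀ + 1) ^ 2⌉₊ ⌈Real.exp (max (max L₀ 4) 1)⌉₊ := ⟨_, rfl⟩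
  refine ⟨K, (T₀ + 1) ^ 3, C₁ * C₈ * 2 ^ 264 + 293 * (9 * 6 ^ 8 * 9 * (C₂ + 2 * K₀)) +
    Z₀ * (3 ^ 9 * 2 * 90), by omega, by positivity, fun N P hN hP => ?_⟩
  have hN1' : 1 ≤ N := le_trans (Nat.one_le_pow _ _ (by omega)) hN
  have hPN : P ^ 3 ≤ N := hP ▸ (cubeRoot_spec hN1').2.1
  have hNP : N < (P + 1) ^ 3 := hP ▸ (cubeRoot_spec hN1').2.2
  have hTP : T₀ + 1 ≤ P := by
    by_contra h
    have := Nat.pow_le_pow_left (show P + 1 ≤ T₀ + 1 by omega) 3
    omega
  obtain ⟨l, hl⟩ : ∃ l, l = Real.log P := ⟨_, rfl⟩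
  have hP1 : (1 : ℝ) ≤ P := by exact_mod_cast (show 1 ≤ P by omega)
  have hlge : max (max L₀ 4) 1 ≤ l := by
    rw [hl, Real.le_log_iff_exp_le (by linarith)]
    refine (Nat.le_ceil _).trans (Nat.cast_le.2 (le_trans ?_ hTP))
    rw [hT₀]
    exact le_trans (le_max_right _ _) (Nat.le_succ _)
  have hlL : L₀ ≤ l := (le_max_left _ _).trans ((le_max_left _ _).trans hlge)
  have hl4 : 4 ≤ l := (le_max_right _ _).trans ((le_max_left _ _).trans hlge)
  have hl1 : 1 ≤ l := (le_max_right _ _).trans hlge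
  rw [← hl]
  refine ⟨hl1, ?_⟩
  have hl0 : 0 < l := by linarith
  have hP2 : 2 ≤ P := by
    by_contra h
    interval_cases P <;> simp at hl <;> linarith
  have hPr : (2 : ℝ) ≤ P := by exact_mod_cast hP2
  have hN1 : 1 ≤ N := le_trans (Nat.one_le_pow _ _ (by omega)) hPN
  have hN0 : (0 : ℝ) < N := Nat.cast_pos.2 hN1
  have hN2P : (N : ℝ) ≤ (2 * (P : ℝ)) ^ 3 := by
    exact_mod_cast hNP.le.trans (Nat.pow_le_pow_left (show P + 1 ≤ 2 * P by omega) 3)
  have hPNr : (P : ℝ) ^ 3 ≤ N := by exact_mod_cast hPN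
  have hsPK : 2 * K₀ + 1 ≤ √(P : ℝ) := by
    refine Real.le_sqrt_of_sq_le ((Nat.le_ceil _).trans (Nat.cast_le.2 (le_trans ?_ hTP)))
    rw [hT₀]
    exact le_trans (le_max_left _ _) (Nat.le_succ _)
  have hsP : √(P : ℝ) ≤ P := by
    rw [Real.sqrt_le_left (by linarith)]
    nlinarith
  have hlpow : ∀ m, m ≤ max (4 * K + 2) (3 * K) → l ^ m ≤ K₀ * √(P : ℝ) := fun m hm =>
    (pow_le_pow_right₀ hl1 hm).trans (hl ▸ hpow P hP1)
  obtain ⟨R, hR⟩ : ∃ R, R = l ^ K := ⟨_, rfl⟩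
  have hR1 : 1 ≤ R := hR ▸ one_le_pow₀ hl1
  obtain ⟨Q, hQ⟩ : ∃ Q, Q = ⌊R⌋₊ := ⟨_, rfl⟩
  have hQR : (Q : ℝ) ≤ R := hQ ▸ Nat.floor_le (by linarith)
  rw [← hR, ← hQ]
  obtain ⟨M, hM⟩ : ∃ M, M = 9 * N := ⟨_, rfl⟩
  have : NeZero M := ⟨by omega⟩
  have hMr : (M : ℝ) = 9 * N := by rw [hM]; push_cast; ring
  have hM0 : (0 : ℝ) < M := by rw [hMr]; positivity
  obtain ⟨δ, hδ⟩ : ∃ δ, δ = R / (N : ℝ) := ⟨_, rfl⟩
  have hδ0 : 0 < δ := by rw [hδ]; positivity
  have hlogM : 1 + Real.log M ≤ 8 * l := by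
    have h1 : (M : ℝ) ≤ 2 ^ 7 * (P : ℝ) ^ 3 := by
      rw [hMr]
      rw [mul_pow] at hN2P
      linarith [pow_nonneg (Nat.cast_nonneg (α := ℝ) P) 3]
    have h2 := Real.log_le_log hM0 h1
    rw [Real.log_mul (by norm_num) (by positivity), Real.log_pow, Real.log_pow, ← hl] at h2
    push_cast at h2
    linarith [Real.log_two_lt_d9]
  obtain ⟨D, hD⟩ : ∃ D, D = (N : ℝ) ^ 2 / l := ⟨_, rfl⟩
  rw [← hD]
  have hP6 : (P : ℝ) ^ 6 ≤ (N : ℝ) ^ 2 := by
    rw [show (6 : ℕ) = 3 * 2 from rfl, pow_mul]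
    exact pow_le_pow_left₀ (by positivity) hPNr 2
  obtain ⟨F, hF⟩ : ∃ F : ℕ → ℂ, F = fun h : ℕ => cubeTwist ((h : ℝ) / M) Λ P ^ 9 *
      eAdd (-((N : ℝ) * ((h : ℝ) / M))) := ⟨_, rfl⟩
  obtain ⟨G, hG⟩ : ∃ G : (Σ _ : ℕ, ℕ) → ℕ → ℂ, G = fun z (h : ℕ) =>
      WaringAsymptotic.weightSum (1 / 3) N ((h : ℝ) / M + -centre z) ^ 9 *
        eAdd (-((N : ℝ) * ((h : ℝ) / M + -centre z))) := ⟨_, rfl⟩
  obtain ⟨minor, hminor⟩ : ∃ S : Finset ℕ,
      S = range M \ (arcCentres Q).biUnion (arc M δ) := ⟨_, rfl⟩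
  -- the minor arcs
  have p1 : ‖∑ h ∈ minor, F h‖ ≤ M * (C₁ * C₈ * 2 ^ 264 * D) := by
    refine (norm_sum_le _ _).trans ((sum_le_sum (g := fun h : ℕ =>
      C₁ * (P / l ^ 273) * ‖cubeTwist ((h : ℝ) / M) Λ P‖ ^ 8) fun h hh => ?_).trans ?_)
    · rw [hF, norm_mul, norm_eAdd, mul_one, norm_pow, pow_succ' _ 8]
      refine mul_le_mul_of_nonneg_right ?_ (by positivity)
      rw [hminor, mem_sdiff, mem_biUnion] at hh
      rw [hl] at hlL ⊢
      refine hmin N P _ hP hN1 hlL ?_ fun z hz => ?_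
      · rw [← hl]
        refine (hlpow K (le_trans (by omega) (le_max_right _ _))).trans (le_trans ?_ hPNr)
        refine le_trans (mul_le_mul (by linarith) hsP (Real.sqrt_nonneg _) (by linarith))
          (le_of_eq_of_le (sq (P : ℝ)).symm (pow_le_pow_right₀ hP1 (by norm_num)))
      · by_contra hle
        rw [← hl, ← hR] at hle hz
        exact hh.2 ⟨z, hQ ▸ hz, mem_filter.2 ⟨hh.1, hδ ▸ not_lt.1 hle⟩⟩
    · rw [← mul_sum]
      refine (mul_le_mul_of_nonneg_left (sum_le_sum_of_subset_of_nonneg (t := range M)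
        (hminor ▸ sdiff_subset) fun i _ _ => by positivity) (by positivity)).trans ?_
      refine (mul_le_mul_of_nonneg_left (sum_cubeTwist_pow_eight_le (f := Λ) (B := l)
        (fun n hn => ?_) (show 4 * P ^ 3 < M by omega)) (by positivity)).trans ?_
      · rw [mem_Ioc] at hn
        rw [abs_of_nonneg vonMangoldt_nonneg, hl]
        exact vonMangoldt_le_log.trans
          (Real.log_le_log (Nat.cast_pos.2 hn.1) (Nat.cast_le.2 hn.2))
      have h8 : (eighthMoment P : ℝ) ≤ C₈ * ((P : ℝ) ^ 5 * (2 * l) ^ 264) := by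
        refine (hmom P).trans (mul_le_mul_of_nonneg_left (mul_le_mul_of_nonneg_left
          (pow_le_pow_left₀ (zero_le_one.trans (one_le_logOne P)) ?_ 264) (by positivity)) hC₈.le)
        rw [logOne, ← hl]
        linarith
      refine (mul_le_mul_of_nonneg_left (mul_le_mul_of_nonneg_left (mul_le_mul_of_nonneg_left h8
        (by positivity)) hM0.le) (by positivity)).trans ?_
      calc C₁ * ((P : ℝ) / l ^ 273) * (M * (l ^ 8 * (C₈ * ((P : ℝ) ^ 5 * (2 * l) ^ 264))))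
          = (M : ℝ) * (C₁ * C₈ * 2 ^ 264 * ((P : ℝ) ^ 6 / l)) := by field_simp
        _ ≤ _ := by rw [hD]; gcongr
  -- the arcs
  have p3 : ‖∑ z ∈ arcCentres Q, ∑ h ∈ arc M δ z, (F h - arcFactor N z * G z h)‖ ≤
      M * (293 * (9 * 6 ^ 8 * 9 * (C₂ + 2 * K₀)) * D) := by
    have hone : ∀ z ∈ arcCentres Q, ∀ h ∈ arc M δ z, ‖F h - arcFactor N z * G z h‖ ≤
        9 * (6 * (P : ℝ)) ^ 8 * ((C₂ + 2 * K₀) * (P / l ^ (4 * K + 2)) * (9 * R)) := by
      intro z hz h hh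
      obtain ⟨q, r⟩ := z
      obtain ⟨⟨hq, hqQ⟩, -, -⟩ := mem_arcCentres.1 hz
      simp only at hq hqQ
      have : NeZero q := ⟨by omega⟩
      have hqR' : (q : ℝ) ≤ l ^ K := hR ▸ (Nat.cast_le.2 hqQ).trans hQR
      rw [arc, mem_filter, nearDist] at hh
      obtain ⟨j, hj⟩ : ∃ j, j = round ((h : ℝ) / M - centre ⟨q, r⟩) := ⟨_, rfl⟩
      obtain ⟨β, hβ⟩ : ∃ β, β = (h : ℝ) / M - centre ⟨q, r⟩ - j := ⟨_, rfl⟩
      rw [← hj, ← hβ] at hh
      have hq0 : (q : ℝ) ≠ 0 := Nat.cast_ne_zero.2 (by omega)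
      have hα : cubeTwist ((h : ℝ) / M) Λ P = cubeTwist (((r : ℤ) : ℝ) / (q : ℝ) + β) Λ P := by
        refine sum_congr rfl fun x _ => congrArg _ ?_
        rw [← eAdd_add_intCast _ (-(j * (x : ℤ) ^ 3)), hβ, centre]
        push_cast
        ring_nf
      have happ := hmaj N P q (r : ℤ) β hP2 hPN hNP (hl ▸ hqR')
      rw [← hα, ← hl] at happ
      rw [hF, hG, arcFactor]
      simp only
      rw [← sub_eq_add_neg, ← WaringAsymptotic.weightSum_sub_intCast _ N _ j, ← hβ]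
      have e : eAdd (-((N : ℝ) * centre ⟨q, r⟩)) *
          eAdd (-(N * ((h : ℝ) / M - centre ⟨q, r⟩))) = eAdd (-((N : ℝ) * ((h : ℝ) / M))) := by
        rw [← eAdd_add]
        ring_nf
      rw [mul_mul_mul_comm, e, ← sub_mul, norm_mul, norm_eAdd, mul_one, ← mul_pow]
      have hS : ‖cubeTwist ((h : ℝ) / M) Λ P‖ ≤ 6 * P := by
        refine (norm_sum_le _ _).trans (le_of_eq_of_le (sum_congr rfl fun n _ => ?_)
          (sum_vonMangoldt_le P))
        rw [norm_mul, norm_eAdd, mul_one, Complex.norm_real, Real.norm_eq_abs,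
          abs_of_nonneg vonMangoldt_nonneg]
      have hV : ‖primeFactor q r * WaringAsymptotic.weightSum (1 / 3) N β‖ ≤ 6 * P := by
        rw [norm_mul]
        refine (mul_le_of_le_one_left (norm_nonneg _) (norm_primeFactor_le_one _ _)).trans
          ((WaringAsymptotic.norm_weightSum_le (by norm_num) (by norm_num) N β).trans ?_)
        rw [show (1 / 3 : ℝ) = ((3 : ℕ) : ℝ)⁻¹ by norm_num,
          Real.rpow_inv_le_iff_of_pos (Nat.cast_nonneg _) (by positivity) (by norm_num),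
          Real.rpow_natCast]
        exact hN2P.trans (pow_le_pow_left₀ (by positivity) (by linarith) 3)
      refine (WaringAsymptotic.norm_pow_sub_pow_le hS hV 8).trans ?_
      rw [show ((8 + 1 : ℕ) : ℝ) = 9 by norm_num]
      refine mul_le_mul_of_nonneg_left (happ.trans ?_) (by positivity)
      refine mul_le_mul ?_ ?_ (by positivity) (by positivity)
      · rw [add_mul]
        refine add_le_add le_rfl ?_
        rw [mul_assoc, le_mul_iff_one_le_right two_pos, mul_div_assoc',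
          one_le_div (by positivity)]
        exact (hlpow _ (le_max_left _ _)).trans (mul_le_mul_of_nonneg_left hsP hK₀.le)
      · have h1 : |β| * N ≤ R := by
          rw [← le_div_iff₀ hN0, ← hδ]
          exact hh.2
        have := mul_le_mul_of_nonneg_left h1 (show (0 : ℝ) ≤ 2 * π by positivity)
        have := mul_le_mul_of_nonneg_right Real.pi_le_four (show (0 : ℝ) ≤ R by linarith)
        linarith
    refine (norm_sum_le _ _).trans ((sum_le_card_nsmul _ _ (293 * (R * l) *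
      (9 * (6 * (P : ℝ)) ^ 8 * ((C₂ + 2 * K₀) * (P / l ^ (4 * K + 2)) * (9 * R))))
      fun z hz => ?_).trans ?_)
    · refine (norm_sum_le _ _).trans ((sum_le_card_nsmul _ _ _ (hone z hz)).trans ?_)
      rw [nsmul_eq_mul]
      refine mul_le_mul_of_nonneg_right ((card_arc_le hδ0 z).trans ?_) (by positivity)
      have hMd : 4 * (M : ℝ) * δ = 36 * R := by rw [hMr, hδ]; field_simp; ring
      rw [hMd]
      have := mul_le_mul_of_nonneg_left hlogM (show 0 ≤ 36 * R by positivity)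
      have : 1 ≤ R * l := one_le_mul_of_one_le_of_one_le hR1 hl1
      linarith
    · rw [nsmul_eq_mul]
      have hcard : ((arcCentres Q).card : ℝ) ≤ R * R := by
        have h1 : (arcCentres Q).card ≤ Q * Q := by
          rw [arcCentres, card_sigma]
          refine (sum_le_card_nsmul _ _ Q fun q hq => ?_).trans (le_of_eq ?_)
          · rw [card_unitResidues]
            exact (Nat.totient_le q).trans (mem_Icc.1 hq).2
          · simp
        refine (Nat.cast_le.2 h1).trans ?_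
        push_cast
        exact mul_le_mul hQR hQR (Nat.cast_nonneg _) (by linarith)
      refine (mul_le_mul_of_nonneg_right hcard (by positivity)).trans ?_
      rw [hD, hR, show l ^ (4 * K + 2) = (l ^ K) ^ 4 * l * l by
        rw [← pow_mul, mul_assoc, ← sq, ← pow_add, mul_comm K 4]]
      calc l ^ K * l ^ K * (293 * (l ^ K * l) * (9 * (6 * (P : ℝ)) ^ 8 *
            ((C₂ + 2 * K₀) * (P / ((l ^ K) ^ 4 * l * l)) * (9 * l ^ K))))
          = 293 * (9 * 6 ^ 8 * 9 * (C₂ + 2 * K₀)) * ((P : ℝ) ^ 3 * ((P : ℝ) ^ 6 / l)) := by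
            field_simp
        _ ≤ 293 * (9 * 6 ^ 8 * 9 * (C₂ + 2 * K₀)) *
              ((M : ℝ) * ((N : ℝ) ^ 2 / l)) := by
            gcongr
            rw [hMr]
            linarith
        _ = _ := by ring
  -- off the arcs
  have p5 : ‖∑ z ∈ arcCentres Q, arcFactor N z * ∑ h ∈ range M \ arc M δ z, G z h‖ ≤
      M * (Z₀ * (3 ^ 9 * 2 * 90) * D) := by
    have hoff : ∀ z ∈ arcCentres Q, ‖∑ h ∈ range M \ arc M δ z, G z h‖ ≤
        (M : ℝ) * (3 ^ 9 * 2 * 90 * D) := by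
      intro z _
      obtain ⟨Z, hZ⟩ : ∃ Z, Z = 1 / (2 * δ) := ⟨_, rfl⟩
      have hZ0 : 0 < Z := by rw [hZ]; positivity
      refine (norm_sum_le _ _).trans ((sum_le_sum (g := fun h : ℕ =>
        3 ^ 9 * δ ^ (-2 : ℝ) * (2 * clip Z ((h : ℝ) / M - centre z))) fun h hh => ?_).trans
        ?_)
      · rw [mem_sdiff, arc, mem_filter, not_and, not_le] at hh
        have hd := hh.2 hh.1
        obtain ⟨d, hd'⟩ : ∃ d, d = nearDist ((h : ℝ) / M - centre z) := ⟨_, rfl⟩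
        rw [← hd'] at hd
        have hd0 : 0 < d := hδ0.trans hd
        rw [hG]
        simp only
        rw [← sub_eq_add_neg, norm_mul, norm_eAdd, mul_one, norm_pow]
        have h1 := WaringAsymptotic.norm_weightSum_le_inv (c := (1 / 3 : ℝ)) (by norm_num)
          (by norm_num) N (hd' ▸ hd0)
        rw [← hd'] at h1
        refine (pow_le_pow_left₀ (norm_nonneg _) h1 9).trans ?_
        have hclip : 2 * clip Z ((h : ℝ) / M - centre z) = d⁻¹ := by
          rw [clip, ← hd', if_neg hd0.ne', min_eq_right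
            (hZ ▸ one_div_le_one_div_of_le (by positivity) (by linarith))]
          field_simp
        rw [hclip, mul_pow, ← Real.rpow_natCast (d ^ _) 9, ← Real.rpow_mul hd0.le,
          show -(1 / 3 : ℝ) * ((9 : ℕ) : ℝ) = -2 + -1 by norm_num, Real.rpow_add hd0,
          Real.rpow_neg_one, ← mul_assoc]
        exact mul_le_mul_of_nonneg_right (mul_le_mul_of_nonneg_left
          (Real.rpow_le_rpow_of_nonpos hδ0 hd.le (by norm_num)) (by positivity)) (by positivity)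
      rw [← mul_sum, ← mul_sum]
      refine (mul_le_mul_of_nonneg_left (mul_le_mul_of_nonneg_left
        ((sum_le_sum_of_subset_of_nonneg sdiff_subset fun i _ _ => clip_nonneg hZ0.le _).trans
          (sum_clip_grid_le (centre z) hZ0.le)) two_pos.le) (by positivity)).trans ?_
      have hZM : 5 * Z + 2 * M * (1 + Real.log M) ≤ 45 * M * l := by
        have h1 : Z ≤ (M : ℝ) * 1 := by
          rw [hZ, hδ, hMr, show 1 / (2 * (R / (N : ℝ))) = N / (2 * R) by field_simp,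
            div_le_iff₀ (by positivity)]
          have := mul_le_mul_of_nonneg_left hR1 hN0.le
          linarith
        have h2 := mul_le_mul_of_nonneg_left hlogM (show 0 ≤ 2 * (M : ℝ) by positivity)
        have h3 := mul_le_mul_of_nonneg_left hl1 hM0.le
        linarith
      have hsave : δ ^ (-2 : ℝ) * l ≤ D := by
        rw [hδ, show (-2 : ℝ) = -((2 : ℕ) : ℝ) by norm_num, Real.rpow_neg (by positivity),
          Real.rpow_natCast, hD, le_div_iff₀ hl0, div_pow, inv_div, div_mul_eq_mul_div,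
          div_mul_eq_mul_div, div_le_iff₀ (by positivity)]
        have h1 : l * l ≤ R ^ 2 := by
          rw [← sq]
          refine pow_le_pow_left₀ hl0.le ?_ 2
          rw [hR]
          exact le_self_pow₀ hl1 (by omega)
        calc (N : ℝ) ^ 2 * l * l = (N : ℝ) ^ 2 * (l * l) := by ring
          _ ≤ (N : ℝ) ^ 2 * R ^ 2 := mul_le_mul_of_nonneg_left h1 (by positivity)
      calc 3 ^ 9 * δ ^ (-2 : ℝ) * (2 * (5 * Z + 2 * M * (1 + Real.log M)))
          ≤ 3 ^ 9 * δ ^ (-2 : ℝ) * (2 * (45 * M * l)) := by gcongr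
        _ = 3 ^ 9 * 90 * M * (δ ^ (-2 : ℝ) * l) := by ring
        _ ≤ 3 ^ 9 * 90 * M * D := mul_le_mul_of_nonneg_left hsave (by positivity)
        _ ≤ _ := by
            have : 0 ≤ (M : ℝ) * D := mul_nonneg hM0.le (hD ▸ by positivity)
            linarith
    refine (norm_sum_le _ _).trans ((sum_le_sum fun z hz => ?_).trans
      ((sum_mul _ _ ((M : ℝ) * (3 ^ 9 * 2 * 90 * D))).ge.trans ((mul_le_mul_of_nonneg_right
        (sum_norm_arcFactor_le N Q) (mul_nonneg hM0.le (hD ▸ by positivity))).trans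
          (le_of_eq (by rw [hZ₀]; ring)))))
    rw [norm_mul]
    exact mul_le_mul_of_nonneg_left (hoff z hz) (norm_nonneg _)
  -- the arcs are apart
  have hsep : ((arcCentres Q : Set (Σ _ : ℕ, ℕ))).PairwiseDisjoint (arc M δ) := by
    intro z hz w hw hne
    rw [Function.onFun, disjoint_left]
    intro x hx hx'
    rw [arc, mem_filter] at hx hx'
    have h1 := inv_mul_le_nearDist_centre (mem_coe.1 hz) (mem_coe.1 hw) hne
    have h2 := nearDist_sub_sub_le (centre z) (centre w) ((x : ℝ) / M)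
    have hQ0 : (0 : ℝ) < Q := by
      rw [hQ, Nat.cast_pos, Nat.floor_pos]
      exact hR1
    have h3 : 2 * δ < 1 / ((Q : ℝ) * Q) := by
      rw [hδ, mul_div_assoc', div_lt_div_iff₀ hN0 (by positivity), one_mul]
      calc 2 * R * ((Q : ℝ) * Q) ≤ 2 * (R * (R * R)) := by
            rw [mul_assoc]
            gcongr
        _ ≤ 2 * (K₀ * √(P : ℝ)) := by
            refine mul_le_mul_of_nonneg_left (le_of_eq_of_le ?_
              (hlpow (3 * K) (le_max_right _ _))) zero_le_two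
            rw [hR, ← pow_add, ← pow_add]
            congr 1
            omega
        _ < √(P : ℝ) * √(P : ℝ) := by
            have : 0 < √(P : ℝ) := Real.sqrt_pos.2 (by linarith)
            nlinarith
        _ = P := Real.mul_self_sqrt (by linarith)
        _ ≤ N := le_trans (le_self_pow₀ hP1 three_ne_zero) hPNr
    linarith
  have hdecomp : ∑ h ∈ range M, F h =
      ∑ h ∈ minor, F h + ∑ z ∈ arcCentres Q, ∑ h ∈ arc M δ z, F h := by
    rw [← sum_biUnion hsep, hminor, sum_sdiff]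
    exact biUnion_subset.2 fun z _ => filter_subset _ _
  have hident : (M : ℂ) * nineSum Λ N - (M : ℂ) * WaringAsymptotic.weightConv (1 / 3) 9 N *
      ∑ z ∈ arcCentres Q, arcFactor N z =
      ∑ h ∈ minor, F h + ∑ z ∈ arcCentres Q, ∑ h ∈ arc M δ z, (F h - arcFactor N z * G z h) -
        ∑ z ∈ arcCentres Q, arcFactor N z * ∑ h ∈ range M \ arc M δ z, G z h := by
    have h1 : ∀ z ∈ arcCentres Q,
        (M : ℂ) * WaringAsymptotic.weightConv (1 / 3) 9 N * arcFactor N z =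
          ∑ h ∈ arc M δ z, arcFactor N z * G z h +
            arcFactor N z * ∑ h ∈ range M \ arc M δ z, G z h := by
      intro z _
      rw [← mul_sum, ← mul_add, add_comm (∑ h ∈ arc M δ z, _), sum_sdiff
        (show arc M δ z ⊆ range M from filter_subset _ _),
        show ∑ h ∈ range M, G z h = (M : ℂ) * WaringAsymptotic.weightConv (1 / 3) 9 N by
          rw [hG]; exact sum_grid_conv hN1 hM _]
      ring
    rw [← sum_grid_nineSum Λ hN1 hM hPN hNP, mul_sum, sum_congr rfl h1, sum_add_distrib,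
      show ∑ h ∈ range M, cubeTwist ((h : ℝ) / M) Λ P ^ 9 * eAdd (-((N : ℝ) * ((h : ℝ) / M))) =
        ∑ h ∈ range M, F h by rw [hF], hdecomp]
    simp only [sum_sub_distrib]
    ring
  refine le_of_mul_le_mul_left ?_ hM0
  rw [← Complex.norm_natCast M, ← norm_mul, mul_sub, ← mul_assoc, ← sum_arcFactor, hident,
    Complex.norm_natCast]
  refine (norm_sub_le _ _).trans ((add_le_add ((norm_add_le _ _).trans (add_le_add p1 p3))
    p5).trans (le_of_eq ?_))
  ring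

end FA.HuaCubes
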