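import Fermat.Agent.HuaSquares.CompleteSum

/-!
# The complete sums over units, cubes

`C_q (a) = ∑ e (a x³ / q)` over the `x` prime to `q` is multiplicative, vanishes modulo the prime
powers `p ^ l` with `l ≥ 2`, `p ≠ 3`, and `3 ^ l` with `l ≥ 3`, and is `O (√p)` modulo a prime.
-/

set_option autoImplicit false

noncomputable section

namespace FA.HuaCubes

open Finset FA.ThreePrimes FA.WaringAsymptotic

/-- `C_q (a)`. -/
def primeCubeSum (q : ℕ) (a : ℤ) : ℂ :=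
  ∑ r ∈ unitResidues q, eAdd ((a : ℝ) * (r : ℝ) ^ 3 / q)

/-- `C_q (a) / φ q`. -/
def primeFactor (q : ℕ) (a : ℤ) : ℂ := primeCubeSum q a / q.totient

theorem eAdd_cube_eq_char {q : ℕ} [NeZero q] (a : ℤ) (r : ℕ) :
    eAdd ((a : ℝ) * (r : ℝ) ^ 3 / q) = ZMod.stdAddChar ((a : ZMod q) * (r : ZMod q) ^ 3) := by
  have h := eAdd_div_eq_char (q := q) (a * (r : ℤ) ^ 3)
  push_cast at h
  exact h

theorem primeCubeSum_eq (q : ℕ) [NeZero q] (a : ℤ) :
    primeCubeSum q a = ∑ u : (ZMod q)ˣ, ZMod.stdAddChar ((a : ZMod q) * (u : ZMod q) ^ 3) := by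
  rw [primeCubeSum, ← HuaSquares.sum_unitResidues_eq_units
    fun x : ZMod q => ZMod.stdAddChar ((a : ZMod q) * x ^ 3)]
  exact sum_congr rfl fun r _ => eAdd_cube_eq_char a r

theorem norm_primeCubeSum_le (q : ℕ) (a : ℤ) : ‖primeCubeSum q a‖ ≤ q.totient := by
  refine (norm_sum_le _ _).trans ?_
  simp [norm_eAdd, card_unitResidues]

theorem norm_primeFactor_le_one (q : ℕ) (a : ℤ) : ‖primeFactor q a‖ ≤ 1 := by
  rw [primeFactor, norm_div, Complex.norm_natCast]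
  exact div_le_one_of_le₀ (norm_primeCubeSum_le q a) (Nat.cast_nonneg _)

/-- **Multiplicativity.** -/
theorem primeCubeSum_crt {q₁ q₂ : ℕ} (hco : q₁.Coprime q₂) (h₁ : 0 < q₁) (h₂ : 0 < q₂)
    (r₁ r₂ : ℕ) : primeCubeSum (q₁ * q₂) (crtResidue q₁ q₂ r₁ r₂ : ℕ) =
      primeCubeSum q₁ r₁ * primeCubeSum q₂ r₂ := by
  have : NeZero q₁ := ⟨h₁.ne'⟩
  have : NeZero q₂ := ⟨h₂.ne'⟩
  obtain ⟨hinj, himg⟩ := HuaSquares.crtResidue_bijOn hco
  obtain ⟨G₁, hG₁⟩ : ∃ G : ZMod q₁ → ℂ,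
      G = fun x => ZMod.stdAddChar (((r₁ : ℤ) : ZMod q₁) * x ^ 3) := ⟨_, rfl⟩
  obtain ⟨G₂, hG₂⟩ : ∃ G : ZMod q₂ → ℂ,
      G = fun x => ZMod.stdAddChar (((r₂ : ℤ) : ZMod q₂) * x ^ 3) := ⟨_, rfl⟩
  have key : ∀ z ∈ unitResidues q₁ ×ˢ unitResidues q₂,
      eAdd ((((crtResidue q₁ q₂ r₁ r₂ : ℕ) : ℤ) : ℝ) *
        ((crtResidue q₁ q₂ z.1 z.2 : ℕ) : ℝ) ^ 3 / (q₁ * q₂ : ℕ)) =
      G₁ ((z.1 : ZMod q₁) * (q₂ : ZMod q₁)) * G₂ ((z.2 : ZMod q₂) * (q₁ : ZMod q₂)) := by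
    intro z _
    obtain ⟨x, hx⟩ : ∃ x, x = crtResidue q₁ q₂ z.1 z.2 := ⟨_, rfl⟩
    rw [← crtResidue_cast_left q₁ q₂ z.1 z.2, ← crtResidue_cast_right q₁ q₂ z.1 z.2, ← hx, hG₁, hG₂]
    simp only
    rw [← eAdd_cube_eq_char, ← eAdd_cube_eq_char, Int.cast_natCast, Int.cast_natCast,
      Int.cast_natCast]
    have h := HuaSquares.eAdd_crt_split h₁ h₂ r₁ r₂ ((x : ℤ) ^ 3)
    push_cast at h ⊢
    rw [mul_comm ((crtResidue q₁ q₂ r₁ r₂ : ℕ) : ℝ), h, mul_comm ((x : ℝ) ^ 3),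
      mul_comm ((x : ℝ) ^ 3)]
  rw [primeCubeSum, ← himg, sum_image hinj, sum_congr rfl key, sum_product]
  simp only
  rw [← sum_mul_sum]
  have hperm : ∀ (q : ℕ) [NeZero q] (G : ZMod q → ℂ) (w : (ZMod q)ˣ),
      ∑ u : (ZMod q)ˣ, G ((u : ZMod q) * w) = ∑ u : (ZMod q)ˣ, G u := fun q _ G w =>
    Fintype.sum_equiv (Equiv.mulRight w) _ _ fun u => by simp
  rw [HuaSquares.sum_unitResidues_eq_units (fun x => G₁ (x * (q₂ : ZMod q₁))),
    HuaSquares.sum_unitResidues_eq_units (fun x => G₂ (x * (q₁ : ZMod q₂))),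
    ← IsUnit.unit_spec ((ZMod.isUnit_iff_coprime q₂ q₁).2 hco.symm),
    ← IsUnit.unit_spec ((ZMod.isUnit_iff_coprime q₁ q₂).2 hco), hperm, hperm,
    primeCubeSum_eq, primeCubeSum_eq, hG₁, hG₂]

/-- **The descent**: an element `π` with `3 π² = π³ = 0` and `3 π ≠ 0` kills the sum. -/
theorem primeCubeSum_eq_zero {q : ℕ} [NeZero q] {π : ZMod q} (hπ2 : 3 * (π * π) = 0)
    (hπ3 : π * π * π = 0) (h3π : 3 * π ≠ 0) {a : ℤ} (ha : IsUnit (a : ZMod q)) :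
    primeCubeSum q a = 0 := by
  rw [primeCubeSum_eq]
  obtain ⟨S, hS⟩ : ∃ S, S = ∑ u : (ZMod q)ˣ, ZMod.stdAddChar ((a : ZMod q) * (u : ZMod q) ^ 3) :=
    ⟨_, rfl⟩
  rw [← hS]
  have hshift : ∀ t : ZMod q, S = ∑ u : (ZMod q)ˣ, ZMod.stdAddChar ((a : ZMod q) * (u : ZMod q) ^ 3)
      * ZMod.stdAddChar (t * ((a : ZMod q) * (u : ZMod q) ^ 3 * (3 * π))) := by
    intro t
    obtain ⟨w, hw⟩ : ∃ w : (ZMod q)ˣ, (w : ZMod q) = 1 + t * π :=
      ⟨⟨1 + t * π, 1 - t * π + t ^ 2 * (π * π), by linear_combination (t ^ 3) * hπ3,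
        by linear_combination (t ^ 3) * hπ3⟩, rfl⟩
    rw [hS]
    refine (Fintype.sum_equiv (Equiv.mulRight w) _ _ fun u => ?_).symm
    rw [← AddChar.map_add_eq_mul]
    simp only [Equiv.coe_mulRight, Units.val_mul, hw]
    congr 1
    linear_combination (-((a : ZMod q) * (u : ZMod q) ^ 3 * t ^ 2)) * hπ2 -
      ((a : ZMod q) * (u : ZMod q) ^ 3 * t ^ 3) * hπ3
  have h0 : (q : ℂ) * S = 0 := by
    rw [show (q : ℂ) * S = ∑ t : ZMod q, S by simp, sum_congr rfl fun t _ => hshift t, sum_comm]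
    refine sum_eq_zero fun u _ => ?_
    rw [← mul_sum, AddChar.sum_mulShift _ (ZMod.isPrimitive_stdAddChar q), if_neg, Nat.cast_zero,
      mul_zero]
    intro h
    exact h3π ((ha.mul (u.isUnit.pow 3)).mul_left_cancel (h.trans (mul_zero _).symm))
  exact (mul_eq_zero.1 h0).resolve_left (Nat.cast_ne_zero.2 (NeZero.ne q))

theorem primeCubeSum_primePow {p l : ℕ} (hp : p.Prime) (hl : 2 ≤ l) (h3 : p ≠ 3 ∨ 3 ≤ l) {a : ℤ}
    (ha : IsUnit (a : ZMod (p ^ l))) : primeCubeSum (p ^ l) a = 0 := by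
  have : NeZero (p ^ l) := ⟨pow_ne_zero _ hp.ne_zero⟩
  obtain ⟨e, he, he3, hlt, hp3⟩ : ∃ e, (p = 3 → l ≤ e + e + 1) ∧ (p ≠ 3 → l ≤ e + e) ∧
      e < l ∧ (p = 3 → e + 1 < l ∧ l ≤ e + e + e) := by
    rcases eq_or_ne p 3 with rfl | hne
    · exact ⟨l - 2, fun _ => by omega, fun h => absurd rfl h, by omega, fun _ => by omega⟩
    · exact ⟨l - 1, fun _ => by omega, fun _ => by omega, by omega, fun h => absurd h hne⟩
  refine primeCubeSum_eq_zero (π := ((p ^ e : ℕ) : ZMod (p ^ l))) ?_ ?_ ?_ ha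
  · rw [← Nat.cast_mul, ← pow_add, ← Nat.cast_ofNat (R := ZMod (p ^ l)), ← Nat.cast_mul,
      ZMod.natCast_eq_zero_iff]
    rcases eq_or_ne p 3 with rfl | hne
    · rw [← pow_succ']
      exact pow_dvd_pow 3 (he rfl)
    · exact (pow_dvd_pow p (he3 hne)).mul_left 3
  · rw [← Nat.cast_mul, ← Nat.cast_mul, ← pow_add, ← pow_add, ZMod.natCast_eq_zero_iff]
    refine pow_dvd_pow p ?_
    rcases eq_or_ne p 3 with rfl | hne
    · exact (hp3 rfl).2
    · have := he3 hne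
      omega
  · intro h
    rw [← Nat.cast_ofNat, ← Nat.cast_mul, ZMod.natCast_eq_zero_iff] at h
    rcases eq_or_ne p 3 with rfl | hne
    · rw [← pow_succ'] at h
      have := (Nat.pow_dvd_pow_iff_le_right (by norm_num : 1 < 3)).1 h
      have := (hp3 rfl).1
      omega
    · have h1 := (Nat.Coprime.pow_left l
        ((Nat.coprime_primes hp Nat.prime_three).2 hne)).dvd_of_dvd_mul_left h
      have := (Nat.pow_dvd_pow_iff_le_right hp.one_lt).1 h1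
      omega

/-- **Modulo a prime.** -/
theorem norm_primeCubeSum_prime_le {p : ℕ} (hp : p.Prime) {a : ℤ} (ha : IsUnit (a : ZMod p)) :
    ‖primeCubeSum p a‖ ≤ 7 * √(p : ℝ) := by
  have h := norm_completeSum_prime_le hp (k := 3) (by norm_num) ha
  have e : completeSum 3 p a = primeCubeSum p a + 1 := by
    have : unitResidues p = (range p).erase 0 := by
      ext r
      rw [unitResidues, mem_filter, mem_range, mem_erase, mem_range, hp.coprime_iff_not_dvd]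
      constructor
      · rintro ⟨h1, h2⟩
        exact ⟨fun h0 => h2 (h0 ▸ dvd_zero p), h1⟩
      · rintro ⟨h1, h2⟩
        exact ⟨h2, fun hd => absurd (Nat.le_of_dvd (by omega) hd) (by omega)⟩
    rw [completeSum, primeCubeSum, this, ← sum_erase_add _ _ (mem_range.2 hp.pos)]
    simp
  have h1 : (1 : ℝ) ≤ √(p : ℝ) := Real.one_le_sqrt.2 (by exact_mod_cast hp.one_le)
  rw [show primeCubeSum p a = completeSum 3 p a - 1 by rw [e]; ring]
  refine (norm_sub_le _ _).trans ?_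
  rw [norm_one]
  push_cast at h
  linarith

end FA.HuaCubes
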