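import Fermat.Agent.ThreePrimes.Vaughan
import Mathlib.RingTheory.ZMod.UnitsCyclic
import Mathlib.Data.Nat.Factorization.Induction
import Mathlib.NumberTheory.Harmonic.Bounds
import Mathlib.Data.Finset.NatDivisors

/-!
# Divisor bounds

`d (n) ≤ (2 D) ^ j` if `n² ≤ R ^ j` and `d (m) ≤ D` for the divisors `m ≤ R` of `n`; the mean values
of powers of `d (n)`; at most `d (m)²` cube roots of one modulo `m`; and so
`∑_{u < x ≤ P} d (x³ - u³) = O (P² (log P) ^ C)`.
-/

set_option autoImplicit false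

noncomputable section

namespace FA.HuaCubes

open Finset FA.ThreePrimes
open scoped Pointwise

theorem card_divisors_mul_le (a b : ℕ) :
    (a * b).divisors.card ≤ a.divisors.card * b.divisors.card := by
  rw [Nat.divisors_mul]
  exact card_mul_le

/-- **The small divisors control the divisor function.** -/
theorem card_divisors_le_of_small {R D : ℕ} (hR : 2 ≤ R) : ∀ j n : ℕ, 1 ≤ n → n ^ 2 ≤ R ^ j →
    (∀ d, d ∣ n → d ≤ R → d.divisors.card ≤ D) → n.divisors.card ≤ (2 * D) ^ j := by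
  intro j
  induction j with
  | zero =>
    intro n hn h _
    obtain rfl : n = 1 := by
      have h1 := Nat.le_self_pow two_ne_zero n
      rw [pow_zero] at h
      omega
    simp
  | succ j ih =>
    intro n hn h hD
    have hD1 : 1 ≤ D := by simpa using hD 1 (one_dvd n) (by omega)
    rcases le_or_gt n R with hnR | hnR
    · exact (hD n dvd_rfl hnR).trans ((Nat.le_mul_of_pos_left D two_pos).trans
        (Nat.le_self_pow (Nat.succ_ne_zero j) _))
    have key : ∀ d m : ℕ, n = d * m → R ≤ d ^ 2 → d.divisors.card ≤ 2 * D →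
        n.divisors.card ≤ (2 * D) ^ (j + 1) := by
      intro d m e hd hc
      subst e
      have hm : m ^ 2 * R ≤ R ^ j * R := by
        rw [← pow_succ]
        refine le_trans ?_ h
        rw [mul_pow, mul_comm]
        exact Nat.mul_le_mul_right _ hd
      refine (card_divisors_mul_le d m).trans ?_
      rw [pow_succ']
      exact Nat.mul_le_mul hc (ih m (Nat.pos_of_mul_pos_left (show 0 < d * m by omega))
        (Nat.le_of_mul_le_mul_right hm (by omega))
        fun e he => hD e (he.mul_left d))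
    by_cases hp : ∃ p, p.Prime ∧ p ∣ n ∧ R < p
    · obtain ⟨p, hp, ⟨m, hm⟩, hpR⟩ := hp
      refine key p m hm (hpR.le.trans (Nat.le_self_pow two_ne_zero p)) ?_
      rw [hp.divisors, card_pair hp.one_lt.ne]
      omega
    · obtain ⟨d, hd⟩ : ∃ d, d = Nat.findGreatest (· ∣ n) R := ⟨_, rfl⟩
      have hdn : d ∣ n := hd ▸ Nat.findGreatest_spec (P := (· ∣ n)) (show 1 ≤ R by omega) (one_dvd n)
      have hdR : d ≤ R := hd ▸ Nat.findGreatest_le R
      have hd1 : 1 ≤ d := hd ▸ Nat.le_findGreatest (P := (· ∣ n)) (show 1 ≤ R by omega) (one_dvd n)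
      obtain ⟨m, hm⟩ := hdn
      refine key d m hm ?_ ((hD d ⟨m, hm⟩ hdR).trans (Nat.le_mul_of_pos_left D two_pos))
      by_contra hlt
      push Not at hlt
      have hm1 : m ≠ 1 := by rintro rfl; omega
      obtain ⟨p, hp', hpm⟩ := Nat.exists_prime_and_dvd hm1
      have hpn : p ∣ n := hm ▸ hpm.mul_left d
      have hpR : p ≤ R := by
        by_contra h'
        exact hp ⟨p, hp', hpn, by omega⟩
      have hmax : ∀ e, e ∣ n → e ≤ R → e ≤ d := fun e he heR =>
        hd ▸ Nat.le_findGreatest (P := (· ∣ n)) heR he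
      have hpd : p ≤ d := hmax p hpn hpR
      have hpd2 : p * d ≤ R := by
        refine (Nat.mul_le_mul_right d hpd).trans ?_
        rw [← sq]
        exact hlt.le
      have := hmax (p * d) (by rw [hm, mul_comm p d]; exact mul_dvd_mul_left d hpm) hpd2
      have := (Nat.lt_mul_iff_one_lt_left (by omega : 0 < d)).2 hp'.one_lt
      omega

/-- A power of the divisor function. -/
def tauPow (e n : ℕ) : ℝ := (n.divisors.card : ℝ) ^ e

theorem tauPow_nonneg (e n : ℕ) : 0 ≤ tauPow e n := by unfold tauPow; positivity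

theorem one_le_tauPow (e : ℕ) {n : ℕ} (hn : n ≠ 0) : 1 ≤ tauPow e n :=
  one_le_pow₀ (by exact_mod_cast card_pos.2 (Nat.nonempty_divisors.2 hn))

theorem tauPow_mul_le (e a b : ℕ) : tauPow e (a * b) ≤ tauPow e a * tauPow e b := by
  rw [tauPow, tauPow, tauPow, ← mul_pow]
  exact pow_le_pow_left₀ (Nat.cast_nonneg _) (by exact_mod_cast card_divisors_mul_le a b) e

theorem logOne_mono {m n : ℕ} (h : m ≤ n) : logOne m ≤ logOne n := by
  rcases Nat.eq_zero_or_pos m with rfl | hm
  · simpa [logOne] using one_le_logOne n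
  unfold logOne
  linarith [Real.log_le_log (Nat.cast_pos.2 hm) (Nat.cast_le.2 h : (m : ℝ) ≤ n)]

theorem sum_inv_le_logOne (X : ℕ) : ∑ n ∈ Ioc 0 X, (n : ℝ)⁻¹ ≤ logOne X := by
  refine le_trans (le_of_eq ?_) (harmonic_le_one_add_log X)
  simp [harmonic_eq_sum_Icc, ← Icc_add_one_left_eq_Ioc]

theorem sum_tauPow_succ_le (e X : ℕ) (w : ℕ → ℝ) (hw : ∀ n, 0 ≤ w n) :
    ∑ n ∈ Ioc 0 X, tauPow (e + 1) n * w n ≤
      ∑ a ∈ Ioc 0 X, ∑ b ∈ Ioc 0 (X / a), tauPow e a * tauPow e b * w (a * b) := by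
  have h1 : ∀ n ∈ Ioc 0 X, tauPow (e + 1) n * w n ≤
      ∑ z ∈ (Ioc 0 X ×ˢ Ioc 0 X) with z.1 * z.2 = n,
        tauPow e z.1 * tauPow e z.2 * w (z.1 * z.2) := by
    intro n hn
    rw [mem_Ioc] at hn
    rw [← Nat.divisorsAntidiagonal_eq_prod_filter_of_le hn.1.ne' hn.2]
    have hc : (n.divisorsAntidiagonal.card : ℝ) = n.divisors.card := by
      rw [← Nat.map_div_right_divisors, card_map]
    refine le_trans (le_of_eq ?_) (card_nsmul_le_sum _ _ (tauPow e n * w n) fun z hz => ?_)
    · rw [nsmul_eq_mul, hc, tauPow, tauPow, pow_succ']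
      ring
    · rw [Nat.mem_divisorsAntidiagonal] at hz
      rw [← hz.1]
      exact mul_le_mul_of_nonneg_right (tauPow_mul_le e _ _) (hw _)
  refine (sum_le_sum h1).trans (le_of_eq ?_)
  rw [sum_fiberwise_eq_sum_filter]
  simp only [sum_filter, sum_product]
  refine sum_congr rfl fun a ha => ?_
  rw [mem_Ioc] at ha
  rw [← sum_filter]
  refine sum_congr (ext fun b => ?_) fun _ _ => rfl
  simp only [mem_filter, mem_Ioc, Nat.le_div_iff_mul_le ha.1, mul_comm a b]
  constructor
  · rintro ⟨⟨h1, -⟩, -, h3⟩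
    exact ⟨h1, h3⟩
  · rintro ⟨h1, h2⟩
    exact ⟨⟨h1, (Nat.le_mul_of_pos_right b ha.1).trans h2⟩, Nat.mul_pos h1 ha.1, h2⟩

theorem sum_tauPow_div_le : ∀ e X : ℕ,
    ∑ n ∈ Ioc 0 X, tauPow e n / n ≤ logOne X ^ 2 ^ e
  | 0, X => by simpa [tauPow] using sum_inv_le_logOne X
  | e + 1, X => by
    simp only [div_eq_mul_inv]
    refine (sum_tauPow_succ_le e X (fun n => (n : ℝ)⁻¹) fun n => by positivity).trans ?_
    rw [pow_succ 2 e, pow_mul, sq]
    refine (sum_le_sum (g := fun a => tauPow e a / a * logOne X ^ 2 ^ e) fun a _ => ?_).trans ?_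
    · have h := (sum_tauPow_div_le e (X / a)).trans
        (pow_le_pow_left₀ (zero_le_one.trans (one_le_logOne _))
          (logOne_mono (Nat.div_le_self X a)) _)
      refine le_trans (le_of_eq ?_) (mul_le_mul_of_nonneg_left h
        (div_nonneg (tauPow_nonneg e a) (Nat.cast_nonneg a)))
      rw [mul_sum]
      refine sum_congr rfl fun b _ => ?_
      push_cast
      rw [mul_inv]
      ring
    · rw [← sum_mul]
      exact mul_le_mul_of_nonneg_right (sum_tauPow_div_le e X)
        (pow_nonneg (zero_le_one.trans (one_le_logOne X)) _)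

/-- **Mean values of powers of the divisor function.** -/
theorem sum_tauPow_le : ∀ e X : ℕ, ∑ n ∈ Ioc 0 X, tauPow e n ≤ X * logOne X ^ (2 ^ e - 1)
  | 0, X => by simp [tauPow]
  | e + 1, X => by
    refine le_trans (le_of_eq (sum_congr rfl fun n _ => (mul_one _).symm))
      ((sum_tauPow_succ_le e X (fun _ => (1 : ℝ)) fun _ => zero_le_one).trans ?_)
    have hL : 0 ≤ logOne X := zero_le_one.trans (one_le_logOne X)
    refine (sum_le_sum (g := fun a => tauPow e a / a * (X * logOne X ^ (2 ^ e - 1)))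
      fun a _ => ?_).trans ?_
    · simp only [mul_one, ← mul_sum]
      refine (mul_le_mul_of_nonneg_left ((sum_tauPow_le e (X / a)).trans (mul_le_mul
        Nat.cast_div_le (pow_le_pow_left₀ (zero_le_one.trans (one_le_logOne _))
          (logOne_mono (Nat.div_le_self X a)) _)
        (pow_nonneg (zero_le_one.trans (one_le_logOne _)) _) (by positivity)))
        (tauPow_nonneg e a)).trans (le_of_eq ?_)
      ring
    · rw [← sum_mul]
      refine (mul_le_mul_of_nonneg_right (sum_tauPow_div_le e X) (by positivity)).trans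
        (le_of_eq ?_)
      rw [mul_left_comm, ← pow_add]
      congr 2
      have := Nat.two_pow_pos e
      rw [pow_succ]
      omega

/-! ### Cube roots of one -/

/-- The cube roots of one modulo `m`. -/
def cubeRoots (m : ℕ) : Finset ℕ := (range m).filter fun r : ℕ => (r : ZMod m) ^ 3 = 1

theorem card_cubeRoots_primePow {p l : ℕ} (hp : p.Prime) :
    (cubeRoots (p ^ l)).card ≤ (p ^ l).divisors.card ^ 2 := by
  classical
  have : NeZero (p ^ l) := ⟨(pow_pos hp.pos l).ne'⟩
  rw [Nat.divisors_prime_pow hp l, card_map, card_range]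
  rcases Nat.eq_zero_or_pos l with rfl | hl
  · exact (card_filter_le _ _).trans (by simp)
  have h3 : ((univ : Finset (ZMod (p ^ l))ˣ).filter fun u => u ^ 3 = 1).card ≤ (l + 1) ^ 2 := by
    by_cases h2 : p = 2
    · subst h2
      refine le_trans (card_le_one.2 fun u hu v hv => ?_) (Nat.one_le_pow _ _ (by omega))
      have key : ∀ w : (ZMod (2 ^ l))ˣ, w ^ 3 = 1 → w = 1 := fun w hw => by
        have h := pow_gcd_eq_one.2 ⟨hw, ZMod.pow_totient w⟩
        have hg : Nat.gcd 3 (2 ^ l).totient = 1 := by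
          rw [Nat.totient_prime_pow Nat.prime_two hl]
          simp only [Nat.add_one_sub_one, mul_one]
          exact Nat.Coprime.pow_right _ (by norm_num)
        rwa [hg, pow_one] at h
      rw [key u (mem_filter.1 hu).2, key v (mem_filter.1 hv).2]
    · have : IsCyclic (ZMod (p ^ l))ˣ := ZMod.isCyclic_units_of_prime_pow p hp h2 l
      refine (IsCyclic.card_pow_eq_one_le (by norm_num : 0 < 3)).trans ?_
      calc 3 ≤ (1 + 1) ^ 2 := by norm_num
        _ ≤ _ := Nat.pow_le_pow_left (by omega) 2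
  refine le_trans (le_trans (card_le_card_of_injOn (fun r : ℕ => (r : ZMod (p ^ l)))
    (t := ((univ : Finset (ZMod (p ^ l))ˣ).filter fun u => u ^ 3 = 1).image Units.val)
    (fun r hr => ?_) fun r hr s hs e => ?_) card_image_le) h3
  · simp only [cubeRoots, mem_coe, mem_filter, mem_range] at hr
    obtain ⟨u, hu⟩ := IsUnit.of_pow_eq_one hr.2 (by norm_num)
    simp only [mem_coe, mem_image, mem_filter, mem_univ, true_and]
    exact ⟨u, Units.ext (by rw [Units.val_pow_eq_pow_val, hu, hr.2, Units.val_one]), hu⟩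
  · simp only [cubeRoots, mem_coe, mem_filter, mem_range] at hr hs
    have := congrArg ZMod.val e
    rwa [ZMod.val_cast_of_lt hr.1, ZMod.val_cast_of_lt hs.1] at this

theorem cubeRoots_mem_of_dvd {m d r : ℕ} (hd : d ∣ m) (hd0 : 0 < d) (hr : r ∈ cubeRoots m) :
    r % d ∈ cubeRoots d := by
  simp only [cubeRoots, mem_filter, mem_range] at hr ⊢
  refine ⟨Nat.mod_lt _ hd0, ?_⟩
  have := congrArg (ZMod.castHom hd (ZMod d)) hr.2
  rw [map_pow, map_natCast, map_one] at this
  rwa [ZMod.natCast_mod]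

theorem card_cubeRoots_le (m : ℕ) : (cubeRoots m).card ≤ m.divisors.card ^ 2 := by
  induction m using Nat.recOnPrimeCoprime with
  | zero => simp [cubeRoots]
  | prime_pow p l hp => exact card_cubeRoots_primePow hp
  | coprime a b ha hb hab iha ihb =>
    refine le_trans ?_ ((Nat.mul_le_mul iha ihb).trans (le_of_eq ?_))
    · rw [← card_product]
      refine card_le_card_of_injOn (fun r => (r % a, r % b)) (fun r hr => ?_) fun r hr s hs e => ?_
      · exact mem_coe.2 (mem_product.2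
          ⟨cubeRoots_mem_of_dvd (dvd_mul_right a b) (by omega) hr,
            cubeRoots_mem_of_dvd (dvd_mul_left b a) (by omega) hr⟩)
      · simp only [cubeRoots, mem_coe, mem_filter, mem_range] at hr hs
        simp only [Prod.mk.injEq] at e
        exact ((Nat.modEq_and_modEq_iff_modEq_mul hab).1 ⟨e.1, e.2⟩).eq_of_lt_of_lt hr.1 hs.1
    · rw [hab.card_divisors_mul, mul_pow]

theorem card_residues_le {d X : ℕ} (S : Finset ℕ) (T : Finset ℕ)
    (hT : ∀ x ∈ T, x ≤ X ∧ x % d ∈ S) : T.card ≤ S.card * (X / d + 1) := by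
  rw [← card_range (X / d + 1), ← card_product]
  refine card_le_card_of_injOn (fun x => (x % d, x / d)) (fun x hx => ?_) fun x _ y _ e => ?_
  · simp only [mem_coe, mem_product, mem_range]
    exact ⟨(hT x hx).2, Nat.lt_succ_of_le (Nat.div_le_div_right (hT x hx).1)⟩
  · simp only [Prod.mk.injEq] at e
    rw [← Nat.div_add_mod x d, ← Nat.div_add_mod y d, e.1, e.2]

/-! ### The divisors of a difference of two cubes -/

/-- Pairs `u < x ≤ X` without a common factor. -/
def coprimePairs (X : ℕ) : Finset (ℕ × ℕ) :=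
  ((Ioc 0 X) ×ˢ (Ioc 0 X)).filter fun z => z.2 < z.1 ∧ Nat.Coprime z.1 z.2

theorem card_coprimePairs_dvd_le {d X : ℕ} (hd : 0 < d) :
    ((coprimePairs X).filter fun z => d ∣ z.1 ^ 3 - z.2 ^ 3).card ≤
      X * ((cubeRoots d).card * (X / d + 1)) := by
  classical
  have : NeZero d := ⟨hd.ne'⟩
  obtain ⟨T, hT⟩ : ∃ T, T = (coprimePairs X).filter fun z => d ∣ z.1 ^ 3 - z.2 ^ 3 := ⟨_, rfl⟩
  rw [← hT]
  refine le_trans (card_le_mul_card_image (n := (cubeRoots d).card * (X / d + 1)) T
    (f := Prod.snd) fun u _ => ?_) ?_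
  · refine le_trans (le_of_eq (card_image_of_injOn fun z hz w hw e => ?_).symm)
      ((card_residues_le (d := d) (X := X) ((cubeRoots d).image fun r => r * u % d)
        ((T.filter fun z => z.2 = u).image Prod.fst) fun x hx => ?_).trans
        (Nat.mul_le_mul_right _ card_image_le))
    · simp only [coe_filter, Set.mem_ofPred_eq] at hz hw
      exact Prod.ext e (hz.2.trans hw.2.symm)
    · obtain ⟨⟨x, u'⟩, hz, rfl⟩ := mem_image.1 hx
      simp only [hT, coprimePairs, mem_filter, mem_product, mem_Ioc] at hz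
      obtain ⟨⟨⟨⟨⟨-, hxX⟩, -⟩, hlt, hco⟩, hdvd⟩, rfl⟩ := hz
      refine ⟨hxX, ?_⟩
      have h3 : u' ^ 3 < x ^ 3 := Nat.pow_lt_pow_left hlt (by norm_num)
      have he : (x : ZMod d) ^ 3 = (u' : ZMod d) ^ 3 := by
        have := (ZMod.natCast_eq_zero_iff _ _).2 hdvd
        rwa [Nat.cast_sub h3.le, sub_eq_zero, Nat.cast_pow, Nat.cast_pow] at this
      have hu : u'.Coprime d := by
        refine Nat.coprime_of_dvd fun p hp hpu hpd => ?_
        have h0 := congrArg (ZMod.castHom hpd (ZMod p)) he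
        rw [map_pow, map_pow, map_natCast, map_natCast,
          (ZMod.natCast_eq_zero_iff u' p).2 hpu, zero_pow three_ne_zero] at h0
        have : Fact p.Prime := ⟨hp⟩
        have hx := (ZMod.natCast_eq_zero_iff x p).1 (pow_eq_zero_iff three_ne_zero |>.1 h0)
        exact hp.ne_one (Nat.eq_one_of_dvd_coprimes hco hx hpu)
      obtain ⟨v, hv⟩ : ∃ v, v = ZMod.unitOfCoprime u' hu := ⟨_, rfl⟩
      have hv' : (v : ZMod d) = u' := hv ▸ ZMod.coe_unitOfCoprime u' hu
      refine mem_image.2 ⟨((x : ZMod d) * ↑v⁻¹).val, ?_, ?_⟩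
      · simp only [cubeRoots, mem_filter, mem_range]
        refine ⟨ZMod.val_lt _, ?_⟩
        rw [ZMod.natCast_zmod_val, mul_pow, he, ← hv', ← mul_pow, Units.mul_inv, one_pow]
      · have := ZMod.val_natCast (n := d) x
        rw [← this, ← ZMod.val_natCast, Nat.cast_mul, ZMod.natCast_zmod_val, mul_assoc, ← hv',
          Units.inv_mul, mul_one]
  · rw [mul_comm]
    refine Nat.mul_le_mul_right _ ((card_le_card (t := Ioc 0 X) fun u hu => ?_).trans (by simp))
    obtain ⟨z, hz, rfl⟩ := mem_image.1 hu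
    simp only [hT, coprimePairs, mem_filter, mem_product] at hz
    exact hz.1.1.2

theorem sum_coprimePairs_le (X : ℕ) :
    ∑ z ∈ coprimePairs X, tauPow 1 (z.1 ^ 3 - z.2 ^ 3) ≤
      128 * (X : ℝ) ^ 2 * logOne X ^ 256 := by
  classical
  have h1 : ∀ z ∈ coprimePairs X, tauPow 1 (z.1 ^ 3 - z.2 ^ 3) ≤
      ∑ d ∈ (Ioc 0 X).filter (· ∣ z.1 ^ 3 - z.2 ^ 3), 64 * tauPow 6 d := by
    intro z hz
    simp only [coprimePairs, mem_filter, mem_product, mem_Ioc] at hz
    obtain ⟨n, hn⟩ : ∃ n, n = z.1 ^ 3 - z.2 ^ 3 := ⟨_, rfl⟩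
    rw [← hn]
    have hn1 : 1 ≤ n := by
      have : z.2 ^ 3 < z.1 ^ 3 := Nat.pow_lt_pow_left hz.2.1 (by norm_num)
      omega
    have hX : 2 ≤ X := by omega
    obtain ⟨S, hS⟩ : ∃ S, S = (Ioc 0 X).filter (· ∣ n) := ⟨_, rfl⟩
    have hne : S.Nonempty := ⟨1, by simp [hS]; omega⟩
    obtain ⟨d, hd, hmax⟩ := exists_max_image S (fun d => d.divisors.card) hne
    rw [← hS]
    refine le_trans ?_ (single_le_sum (f := fun d => 64 * tauPow 6 d)
      (fun e _ => by have := tauPow_nonneg 6 e; positivity) hd)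
    have hle : n.divisors.card ≤ (2 * d.divisors.card) ^ 6 := by
      refine card_divisors_le_of_small hX 6 n hn1 ?_ fun e he heX => hmax e ?_
      · rw [show 6 = 3 * 2 from rfl, pow_mul]
        exact Nat.pow_le_pow_left (hn ▸ (Nat.sub_le _ _).trans (Nat.pow_le_pow_left hz.1.1.2 3)) 2
      · simp only [hS, mem_filter, mem_Ioc]
        exact ⟨⟨Nat.pos_of_dvd_of_pos he hn1, heX⟩, he⟩
    rw [tauPow, tauPow, pow_one]
    have := (Nat.cast_le (α := ℝ)).2 hle
    push_cast at this
    linarith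
  refine (sum_le_sum h1).trans ?_
  simp only [sum_filter]
  rw [sum_comm]
  have h2 : ∀ d ∈ Ioc 0 X,
      (∑ z ∈ coprimePairs X, if d ∣ z.1 ^ 3 - z.2 ^ 3 then 64 * tauPow 6 d else 0) ≤
        128 * (X : ℝ) ^ 2 * (tauPow 8 d / d) := by
    intro d hd
    rw [mem_Ioc] at hd
    rw [← sum_filter, sum_const, nsmul_eq_mul]
    have hcard : (((coprimePairs X).filter fun z => d ∣ z.1 ^ 3 - z.2 ^ 3).card : ℝ) ≤
        X * (tauPow 2 d * (2 * (X / d))) := by
      refine (Nat.cast_le.2 (card_coprimePairs_dvd_le hd.1)).trans ?_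
      push_cast
      refine mul_le_mul_of_nonneg_left (mul_le_mul ?_ ?_ (by positivity) (tauPow_nonneg 2 d))
        (Nat.cast_nonneg X)
      · rw [tauPow]
        exact_mod_cast card_cubeRoots_le d
      · have h3 : ((X / d : ℕ) : ℝ) ≤ X / d := Nat.cast_div_le
        have h4 : (1 : ℝ) ≤ X / d := by
          rw [one_le_div (Nat.cast_pos.2 hd.1)]
          exact_mod_cast hd.2
        linarith
    refine (mul_le_mul_of_nonneg_right hcard (by have := tauPow_nonneg 6 d; positivity)).trans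
      (le_of_eq ?_)
    unfold tauPow
    ring
  refine (sum_le_sum h2).trans ?_
  rw [← mul_sum]
  exact mul_le_mul_of_nonneg_left (sum_tauPow_div_le 8 X) (by positivity)

/-- **The divisors of `x³ - u³`** on average. -/
theorem sum_cubeDiff_divisors_le (P : ℕ) :
    ∑ z ∈ (Ioc 0 P ×ˢ Ioc 0 P).filter (fun z => z.2 < z.1), tauPow 1 (z.1 ^ 3 - z.2 ^ 3) ≤
      128 * (P : ℝ) ^ 2 * logOne P ^ 264 := by
  classical
  obtain ⟨S, hS⟩ : ∃ S, S = (Ioc 0 P ×ˢ Ioc 0 P).filter (fun z => z.2 < z.1) := ⟨_, rfl⟩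
  rw [← hS]
  have hL : 0 ≤ logOne P := zero_le_one.trans (one_le_logOne P)
  have hmaps : ∀ z ∈ S, Nat.gcd z.1 z.2 ∈ Ioc 0 P := by
    intro z hz
    simp only [hS, mem_filter, mem_product, mem_Ioc] at hz
    rw [mem_Ioc]
    exact ⟨Nat.gcd_pos_of_pos_left _ hz.1.1.1,
      (Nat.gcd_le_left _ hz.1.1.1).trans hz.1.1.2⟩
  rw [← sum_fiberwise_of_maps_to hmaps]
  have h1 : ∀ g ∈ Ioc 0 P, ∑ z ∈ S with Nat.gcd z.1 z.2 = g, tauPow 1 (z.1 ^ 3 - z.2 ^ 3) ≤
      128 * (P : ℝ) ^ 2 * logOne P ^ 256 * (tauPow 3 g / g) := by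
    intro g hg
    rw [mem_Ioc] at hg
    have hg3 : tauPow 1 (g ^ 3) ≤ tauPow 3 g := by
      rw [show g ^ 3 = g * g * g by ring, show tauPow 3 g = tauPow 1 g * tauPow 1 g * tauPow 1 g by
        unfold tauPow; ring]
      exact (tauPow_mul_le 1 _ _).trans
        (mul_le_mul_of_nonneg_right (tauPow_mul_le 1 _ _) (tauPow_nonneg 1 g))
    calc ∑ z ∈ S with Nat.gcd z.1 z.2 = g, tauPow 1 (z.1 ^ 3 - z.2 ^ 3)
        ≤ ∑ w ∈ coprimePairs (P / g), tauPow 3 g * tauPow 1 (w.1 ^ 3 - w.2 ^ 3) := by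
          refine le_trans (sum_le_sum fun z hz => ?_) (le_trans (le_of_eq (sum_image
            (g := fun z : ℕ × ℕ => (z.1 / g, z.2 / g))
            (f := fun w : ℕ × ℕ => tauPow 3 g * tauPow 1 (w.1 ^ 3 - w.2 ^ 3))
            fun z hz w hw e => ?_).symm) (sum_le_sum_of_subset_of_nonneg (fun w hw => ?_)
              fun w _ _ => mul_nonneg (tauPow_nonneg _ _) (tauPow_nonneg _ _)))
          · rw [mem_filter] at hz
            have e1 := Nat.div_mul_cancel (hz.2 ▸ Nat.gcd_dvd_left z.1 z.2 : g ∣ z.1)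
            have e2 := Nat.div_mul_cancel (hz.2 ▸ Nat.gcd_dvd_right z.1 z.2 : g ∣ z.2)
            conv_lhs => rw [← e1, ← e2, mul_pow, mul_pow, ← Nat.sub_mul, mul_comm]
            exact (tauPow_mul_le 1 _ _).trans
              (mul_le_mul_of_nonneg_right hg3 (tauPow_nonneg 1 _))
          · simp only [coe_filter, Set.mem_ofPred_eq] at hz hw
            simp only [Prod.mk.injEq] at e
            refine Prod.ext ?_ ?_
            · rw [← Nat.div_mul_cancel (hz.2 ▸ Nat.gcd_dvd_left z.1 z.2 : g ∣ z.1), e.1,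
                Nat.div_mul_cancel (hw.2 ▸ Nat.gcd_dvd_left w.1 w.2 : g ∣ w.1)]
            · rw [← Nat.div_mul_cancel (hz.2 ▸ Nat.gcd_dvd_right z.1 z.2 : g ∣ z.2), e.2,
                Nat.div_mul_cancel (hw.2 ▸ Nat.gcd_dvd_right w.1 w.2 : g ∣ w.2)]
          · obtain ⟨z, hz, rfl⟩ := mem_image.1 hw
            simp only [hS, mem_filter, mem_product, mem_Ioc] at hz
            obtain ⟨⟨⟨⟨hx, hxP⟩, ⟨hu, huP⟩⟩, hlt⟩, hgcd⟩ := hz
            have d1 : g ∣ z.1 := hgcd ▸ Nat.gcd_dvd_left _ _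
            have d2 : g ∣ z.2 := hgcd ▸ Nat.gcd_dvd_right _ _
            simp only [coprimePairs, mem_filter, mem_product, mem_Ioc]
            refine ⟨⟨⟨Nat.div_pos (Nat.le_of_dvd hx d1) hg.1, Nat.div_le_div_right hxP⟩,
              ⟨Nat.div_pos (Nat.le_of_dvd hu d2) hg.1, Nat.div_le_div_right huP⟩⟩,
              Nat.div_lt_div_of_lt_of_dvd d1 hlt, ?_⟩
            subst hgcd
            exact Nat.coprime_div_gcd_div_gcd hg.1
      _ ≤ tauPow 3 g * (128 * ((P : ℝ) ^ 2 / g) * logOne P ^ 256) := by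
          rw [← mul_sum]
          refine mul_le_mul_of_nonneg_left ((sum_coprimePairs_le (P / g)).trans (mul_le_mul
            (mul_le_mul_of_nonneg_left ?_ (by norm_num)) (pow_le_pow_left₀
              (zero_le_one.trans (one_le_logOne _)) (logOne_mono (Nat.div_le_self P g)) _)
            (pow_nonneg (zero_le_one.trans (one_le_logOne _)) _) (by positivity)))
            (tauPow_nonneg 3 g)
          have hg' : (1 : ℝ) ≤ g := by exact_mod_cast hg.1
          calc ((P / g : ℕ) : ℝ) ^ 2 ≤ ((P : ℝ) / g) ^ 2 := by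
                gcongr
                exact Nat.cast_div_le
            _ = (P : ℝ) ^ 2 / g / g := by ring
            _ ≤ _ := div_le_self (by positivity) hg'
      _ = _ := by ring
  refine (sum_le_sum h1).trans ?_
  rw [← mul_sum, show (264 : ℕ) = 256 + 2 ^ 3 from rfl, pow_add, ← mul_assoc (128 * (P : ℝ) ^ 2)]
  exact mul_le_mul_of_nonneg_left (sum_tauPow_div_le 3 P) (by positivity)

end FA.HuaCubes
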