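import Fermat.Agent.HuaCubes.Circle
import Fermat.Agent.ThreePrimes.Main

/-!
# Hua's theorem

The asymptotic formula, the removal of the prime powers by the eighth moment, and the theorem:
every large odd `N` is a sum of nine cubes of primes, every large `N ≡ s (mod 2)` a sum of `s ≥ 9` of
them, and every large `N` a sum of at most ten.
-/

set_option autoImplicit false
set_option exponentiation.threshold 300

noncomputable section

namespace FA.HuaCubes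

open Finset FA.ThreePrimes ArithmeticFunction Filter Topology
open scoped Real

/-- `Γ (4/3)⁹ / Γ (3)`. -/
def nineConst : ℝ := Real.Gamma (4 / 3) ^ 9 / Real.Gamma 3

theorem nineConst_pos : 0 < nineConst :=
  div_pos (pow_pos (Real.Gamma_pos_of_pos (by norm_num)) 9) (Real.Gamma_pos_of_pos (by norm_num))

/-- **The asymptotic formula.** -/
theorem exists_nineSum_asymptotic {ε : ℝ} (hε : 0 < ε) : ∃ N₀ : ℕ, ∀ N : ℕ, N₀ ≤ N →
    |nineSum Λ N - singularSeries N * nineConst * (N : ℝ) ^ 2| ≤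
      ε * (N : ℝ) ^ 2 := by
  obtain ⟨K, N₁, C, hK, hC, hcirc⟩ := exists_circle_bound
  obtain ⟨C₆, hC₆, hconv⟩ := WaringAsymptotic.exists_weightConv_asymptotic (c := (1 / 3 : ℝ))
    (by norm_num) (s := 9) (by norm_num)
  rw [show (1 : ℝ) + 1 / 3 = 4 / 3 by norm_num, show ((9 : ℕ) : ℝ) * (1 / 3) = 3 by norm_num,
    show (3 : ℝ) - 1 = ((2 : ℕ) : ℝ) by norm_num, show (3 : ℝ) - 2 = 1 by norm_num] at hconv
  simp only [Real.rpow_natCast, Real.rpow_one] at hconv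
  change ∀ N : ℕ, 1 ≤ N → |_ - nineConst * _| ≤ _ at hconv
  obtain ⟨Z₀, hZ₀⟩ : ∃ Z₀ : ℝ, Z₀ = ∑' q, absTerm q := ⟨_, rfl⟩
  have hZ₀0 : 0 ≤ Z₀ := hZ₀ ▸ tsum_nonneg absTerm_nonneg
  obtain ⟨G, hG⟩ : ∃ G, G = nineConst + C₆ := ⟨_, rfl⟩
  have hG0 : 0 < G := hG ▸ add_pos nineConst_pos hC₆
  obtain ⟨Q₀, hQ₀⟩ := exists_singular_tail (ε := ε / (4 * G)) (by positivity)
  obtain ⟨L, hL⟩ : ∃ L : ℝ, L = max (4 * C / ε) (Q₀ + 1 : ℕ) := ⟨_, rfl⟩
  obtain ⟨T, hT⟩ : ∃ T : ℕ, T = max ⌈Real.exp L⌉₊ ⌈4 * Z₀ * C₆ / ε⌉₊ := ⟨_, rfl⟩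
  refine ⟨max N₁ ((T + 1) ^ 3), fun N hN => ?_⟩
  obtain ⟨P, hP⟩ : ∃ P, P = cubeRoot N := ⟨_, rfl⟩
  obtain ⟨hl1, hc⟩ := hcirc N P (le_trans (le_max_left _ _) hN) hP
  have hN3 : (T + 1) ^ 3 ≤ N := le_trans (le_max_right _ _) hN
  have hN1 : 1 ≤ N := le_trans (Nat.one_le_pow _ _ (by omega)) hN3
  have hPN : P ^ 3 ≤ N := hP ▸ (cubeRoot_spec hN1).2.1
  have hTP : T + 1 ≤ P := by
    by_contra h
    have := Nat.pow_le_pow_left (show P + 1 ≤ T + 1 by omega) 3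
    have : N < (P + 1) ^ 3 := hP ▸ (cubeRoot_spec hN1).2.2
    omega
  have hNr : (1 : ℝ) ≤ N := by exact_mod_cast hN1
  obtain ⟨l, hl⟩ : ∃ l, l = Real.log P := ⟨_, rfl⟩
  rw [← hl] at hl1 hc
  have hlL : L ≤ l := by
    rw [hl, Real.le_log_iff_exp_le (by exact_mod_cast (show 0 < P by omega))]
    refine (Nat.le_ceil _).trans (Nat.cast_le.2 (le_trans ?_ hTP))
    rw [hT]
    exact le_trans (le_max_left _ _) (Nat.le_succ _)
  obtain ⟨Y, hY⟩ : ∃ Y, Y = (N : ℝ) ^ 2 := ⟨_, rfl⟩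
  rw [← hY] at hc ⊢
  have hY0 : 0 ≤ Y := hY ▸ by positivity
  obtain ⟨J, hJ⟩ : ∃ J, J = WaringAsymptotic.weightConv (1 / 3) 9 N := ⟨_, rfl⟩
  rw [← hJ] at hc
  have hJe := hconv N hN1
  rw [← hY, ← hJ] at hJe
  obtain ⟨S, hS⟩ : ∃ S, S = ∑' q, singularTerm N q := ⟨_, rfl⟩
  obtain ⟨S₁, hS₁⟩ : ∃ S₁, S₁ = ∑ q ∈ Icc 1 ⌊l ^ K⌋₊, singularTerm N q := ⟨_, rfl⟩
  rw [← hS₁] at hc
  have hQ : Q₀ ≤ ⌊l ^ K⌋₊ := by
    refine Nat.le_floor ?_
    have h1 : ((Q₀ + 1 : ℕ) : ℝ) ≤ l := (hL ▸ le_max_right _ _ : _ ≤ L).trans hlL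
    push_cast at h1
    calc (Q₀ : ℝ) ≤ l := by linarith
      _ ≤ l ^ K := le_self_pow₀ hl1 (by omega)
  have htail := hQ₀ _ hQ N
  rw [← hS₁, ← hS] at htail
  have h1 : |nineSum Λ N - J * S₁.re| ≤ ε / 4 * Y := by
    refine le_trans ?_ ((Complex.abs_re_le_norm _).trans hc |>.trans ?_)
    · simp
    · rw [mul_div_assoc', div_le_iff₀ (by linarith)]
      have h2 : 4 * C / ε ≤ l := (hL ▸ le_max_left _ _ : _ ≤ L).trans hlL
      rw [div_le_iff₀ hε] at h2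
      nlinarith
  have hN12 : (N : ℝ) ≤ Y := hY ▸ le_self_pow₀ hNr two_ne_zero
  have hJY : |J| ≤ G * Y := by
    have h2 := abs_le.1 hJe
    have h3 := mul_le_mul_of_nonneg_left hN12 hC₆.le
    have h4 : 0 ≤ nineConst * Y := mul_nonneg nineConst_pos.le hY0
    rw [abs_le, hG]
    constructor <;> linarith
  have h2 : |J * S₁.re - J * S.re| ≤ ε / 4 * Y := by
    rw [← mul_sub, abs_mul]
    refine (mul_le_mul hJY (le_trans (le_of_eq (by simp)) ((Complex.abs_re_le_norm _).trans htail))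
      (abs_nonneg _) (by positivity)).trans (le_of_eq ?_)
    field_simp
  have hSre : |S.re| ≤ Z₀ := by
    refine (Complex.abs_re_le_norm S).trans ?_
    rw [hS, hZ₀]
    exact tsum_of_norm_bounded summable_absTerm.hasSum (norm_singularTerm_le N)
  have h3 : |J * S.re - nineConst * Y * S.re| ≤ ε / 4 * Y := by
    rw [← sub_mul, abs_mul]
    refine (mul_le_mul hJe hSre (abs_nonneg _) (by positivity)).trans ?_
    have h4 : 4 * Z₀ * C₆ / ε ≤ N := by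
      refine (Nat.le_ceil _).trans (Nat.cast_le.2 ?_)
      refine le_trans ?_ ((Nat.le_self_pow three_ne_zero P).trans hPN)
      refine le_trans ?_ hTP
      rw [hT]
      exact le_trans (le_max_right _ _) (Nat.le_succ _)
    rw [div_le_iff₀ hε] at h4
    rw [hY, sq (N : ℝ)]
    have := mul_le_mul_of_nonneg_left h4 (Nat.cast_nonneg (α := ℝ) N)
    linarith
  rw [singularSeries, ← hS, show S.re * nineConst * Y = nineConst * Y * S.re by ring]
  rw [abs_le] at h1 h2 h3 ⊢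
  constructor <;> linarith

/-- `Λ` on the primes. -/
def primePart (n : ℕ) : ℝ := if n.Prime then Λ n else 0

theorem primePart_nonneg (n : ℕ) : 0 ≤ primePart n := by
  unfold primePart
  split_ifs
  exacts [vonMangoldt_nonneg, le_rfl]

theorem primePart_le (n : ℕ) : primePart n ≤ Λ n := by
  unfold primePart
  split_ifs
  exacts [le_rfl, vonMangoldt_nonneg]

/-- **The prime powers are negligible.** -/
theorem exists_nineSum_sub_prime : ∃ C : ℝ, 0 < C ∧ ∀ N : ℕ, 3 ≤ cubeRoot N →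
    nineSum Λ N - nineSum primePart N ≤
      C * (√(cubeRoot N : ℝ) * (cubeRoot N : ℝ) ^ 5 * Real.log (cubeRoot N) ^ 273) := by
  obtain ⟨C₈, hC₈, hmom⟩ := exists_eighthMoment_le
  refine ⟨36 * C₈ * 2 ^ 264, by positivity, fun N hP3 => ?_⟩
  obtain ⟨P, hP⟩ : ∃ P, P = cubeRoot N := ⟨_, rfl⟩
  rw [← hP] at hP3 ⊢
  have hN1 : 1 ≤ N := by
    by_contra h
    obtain rfl : N = 0 := by omega
    simp [cubeRoot, WaringAsymptotic.rootFloor] at hP
    omega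
  have hPN : P ^ 3 ≤ N := hP ▸ (cubeRoot_spec hN1).2.1
  have hNP : N < (P + 1) ^ 3 := hP ▸ (cubeRoot_spec hN1).2.2
  obtain ⟨M, hM⟩ : ∃ M, M = 9 * N := ⟨_, rfl⟩
  have hM0 : (0 : ℝ) < M := by rw [hM]; positivity
  have hP1 : (3 : ℝ) ≤ P := by exact_mod_cast hP3
  obtain ⟨l, hl⟩ : ∃ l, l = Real.log P := ⟨_, rfl⟩
  rw [← hl]
  have hl1 : 1 ≤ l := by
    rw [hl, Real.le_log_iff_exp_le (by linarith)]
    linarith [Real.exp_one_lt_d9]
  have hΛ : ∀ n ∈ Ioc 0 P, Λ n ≤ l := fun n hn => by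
    rw [mem_Ioc] at hn
    exact hl ▸ vonMangoldt_le_log.trans
      (Real.log_le_log (Nat.cast_pos.2 hn.1) (Nat.cast_le.2 hn.2))
  have hmoment : ∀ f : ℕ → ℝ, (∀ n, 0 ≤ f n) → (∀ n, f n ≤ Λ n) →
      ∑ h ∈ range M, ‖cubeTwist ((h : ℝ) / M) f P‖ ^ 8 ≤
        M * (l ^ 8 * (C₈ * ((P : ℝ) ^ 5 * (2 * l) ^ 264))) := by
    intro f hf0 hf
    refine (sum_cubeTwist_pow_eight_le (f := f) (B := l) (fun n hn => ?_)
      (show 4 * P ^ 3 < M by omega)).trans (mul_le_mul_of_nonneg_left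
        (mul_le_mul_of_nonneg_left ((hmom P).trans (mul_le_mul_of_nonneg_left
          (mul_le_mul_of_nonneg_left (pow_le_pow_left₀ (zero_le_one.trans (one_le_logOne P)) ?_ 264)
            (by positivity)) hC₈.le)) (by positivity)) hM0.le)
    · rw [abs_of_nonneg (hf0 n)]
      exact (hf n).trans (hΛ n hn)
    · rw [logOne, ← hl]
      linarith
  have hdiff : ∀ x : ℝ, ‖cubeTwist x Λ P - cubeTwist x primePart P‖ ≤ 2 * √(P : ℝ) * l := by
    intro x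
    rw [cubeTwist, cubeTwist, ← sum_sub_distrib, hl]
    refine (norm_sum_le _ _).trans (le_of_eq_of_le (sum_congr rfl fun n _ => ?_)
      (sum_powerPart_le (N := P) (by omega)))
    rw [← sub_mul, norm_mul, norm_eAdd, mul_one, ← Complex.ofReal_sub, Complex.norm_real,
      Real.norm_eq_abs, abs_of_nonneg (sub_nonneg.2 (primePart_le n)), primePart, powerPart]
    split_ifs <;> ring
  have key : ‖(M : ℂ) * nineSum Λ N - (M : ℂ) * nineSum primePart N‖ ≤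
      9 * (2 * √(P : ℝ) * l) * (2 * (M * (l ^ 8 * (C₈ * ((P : ℝ) ^ 5 * (2 * l) ^ 264))))) := by
    rw [← sum_grid_nineSum Λ hN1 hM hPN hNP, ← sum_grid_nineSum primePart hN1 hM hPN hNP,
      ← sum_sub_distrib]
    refine (norm_sum_le _ _).trans ((sum_le_sum (g := fun h : ℕ => 9 * (2 * √(P : ℝ) * l) *
      (‖cubeTwist ((h : ℝ) / M) Λ P‖ ^ 8 + ‖cubeTwist ((h : ℝ) / M) primePart P‖ ^ 8))
      fun h _ => ?_).trans ?_)
    · rw [← sub_mul, norm_mul, norm_eAdd, mul_one]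
      obtain ⟨x, hx⟩ : ∃ x, x = cubeTwist ((h : ℝ) / M) Λ P := ⟨_, rfl⟩
      obtain ⟨y, hy⟩ : ∃ y, y = cubeTwist ((h : ℝ) / M) primePart P := ⟨_, rfl⟩
      rw [← hx, ← hy]
      refine (WaringAsymptotic.norm_pow_sub_pow_le (le_max_left ‖x‖ ‖y‖)
        (le_max_right ‖x‖ ‖y‖) 8).trans ?_
      rw [show ((8 + 1 : ℕ) : ℝ) = 9 by norm_num]
      have hd : ‖x - y‖ ≤ 2 * √(P : ℝ) * l := hx ▸ hy ▸ hdiff _
      calc 9 * max ‖x‖ ‖y‖ ^ 8 * ‖x - y‖ ≤ 9 * (‖x‖ ^ 8 + ‖y‖ ^ 8) * (2 * √(P : ℝ) * l) := by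
            gcongr
            rcases max_cases ‖x‖ ‖y‖ with ⟨e, -⟩ | ⟨e, -⟩ <;> rw [e] <;>
              linarith [pow_nonneg (norm_nonneg x) 8, pow_nonneg (norm_nonneg y) 8]
        _ = _ := by ring
    · rw [← mul_sum, sum_add_distrib]
      refine mul_le_mul_of_nonneg_left ?_ (by positivity)
      have h1 := hmoment Λ (fun n => vonMangoldt_nonneg) fun n => le_rfl
      have h2 := hmoment primePart primePart_nonneg primePart_le
      linarith
  rw [← mul_sub, norm_mul, Complex.norm_natCast, ← Complex.ofReal_sub, Complex.norm_real,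
    Real.norm_eq_abs] at key
  refine (le_abs_self _).trans (le_of_mul_le_mul_left (key.trans (le_of_eq ?_)) hM0)
  ring

/-- The count with primes only is large. -/
theorem exists_nineSum_prime_ge : ∃ (c : ℝ) (N₀ : ℕ), 0 < c ∧ ∀ N, N₀ ≤ N → N % 2 = 1 →
    c * (N : ℝ) ^ 2 ≤ nineSum primePart N := by
  obtain ⟨c₁, hc₁, hS⟩ := exists_singularSeries_pos
  obtain ⟨g, hg⟩ : ∃ g, g = c₁ * nineConst := ⟨_, rfl⟩
  have hg0 : 0 < g := hg ▸ mul_pos hc₁ nineConst_pos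
  obtain ⟨N₁, hasy⟩ := exists_nineSum_asymptotic (ε := g / 4) (by positivity)
  obtain ⟨C, hC, hsub⟩ := exists_nineSum_sub_prime
  obtain ⟨T, hT⟩ := eventually_atTop.1 (((isLittleO_log_rpow_rpow_atTop (s := (1 / 2 : ℝ))
    ((273 : ℕ) : ℝ) (by norm_num)).bound (show 0 < g / (4 * C) by positivity)).natCast_atTop)
  refine ⟨g / 2, max N₁ ((max T 3) ^ 3), by positivity, fun N hN hmod => ?_⟩
  obtain ⟨P, hP⟩ : ∃ P, P = cubeRoot N := ⟨_, rfl⟩
  have hN1 : 1 ≤ N := le_trans (Nat.one_le_pow _ _ (by omega)) (le_trans (le_max_right _ _) hN)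
  have hPN : P ^ 3 ≤ N := hP ▸ (cubeRoot_spec hN1).2.1
  have hTP : max T 3 ≤ P := by
    by_contra h
    have := Nat.pow_le_pow_left (show P + 1 ≤ max T 3 by omega) 3
    have : N < (P + 1) ^ 3 := hP ▸ (cubeRoot_spec hN1).2.2
    have := le_trans (le_max_right _ _) hN
    omega
  have hP3 : 3 ≤ P := le_trans (le_max_right _ _) hTP
  have hPr : (3 : ℝ) ≤ P := by exact_mod_cast hP3
  have hlog := hT P (le_trans (le_max_left _ _) hTP)
  rw [Real.norm_eq_abs, Real.norm_eq_abs, abs_of_nonneg (by positivity [Real.log_natCast_nonneg P]),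
    abs_of_nonneg (by positivity), Real.rpow_natCast, ← Real.sqrt_eq_rpow] at hlog
  have h1 := (abs_le.1 (hasy N (le_trans (le_max_left _ _) hN))).1
  have h2 := hsub N (hP ▸ hP3)
  rw [← hP] at h2
  have hP3' : (P : ℝ) ^ 6 ≤ (N : ℝ) ^ 2 := by
    rw [show (6 : ℕ) = 3 * 2 from rfl, pow_mul]
    exact pow_le_pow_left₀ (by positivity) (by exact_mod_cast hPN) 2
  have h3 : C * (√(P : ℝ) * (P : ℝ) ^ 5 * Real.log P ^ 273) ≤ g / 4 * (N : ℝ) ^ 2 := by
    calc C * (√(P : ℝ) * (P : ℝ) ^ 5 * Real.log P ^ 273)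
        ≤ C * (√(P : ℝ) * (P : ℝ) ^ 5 * (g / (4 * C) * √(P : ℝ))) :=
          mul_le_mul_of_nonneg_left (mul_le_mul_of_nonneg_left hlog (by positivity)) hC.le
      _ = g / 4 * ((P : ℝ) ^ 5 * (√(P : ℝ) * √(P : ℝ))) := by field_simp
      _ = g / 4 * (P : ℝ) ^ 6 := by rw [Real.mul_self_sqrt (by linarith)]; ring
      _ ≤ _ := mul_le_mul_of_nonneg_left hP3' (by positivity)
  have h4 : g * (N : ℝ) ^ 2 ≤
      singularSeries N * nineConst * (N : ℝ) ^ 2 := by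
    rw [hg]
    gcongr
    exacts [nineConst_pos.le, hS N hmod]
  linarith

/-- **Hua's theorem.** -/
theorem exists_nine_prime_cubes : ∃ N₀ : ℕ, ∀ N, N₀ ≤ N → N % 2 = 1 →
    ∃ p : Fin 9 → ℕ, (∀ i, (p i).Prime) ∧ ∑ i, p i ^ 3 = N := by
  obtain ⟨c, N₀, hc, h⟩ := exists_nineSum_prime_ge
  refine ⟨max N₀ 1, fun N hN hmod => ?_⟩
  by_contra hno
  push Not at hno
  have h1 := h N (le_trans (le_max_left _ _) hN) hmod
  have h0 : nineSum primePart N = 0 := by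
    refine sum_eq_zero fun z hz => ?_
    rw [mem_filter] at hz
    obtain ⟨i, hi⟩ : ∃ i, ¬ (z i).Prime := by
      by_contra hall
      push Not at hall
      exact hno z hall hz.2
    exact prod_eq_zero (mem_univ i) (if_neg hi)
  rw [h0] at h1
  have : (1 : ℝ) ≤ N := by exact_mod_cast le_trans (le_max_right _ _) hN
  have : 0 < c * (N : ℝ) ^ 2 := by positivity
  linarith

/-- **Any number `s ≥ 9` of cubes.** -/
theorem exists_prime_cubes_of_parity {s : ℕ} (hs : 9 ≤ s) : ∃ N₀ : ℕ, ∀ N, N₀ ≤ N →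
    N % 2 = s % 2 → ∃ p : Fin s → ℕ, (∀ i, (p i).Prime) ∧ ∑ i, p i ^ 3 = N := by
  obtain ⟨N₀, h⟩ := exists_nine_prime_cubes
  obtain ⟨j, rfl⟩ : ∃ j, s = 9 + j := ⟨s - 9, by omega⟩
  refine ⟨N₀ + 27 * j, fun N hN hmod => ?_⟩
  obtain ⟨p, hp, hsum⟩ := h (N - 27 * j) (by omega) (by omega)
  refine ⟨Fin.append p fun _ : Fin j => 3, fun i => ?_, ?_⟩
  · refine Fin.addCases (fun i => ?_) (fun i => ?_) i
    · rw [Fin.append_left]
      exact hp i
    · rw [Fin.append_right]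
      norm_num
  · rw [Fin.sum_univ_add]
    simp only [Fin.append_left, Fin.append_right, hsum, sum_const, card_univ, Fintype.card_fin,
      smul_eq_mul]
    omega

/-- **At most ten cubes of primes.** -/
theorem exists_prime_cubes_basis : ∃ N₀ : ℕ, ∀ N, N₀ ≤ N →
    ∃ s ≤ 10, ∃ p : Fin s → ℕ, (∀ i, (p i).Prime) ∧ ∑ i, p i ^ 3 = N := by
  obtain ⟨N₉, h₉⟩ := exists_prime_cubes_of_parity (s := 9) le_rfl
  obtain ⟨N₁₀, h₁₀⟩ := exists_prime_cubes_of_parity (s := 10) (by norm_num)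
  refine ⟨max N₉ N₁₀, fun N hN => ?_⟩
  rcases Nat.mod_two_eq_zero_or_one N with h | h
  · exact ⟨10, le_rfl, h₁₀ N (le_trans (le_max_right _ _) hN) (by omega)⟩
  · exact ⟨9, by norm_num, h₉ N (le_trans (le_max_left _ _) hN) (by omega)⟩

end FA.HuaCubes
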