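import Fermat.Agent.HuaCubes.Weyl
import Fermat.Agent.ThreePrimes.Major
import Fermat.Agent.WaringAsymptotic.Major

/-!
# The exponential sum over the cubes of the primes

Vaughan's identity with a cut `U` a power of `log N`: `∑_{n ≤ N ^ (1/3)} Λ n e (α n³)` is
`O (N ^ (1/3) / (log N) ^ A)` when `(log N) ^ B ≤ q ≤ N / (log N) ^ B` and `|α - a/q| ≤ 1/q²`.
-/

set_option autoImplicit false

noncomputable section

namespace FA.HuaCubes

open Finset FA.ThreePrimes ArithmeticFunction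

/-- `∑_{n ≤ P} f n e (α n³)`. -/
def cubeTwist (α : ℝ) (f : ℕ → ℝ) (P : ℕ) : ℂ :=
  ∑ n ∈ Ioc 0 P, (f n : ℂ) * eAdd (α * (n : ℝ) ^ 3)

theorem cubeTwist_add (α : ℝ) (f g : ArithmeticFunction ℝ) (P : ℕ) :
    cubeTwist α (f + g : ArithmeticFunction ℝ) P = cubeTwist α f P + cubeTwist α g P := by
  simp [cubeTwist, add_mul, sum_add_distrib]

theorem cubeTwist_sub (α : ℝ) (f g : ArithmeticFunction ℝ) (P : ℕ) :
    cubeTwist α (f - g : ArithmeticFunction ℝ) P = cubeTwist α f P - cubeTwist α g P := by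
  rw [eq_sub_iff_add_eq, ← cubeTwist_add, sub_add_cancel]

theorem cubeTwist_mul (α : ℝ) (f g : ArithmeticFunction ℝ) (P : ℕ) :
    cubeTwist α (f * g : ArithmeticFunction ℝ) P =
      ∑ m ∈ Ioc 0 P, (f m : ℂ) * cubeInner α g P m := by
  trans ∑ x ∈ Ioc 0 P ×ˢ Ioc 0 P with x.1 * x.2 ≤ P,
    (f x.1 : ℂ) * g x.2 * eAdd (α * ((x.1 * x.2 : ℕ) : ℝ) ^ 3)
  · unfold cubeTwist
    trans ∑ n ∈ Ioc 0 P, ∑ x ∈ Ioc 0 P ×ˢ Ioc 0 P with x.1 * x.2 = n,
      (f x.1 : ℂ) * g x.2 * eAdd (α * ((x.1 * x.2 : ℕ) : ℝ) ^ 3)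
    · refine sum_congr rfl fun n hn => ?_
      rw [mem_Ioc] at hn
      rw [mul_apply, Nat.divisorsAntidiagonal_eq_prod_filter_of_le hn.1.ne' hn.2,
        Complex.ofReal_sum, sum_mul]
      refine sum_congr rfl fun x hx => ?_
      rw [(mem_filter.1 hx).2]
      push_cast
      rfl
    · simp_rw [sum_filter]
      rw [sum_comm]
      exact sum_congr rfl fun _ _ => (by simp_all)
  · rw [sum_filter, sum_product]
    refine sum_congr rfl fun m hm => ?_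
    rw [mem_Ioc] at hm
    rw [cubeInner, mul_sum, ← sum_filter]
    refine sum_congr ?_ fun k _ => ?_
    · ext k
      simp only [mem_filter, mem_Ioc, Nat.le_div_iff_mul_le hm.1, mul_comm m k]
      constructor
      · rintro ⟨⟨h1, -⟩, h2⟩
        exact ⟨h1, h2⟩
      · rintro ⟨h1, h2⟩
        exact ⟨⟨h1, le_trans (Nat.le_mul_of_pos_right k hm.1) h2⟩, h2⟩
    · push_cast
      ring_nf

variable {q : ℕ} [NeZero q] {a : ℤ} {α : ℝ}

theorem cubeInner_one_eq (α : ℝ) (P m : ℕ) :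
    cubeInner α oneR P m = cubeSum (α * (m ^ 3 : ℕ)) (P / m) := by
  rw [cubeInner, cubeSum]
  refine sum_congr rfl fun k hk => ?_
  rw [mem_Ioc] at hk
  simp [oneR, zeta_apply, hk.1.ne']
  ring_nf

/-- Abel summation for `log k`. -/
theorem norm_cubeInner_log_le (α : ℝ) {P m : ℕ} {R : ℝ}
    (hR : ∀ j ≤ P / m, ‖cubeSum (α * (m ^ 3 : ℕ)) j‖ ≤ R) :
    ‖cubeInner α ArithmeticFunction.log P m‖ ≤ 2 * R * Real.log (P / m : ℕ) := by
  obtain ⟨K, hK⟩ : ∃ K, K = P / m := ⟨_, rfl⟩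
  obtain ⟨γ, hγ⟩ : ∃ γ : ℝ, γ = α * (m ^ 3 : ℕ) := ⟨_, rfl⟩
  rw [← hK, ← hγ] at hR
  rw [cubeInner, ← hK]
  rcases Nat.eq_zero_or_pos K with rfl | hK1
  · simp
  obtain ⟨D, hD⟩ : ∃ D : ℕ → ℝ, D = fun j : ℕ => Real.log ((j + 1 : ℕ) : ℝ) - Real.log j :=
    ⟨_, rfl⟩
  have hD0 : ∀ j ∈ Ico 1 K, 0 ≤ D j := fun j hj => by
    rw [mem_Ico] at hj
    rw [hD]
    exact sub_nonneg.2 (Real.log_le_log (Nat.cast_pos.2 hj.1) (Nat.cast_le.2 (Nat.le_succ j)))
  have e : ∑ k ∈ Ioc 0 K, (ArithmeticFunction.log k : ℂ) * eAdd (α * ((m : ℝ) * k) ^ 3) =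
      ∑ j ∈ Ico 1 K, (D j : ℂ) * ∑ k ∈ Ioc j K, eAdd (γ * (k : ℝ) ^ 3) := by
    simp only [mul_sum]
    rw [sum_comm' (t' := Ioc 0 K) (s' := fun k => Ico 1 k)]
    · refine sum_congr rfl fun k hk => ?_
      rw [mem_Ioc] at hk
      rw [← sum_mul, ← Complex.ofReal_sum, hD, sum_Ico_sub (fun j : ℕ => Real.log (j : ℝ)) hk.1,
        hγ]
      rw [ArithmeticFunction.log_apply, Nat.cast_one, Real.log_one, sub_zero]
      congr 2
      push_cast
      ring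
    · intro j k
      simp only [mem_Ico, mem_Ioc]
      omega
  rw [e]
  refine (norm_sum_le _ _).trans ((sum_le_sum (g := fun j => D j * (2 * R))
    fun j hj => ?_).trans (le_of_eq ?_))
  · rw [norm_mul, Complex.norm_real, Real.norm_eq_abs, abs_of_nonneg (hD0 j hj)]
    refine mul_le_mul_of_nonneg_left ?_ (hD0 j hj)
    rw [mem_Ico] at hj
    have e2 : ∑ k ∈ Ioc j K, eAdd (γ * (k : ℝ) ^ 3) = cubeSum γ K - cubeSum γ j := by
      rw [cubeSum, cubeSum, ← sum_Ioc_consecutive _ (Nat.zero_le j) hj.2.le, add_sub_cancel_left]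
    rw [e2, two_mul]
    exact (norm_sub_le _ _).trans (add_le_add (hR K le_rfl) (hR j hj.2.le))
  · rw [← sum_mul, hD, sum_Ico_sub (fun j : ℕ => Real.log (j : ℝ)) hK1]
    simp
    ring

/-- **Sums of type I.** -/
theorem norm_typeOne_cube_le (f g : ArithmeticFunction ℝ) {P K : ℕ} {B R : ℝ} (hB : 0 ≤ B)
    (hR : 0 ≤ R) (hf : ∀ m, m ≤ P → |f m| ≤ B) (hf0 : ∀ m, K < m → f m = 0)
    (hg : ∀ m, 1 ≤ m → m ≤ K → ‖cubeInner α g P m‖ ≤ R) :
    ‖cubeTwist α (f * g : ArithmeticFunction ℝ) P‖ ≤ K * (B * R) := by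
  rw [cubeTwist_mul]
  refine (norm_sum_le _ _).trans ((sum_le_sum
    (g := fun m => if m ≤ K then B * R else 0) fun m hm => ?_).trans ?_)
  · rw [mem_Ioc] at hm
    split_ifs with h
    · rw [norm_mul, Complex.norm_real, Real.norm_eq_abs]
      exact mul_le_mul (hf m hm.2) (hg m hm.1 h) (norm_nonneg _) hB
    · simp [hf0 m (not_le.1 h)]
  · rw [← sum_filter, sum_const, nsmul_eq_mul]
    refine mul_le_mul_of_nonneg_right (Nat.cast_le.2 ?_) (mul_nonneg hB hR)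
    refine (card_le_card (t := Icc 1 K) fun m hm => ?_).trans (by simp)
    simp only [mem_filter, mem_Ioc] at hm
    exact mem_Icc.2 ⟨hm.1.1, hm.2⟩

/-- **The sum of type II.** -/
theorem exists_typeTwo_le : ∃ K : ℝ, 0 < K ∧ ∀ (q : ℕ) [NeZero q] (a : ℤ) (α : ℝ),
    IsUnit (a : ZMod q) → |α - a / q| ≤ 1 / (q : ℝ) ^ 2 → ∀ P U : ℕ, q ≤ 8 * P ^ 3 → 1 ≤ U →
      ‖cubeTwist α (highPart U Λ * tailCoeff U : ArithmeticFunction ℝ) P‖ ≤
        K * (scale P ^ 39 * P * cubeSaving U q P ^ (1 / 32 : ℝ)) := by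
  obtain ⟨K, hK, hblk⟩ := exists_block_le
  refine ⟨K, hK, fun q _ a α ha hα P U hqP hU => ?_⟩
  obtain ⟨F, hF⟩ : ∃ F : ℕ → ℂ,
      F = fun m => (highPart U Λ m : ℂ) * cubeInner α (tailCoeff U) P m := ⟨_, rfl⟩
  obtain ⟨H, hH⟩ : ∃ H, H = Nat.log 2 P + 1 := ⟨_, rfl⟩
  obtain ⟨l, hl⟩ : ∃ l, l = scale P := ⟨_, rfl⟩
  rw [← hl]
  have hl1 : 1 ≤ l := hl ▸ one_le_scale P
  obtain ⟨T, hT⟩ : ∃ T : ℝ, T = K * (l ^ 38 * P * cubeSaving U q P ^ (1 / 32 : ℝ)) := ⟨_, rfl⟩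
  have hT0 : 0 ≤ T := by
    rw [hT]
    have := cubeSaving_nonneg U q P
    positivity
  have hUH : P ≤ U * 2 ^ H := by
    rw [hH]
    exact le_trans (Nat.lt_pow_succ_log_self one_lt_two P).le (Nat.le_mul_of_pos_left _ hU)
  have e : cubeTwist α (highPart U Λ * tailCoeff U : ArithmeticFunction ℝ) P =
      ∑ m ∈ Ioc U (U * 2 ^ H), F m := by
    rw [cubeTwist_mul, hF]
    refine sum_congr_of_eq_on_inter ?_ ?_ ?_
    · intro m hm hm'
      rw [mem_Ioc] at hm hm'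
      simp [highPart_apply, show m ≤ U by omega]
    · intro m hm hm'
      rw [mem_Ioc] at hm hm'
      rw [cubeInner, Nat.div_eq_of_lt (by omega)]
      simp
    · intros
      rfl
  have hblock : ∀ L, U ≤ L → ‖∑ m ∈ Ioc L (2 * L), F m‖ ≤ T := by
    intro L hUL
    rcases le_or_gt (P / L) U with h | h
    · refine le_trans (le_of_eq (norm_eq_zero.2 (sum_eq_zero fun m hm => ?_))) hT0
      rw [mem_Ioc] at hm
      rw [hF]
      simp only
      rw [cubeInner, sum_eq_zero, mul_zero]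
      intro k hk
      rw [mem_Ioc] at hk
      have : P / m ≤ P / L := Nat.div_le_div_left hm.1.le (by omega)
      simp [tailCoeff_eq_zero (show k ≤ U by omega)]
    have hLP : L ≤ P := by
      by_contra hlt
      rw [Nat.div_eq_of_lt (by omega)] at h
      omega
    rw [hF, hT]
    refine (hblk q a α ha hα (highPart U Λ) (tailCoeff U) P L U l (l ^ 2) hU hUL h.le hqP
      (fun m hm => ?_) (by positivity) ?_).trans (le_of_eq (by rw [hl]; ring))
    · rw [mem_Ioc] at hm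
      rw [highPart_apply]
      split_ifs
      · simpa using (zero_le_one.trans hl1)
      · rw [abs_of_nonneg vonMangoldt_nonneg]
        refine vonMangoldt_le_log.trans (le_trans ?_ (hl ▸ logOne_le_scale (P := P) (n := m) ?_))
        · rw [logOne]
          linarith
        · have := Nat.le_self_pow (by norm_num : (5 : ℕ) ≠ 0) P
          omega
    · refine (sum_le_sum fun k _ => ?_).trans ((sum_card_divisors_sq_le _).trans ?_)
      · exact sq_abs (tailCoeff U k) ▸ pow_le_pow_left₀ (abs_nonneg _) (abs_tailCoeff_le U k) 2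
      · rw [mul_comm]
        refine mul_le_mul_of_nonneg_right ?_ (Nat.cast_nonneg _)
        have h1 := one_le_logOne (P / L)
        rw [← pow_mul]
        refine (pow_le_pow_left₀ (by linarith) (hl ▸ logOne_le_scale ?_) 3).trans
          (pow_le_pow_right₀ hl1 (by norm_num))
        refine (Nat.div_le_self P L).trans ?_
        have := Nat.le_self_pow (by norm_num : (5 : ℕ) ≠ 0) P
        omega
  have key : ∀ H : ℕ, ‖∑ m ∈ Ioc U (U * 2 ^ H), F m‖ ≤ H * T := by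
    intro H
    induction H with
    | zero => simp
    | succ H ih =>
      have h1 : U ≤ U * 2 ^ H := Nat.le_mul_of_pos_right U (by positivity)
      rw [pow_succ, ← mul_assoc, mul_comm _ 2, ← sum_Ioc_consecutive F h1 (by omega),
        Nat.cast_succ, add_mul _ (1 : ℝ), one_mul]
      exact (norm_add_le _ _).trans (add_le_add ih (hblock _ h1))
  rw [e]
  refine (key H).trans ?_
  have hH2 : (H : ℝ) ≤ l := by
    rw [hH, hl, scale, logOne]
    rcases Nat.eq_zero_or_pos P with rfl | hP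
    · simp
    have h3 : ((2 : ℝ) ^ Nat.log 2 P) ≤ P := by exact_mod_cast Nat.pow_log_le_self 2 hP.ne'
    have h4 := Real.log_le_log (by positivity) h3
    rw [Real.log_pow] at h4
    have h5 : (0 : ℝ) ≤ Nat.log 2 P := Nat.cast_nonneg _
    push_cast
    nlinarith [Real.log_two_gt_d9]
  refine (mul_le_mul_of_nonneg_right hH2 hT0).trans (le_of_eq ?_)
  rw [hT]
  ring

/-- **Vaughan's identity applied.** -/
theorem exists_cubeTwist_le : ∃ K : ℝ, 0 < K ∧ ∀ (q : ℕ) [NeZero q] (a : ℤ) (α : ℝ),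
    IsUnit (a : ZMod q) → |α - a / q| ≤ 1 / (q : ℝ) ^ 2 → ∀ P U : ℕ, q ≤ 8 * P ^ 3 → 1 ≤ U →
      ‖cubeTwist α Λ P‖ ≤ 6 * U + 27 * scale P ^ 10 * P * ((U : ℝ) ^ 2 *
          (1 / (q : ℝ) + (U : ℝ) ^ 2 / P + q / (P : ℝ) ^ 3) ^ (1 / 8 : ℝ)) +
        K * (scale P ^ 39 * P * cubeSaving U q P ^ (1 / 32 : ℝ)) := by
  obtain ⟨K, hK, htwo⟩ := exists_typeTwo_le
  refine ⟨K, hK, fun q _ a α ha hα P U hqP hU => ?_⟩
  obtain ⟨l, hl⟩ : ∃ l, l = scale P := ⟨_, rfl⟩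
  have hl1 : 1 ≤ l := hl ▸ one_le_scale P
  have hlog : ∀ n ≤ P, Real.log n ≤ l := fun n hn => by
    refine le_trans ?_ (hl ▸ logOne_le_scale (P := P) (n := n) ?_)
    · rw [logOne]
      linarith
    · have := Nat.le_self_pow (by norm_num : (5 : ℕ) ≠ 0) P
      omega
  obtain ⟨R, hR⟩ : ∃ R : ℝ,
      R = 9 * l ^ 8 * P * (1 / (q : ℝ) + (U : ℝ) ^ 2 / P + q / (P : ℝ) ^ 3) ^ (1 / 8 : ℝ) :=
      ⟨_, rfl⟩
  have hR0 : 0 ≤ R := by rw [hR]; positivity
  have hquad : ∀ m, 1 ≤ m → m ≤ U * U → ∀ j ≤ P / m, ‖cubeSum (α * (m ^ 3 : ℕ)) j‖ ≤ R := by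
    intro m h1 h2 j hj
    refine (norm_cubeSum_short_le ha hα hqP h1 h2 hj).trans (le_of_eq ?_)
    rw [hR, hl, Nat.cast_mul, sq (U : ℝ)]
  have hUU : U ≤ U * U := Nat.le_mul_of_pos_left U hU
  have p0 : ‖cubeTwist α (lowPart U Λ) P‖ ≤ 6 * U := by
    refine (norm_sum_le _ _).trans ?_
    refine le_trans (le_of_eq (sum_congr rfl fun n _ => ?_))
      (le_trans (le_of_eq_of_le (sum_filter (fun n : ℕ => n ≤ U) fun n : ℕ => Λ n).symm
      (sum_le_sum_of_subset_of_nonneg (t := Ioc 0 U) (fun n hn => ?_)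
        fun n _ _ => vonMangoldt_nonneg)) (sum_vonMangoldt_le U))
    · rw [norm_mul, norm_eAdd, mul_one, Complex.norm_real, Real.norm_eq_abs, lowPart_apply]
      split_ifs
      · exact abs_of_nonneg vonMangoldt_nonneg
      · exact abs_zero
    · rw [mem_filter, mem_Ioc] at hn
      rw [mem_Ioc]
      omega
  have p1 : ‖cubeTwist α (lowPart U moebiusR * ArithmeticFunction.log : ArithmeticFunction ℝ) P‖
      ≤ (U * U : ℕ) * (1 * (2 * R * l)) := by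
    refine norm_typeOne_cube_le (lowPart U moebiusR) ArithmeticFunction.log zero_le_one
      (by positivity) (fun m _ => ?_) (fun m hm => ?_) fun m h1 h2 => ?_
    · rw [lowPart_apply]
      split_ifs
      · exact abs_moebiusR_le m
      · simp
    · rw [lowPart_apply, if_neg (by omega)]
    · exact (norm_cubeInner_log_le α (hquad m h1 h2)).trans (mul_le_mul_of_nonneg_left
        (hlog _ (Nat.div_le_self P m)) (by positivity))
  have p2 : ‖cubeTwist α (lowPart U Λ * lowPart U moebiusR * oneR : ArithmeticFunction ℝ) P‖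
      ≤ (U * U : ℕ) * (l * R) := by
    refine norm_typeOne_cube_le (lowPart U Λ * lowPart U moebiusR) oneR (by linarith) hR0
      (fun m hm => (abs_low_mul_le U m).trans (hlog m hm)) (fun m hm => low_mul_eq_zero hm)
      fun m h1 h2 => ?_
    rw [cubeInner_one_eq]
    exact hquad m h1 h2 _ le_rfl
  have p3 := htwo q a α ha hα P U hqP hU
  rw [vaughan U, cubeTwist_add, cubeTwist_sub, cubeTwist_add]
  refine (norm_add_le _ _).trans ((add_le_add ((norm_sub_le _ _).trans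
    (add_le_add ((norm_add_le _ _).trans (add_le_add p0 p1)) p2)) p3).trans ?_)
  rw [← hl]
  obtain ⟨Z, hZ⟩ : ∃ Z : ℝ, Z = (U : ℝ) ^ 2 *
      (1 / (q : ℝ) + (U : ℝ) ^ 2 / P + q / (P : ℝ) ^ 3) ^ (1 / 8 : ℝ) := ⟨_, rfl⟩
  rw [← hZ]
  have e : ((U * U : ℕ) : ℝ) * (1 * (2 * R * l)) + ((U * U : ℕ) : ℝ) * (l * R) =
      27 * l ^ 9 * P * Z := by
    rw [hR, hZ]
    push_cast
    ring
  have hZ0 : 0 ≤ Z := by rw [hZ]; positivity
  have h24 : 27 * l ^ 9 * P * Z ≤ 27 * l ^ 10 * P * Z := by gcongr; norm_num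
  linarith

/-- The cube root. -/
def cubeRoot (N : ℕ) : ℕ := WaringAsymptotic.rootFloor 3 N

theorem cubeRoot_spec {N : ℕ} (hN : 1 ≤ N) :
    1 ≤ cubeRoot N ∧ cubeRoot N ^ 3 ≤ N ∧ N < (cubeRoot N + 1) ^ 3 :=
  WaringAsymptotic.rootFloor_spec (by norm_num) hN

theorem cubeRoot_le_rpow {N : ℕ} (hN : 1 ≤ N) :
    (cubeRoot N : ℝ) ≤ (N : ℝ) ^ (1 / 3 : ℝ) := by
  rw [show (1 / 3 : ℝ) = ((3 : ℕ) : ℝ)⁻¹ by norm_num,
    Real.le_rpow_inv_iff_of_pos (Nat.cast_nonneg _) (Nat.cast_nonneg _) (by norm_num),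
    Real.rpow_natCast]
  exact_mod_cast (cubeRoot_spec hN).2.1

theorem le_eight_cubeRoot {N : ℕ} (hN : 1 ≤ N) : N ≤ 8 * cubeRoot N ^ 3 := by
  obtain ⟨h1, -, h3⟩ := cubeRoot_spec hN
  rw [show 8 * cubeRoot N ^ 3 = (2 * cubeRoot N) ^ 3 by ring]
  exact h3.le.trans (Nat.pow_le_pow_left (by omega) 3)

/-- Powers of `log N` against the cube root. -/
theorem exists_log_pow_le_cubeRoot (n : ℕ) : ∃ K : ℝ, 1 ≤ K ∧ ∀ N : ℕ, 1 ≤ N → ∀ m ≤ 2 * n,
    1 ≤ Real.log N → Real.log N ^ m ≤ K * cubeRoot N := by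
  obtain ⟨K, hK, hpow⟩ := exists_log_pow_le (3 * n)
  refine ⟨8 * (K + 1), by linarith, fun N hN m hm hl => ?_⟩
  refine (pow_le_pow_right₀ hl hm).trans ?_
  refine le_of_pow_le_pow_left₀ three_ne_zero (by positivity) ?_
  rw [← pow_mul, show 2 * n * 3 = 3 * n * 2 by ring, pow_mul]
  refine (pow_le_pow_left₀ (by positivity) (hpow N (by exact_mod_cast hN)) 2).trans ?_
  rw [mul_pow, Real.sq_sqrt (Nat.cast_nonneg N), mul_pow]
  have h1 : K ^ 2 ≤ (8 * (K + 1)) ^ 2 := pow_le_pow_left₀ hK.le (by linarith) 2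
  calc K ^ 2 * (N : ℝ) ≤ (8 * (K + 1)) ^ 2 * (8 * (cubeRoot N : ℝ) ^ 3) :=
        mul_le_mul h1 (by exact_mod_cast le_eight_cubeRoot hN) (Nat.cast_nonneg N) (by positivity)
    _ ≤ _ := by
        rw [← mul_assoc, pow_succ _ 2]
        refine mul_le_mul_of_nonneg_right (mul_le_mul_of_nonneg_left ?_ (by positivity))
          (by positivity)
        linarith

/-- **Vinogradov's bound for the cubes of the primes.** -/
theorem exists_cube_exp_sum_le (A : ℕ) : ∃ (B : ℕ) (C : ℝ), 0 < C ∧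
    ∀ (N q : ℕ) [NeZero q] (a : ℤ) (α : ℝ), IsUnit (a : ZMod q) →
      |α - a / q| ≤ 1 / (q : ℝ) ^ 2 → Real.log N ^ B ≤ q → (q : ℝ) ≤ N / Real.log N ^ B →
        ‖cubeTwist α Λ (cubeRoot N)‖ ≤ C * ((N : ℝ) ^ (1 / 3 : ℝ) / Real.log N ^ A) := by
  obtain ⟨E, hE⟩ : ∃ E, E = A + 39 := ⟨_, rfl⟩
  obtain ⟨T, hT, htw⟩ := exists_cubeTwist_le
  obtain ⟨K, hK, hpow⟩ := exists_log_pow_le_cubeRoot (292 * E)
  obtain ⟨c, hc⟩ : ∃ c : ℝ, c = 9 + K := ⟨_, rfl⟩
  refine ⟨520 * E, 6 * K + 27 * 12 ^ 10 * c + T * 12 ^ 39 * 11, by rw [hc]; positivity,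
    fun N q _ a α ha hα hq1 hq2 => ?_⟩
  rcases lt_or_ge N 8 with hN | hN
  · have hP : cubeRoot N ≤ 1 := by
      rcases Nat.eq_zero_or_pos N with rfl | hN0
      · simp [cubeRoot, WaringAsymptotic.rootFloor]
      by_contra h
      have := (cubeRoot_spec hN0).2.1
      have := Nat.pow_le_pow_left (show 2 ≤ cubeRoot N by omega) 3
      omega
    rw [show cubeTwist α Λ (cubeRoot N) = 0 from sum_eq_zero fun n hn => by
      rw [mem_Ioc] at hn
      rw [show n = 1 by omega]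
      simp, norm_zero]
    have := Real.log_natCast_nonneg N
    rw [hc]
    positivity
  have hN1 : 1 ≤ N := by omega
  obtain ⟨P, hP⟩ : ∃ P, P = cubeRoot N := ⟨_, rfl⟩
  have hP3 := cubeRoot_spec hN1
  have h8 := le_eight_cubeRoot hN1
  have hroot := cubeRoot_le_rpow hN1
  rw [← hP] at hP3 h8 hroot ⊢
  have hP0 : (1 : ℝ) ≤ P := by exact_mod_cast hP3.1
  have hNr : (8 : ℝ) ≤ N := by exact_mod_cast hN
  have h8' : (N : ℝ) ≤ 8 * (P : ℝ) ^ 3 := by exact_mod_cast h8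
  obtain ⟨l, hl⟩ : ∃ l, l = Real.log N := ⟨_, rfl⟩
  rw [← hl] at hq1 hq2 ⊢
  have hl1 : 1 ≤ l := by
    rw [hl, Real.le_log_iff_exp_le (by linarith)]
    linarith [Real.exp_one_lt_d9]
  have hl0 : 0 < l := by linarith
  have hbig : ∀ m, m ≤ 2 * (292 * E) → l ^ m ≤ K * P := fun m hm =>
    hl ▸ hP ▸ hpow N hN1 m hm (hl ▸ hl1)
  obtain ⟨V, hV⟩ : ∃ V, V = l ^ (32 * E) := ⟨_, rfl⟩
  have hV1 : 1 ≤ V := hV ▸ one_le_pow₀ hl1
  obtain ⟨U, hU⟩ : ∃ U, U = ⌊V⌋₊ := ⟨_, rfl⟩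
  have hU1 : 1 ≤ U := hU ▸ (Nat.one_le_floor_iff V).2 hV1
  have hUV : (U : ℝ) ≤ V := hU ▸ Nat.floor_le (by linarith)
  have hVU : V ≤ 2 * U := by
    have h1 := Nat.lt_floor_add_one V
    rw [← hU] at h1
    have : (1 : ℝ) ≤ U := by exact_mod_cast hU1
    linarith
  have hqP : q ≤ 8 * P ^ 3 := by
    have h : (q : ℝ) ≤ N := hq2.trans (div_le_self (by linarith) (one_le_pow₀ hl1))
    have : q ≤ N := by exact_mod_cast h
    omega
  have hscale : scale P ≤ 12 * l := by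
    have h1 : Real.log (P ^ 3 : ℝ) ≤ Real.log N := Real.log_le_log (by positivity)
      (by exact_mod_cast hP3.2.1)
    rw [← hl, Real.log_pow] at h1
    push_cast at h1
    unfold scale logOne
    rcases Nat.lt_or_ge P 2 with h2 | h2
    · rw [show P = 1 by omega, Nat.cast_one, Real.log_one]
      linarith
    · have h3 : Real.log 2 ≤ Real.log (P : ℝ) :=
        Real.log_le_log two_pos (by exact_mod_cast h2)
      linarith [Real.log_two_gt_d9]
  have hs0 := one_le_scale P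
  obtain ⟨X, hX⟩ : ∃ X : ℝ, X = (l ^ E)⁻¹ := ⟨_, rfl⟩
  have hX0 : 0 ≤ X := by rw [hX]; positivity
  have hXp : ∀ j, X ^ j = (l ^ (j * E))⁻¹ := fun j => by
    rw [hX, inv_pow, ← pow_mul, mul_comm]
  have hq' : 1 / (q : ℝ) ≤ (l ^ (520 * E))⁻¹ := by
    rw [one_div]
    exact inv_anti₀ (by positivity) hq1
  have hqP' : (q : ℝ) / (P : ℝ) ^ 3 ≤ 8 * (l ^ (520 * E))⁻¹ := by
    rw [div_le_iff₀ (by positivity)]
    refine hq2.trans ?_
    rw [div_eq_mul_inv, show 8 * (l ^ (520 * E))⁻¹ * (P : ℝ) ^ 3 =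
      8 * (P : ℝ) ^ 3 * (l ^ (520 * E))⁻¹ by ring]
    exact mul_le_mul_of_nonneg_right h8' (by positivity)
  -- the first term
  have t0 : (U : ℝ) ≤ K * P * X := by
    refine hUV.trans ?_
    rw [hV, hX, ← div_eq_mul_inv, le_div_iff₀ (by positivity), ← pow_add]
    exact hbig _ (by omega)
  have hroots : ∀ (n : ℕ) {y k : ℝ}, n ≠ 0 → 0 ≤ y → 1 ≤ k → y ≤ k * X ^ n →
      y ^ ((n : ℝ)⁻¹) ≤ k * X := by
    intro n y k hn hy hk h
    refine (Real.rpow_le_rpow hy h (by positivity)).trans ?_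
    rw [Real.mul_rpow (by linarith) (by positivity), Real.pow_rpow_inv_natCast hX0 hn]
    refine mul_le_mul_of_nonneg_right (Real.rpow_le_self_of_one_le hk ?_) hX0
    rw [inv_le_one₀ (by positivity)]
    exact_mod_cast Nat.one_le_iff_ne_zero.2 hn
  -- type I
  have t1 : (U : ℝ) ^ 2 * (1 / (q : ℝ) + (U : ℝ) ^ 2 / P + q / (P : ℝ) ^ 3) ^ (1 / 8 : ℝ) ≤
      c * X := by
    obtain ⟨Y, hY⟩ : ∃ Y : ℝ, Y = 1 / (q : ℝ) + (U : ℝ) ^ 2 / P + q / (P : ℝ) ^ 3 := ⟨_, rfl⟩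
    have hY0 : 0 ≤ Y := by rw [hY]; positivity
    rw [← hY, show (1 / 8 : ℝ) = ((8 : ℕ) : ℝ)⁻¹ by norm_num,
      show (U : ℝ) ^ 2 = (((U : ℝ) ^ 2) ^ 8) ^ (((8 : ℕ) : ℝ)⁻¹) from
      (Real.pow_rpow_inv_natCast (by positivity) (by norm_num)).symm,
      ← Real.mul_rpow (by positivity) hY0, ← pow_mul]
    refine hroots 8 (by norm_num) (by positivity) (by rw [hc]; linarith) ?_
    rw [hY]
    have h1 : (U : ℝ) ^ (2 * 8) ≤ l ^ (512 * E) := by
      refine (pow_le_pow_left₀ (Nat.cast_nonneg U) hUV _).trans (le_of_eq ?_)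
      rw [hV, ← pow_mul]
      ring_nf
    have h2 : (U : ℝ) ^ (2 * 8) * (l ^ (520 * E))⁻¹ ≤ X ^ 8 := by
      refine (mul_le_mul_of_nonneg_right h1 (by positivity)).trans (le_of_eq ?_)
      rw [hXp, show 520 * E = 512 * E + 8 * E by ring, pow_add, mul_inv, ← mul_assoc,
        mul_inv_cancel₀ (by positivity), one_mul]
    have h3 : (U : ℝ) ^ (2 * 8) * ((U : ℝ) ^ 2 / P) ≤ K * X ^ 8 := by
      rw [hXp, ← div_eq_mul_inv, mul_div_assoc', div_le_div_iff₀ (by linarith) (by positivity)]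
      calc (U : ℝ) ^ (2 * 8) * (U : ℝ) ^ 2 * l ^ (8 * E) ≤ V ^ 18 * l ^ (8 * E) := by
            rw [← pow_add]
            gcongr
        _ = l ^ (576 * E + 8 * E) := by rw [hV, ← pow_mul, ← pow_add]; ring_nf
        _ ≤ K * P := hbig _ (by omega)
    rw [hc]
    calc (U : ℝ) ^ (2 * 8) * (1 / (q : ℝ) + (U : ℝ) ^ 2 / P + q / (P : ℝ) ^ 3)
        = (U : ℝ) ^ (2 * 8) * (1 / (q : ℝ)) + (U : ℝ) ^ (2 * 8) * ((U : ℝ) ^ 2 / P) +
            (U : ℝ) ^ (2 * 8) * (q / (P : ℝ) ^ 3) := by ring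
      _ ≤ (U : ℝ) ^ (2 * 8) * (l ^ (520 * E))⁻¹ + K * X ^ 8 +
            (U : ℝ) ^ (2 * 8) * (8 * (l ^ (520 * E))⁻¹) := by gcongr
      _ ≤ _ := by linarith
  -- type II
  have t2 : cubeSaving U q P ^ (1 / 32 : ℝ) ≤ 11 * X := by
    rw [show (1 / 32 : ℝ) = ((32 : ℕ) : ℝ)⁻¹ by norm_num]
    refine hroots 32 (by norm_num) (cubeSaving_nonneg _ _ _) (by norm_num) ?_
    have h2 : (l ^ (520 * E))⁻¹ ≤ (l ^ (32 * E))⁻¹ :=
      inv_anti₀ (by positivity) (pow_le_pow_right₀ hl1 (by omega))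
    have h3 : 1 / (U : ℝ) ≤ 2 * (l ^ (32 * E))⁻¹ := by
      rw [← hV, ← div_eq_mul_inv, div_le_div_iff₀ (by exact_mod_cast hU1) (by linarith), one_mul]
      exact hVU
    rw [cubeSaving, hXp]
    linarith
  refine (htw q a α ha hα P U hqP hU1).trans ?_
  have hfin : (l ^ 39 * X) * P ≤ (N : ℝ) ^ (1 / 3 : ℝ) / l ^ A := by
    rw [div_eq_mul_inv, mul_comm ((N : ℝ) ^ (1 / 3 : ℝ))]
    refine mul_le_mul ?_ hroot (Nat.cast_nonneg P) (by positivity)
    rw [hX, hE, ← div_eq_mul_inv, div_le_iff₀ (by positivity), pow_add,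
      inv_mul_cancel_left₀ (by positivity)]
  have hc0 : 0 ≤ c := by rw [hc]; linarith
  calc 6 * (U : ℝ) + 27 * scale P ^ 10 * P * ((U : ℝ) ^ 2 *
          (1 / (q : ℝ) + (U : ℝ) ^ 2 / P + q / (P : ℝ) ^ 3) ^ (1 / 8 : ℝ)) +
        T * (scale P ^ 39 * P * cubeSaving U q P ^ (1 / 32 : ℝ))
      ≤ 6 * (K * P * X) + 27 * (12 * l) ^ 10 * P * (c * X) +
          T * ((12 * l) ^ 39 * P * (11 * X)) := by
        have := cubeSaving_nonneg U q P
        gcongr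
    _ ≤ (6 * K + 27 * 12 ^ 10 * c + T * 12 ^ 39 * 11) * ((l ^ 39 * X) * P) := by
        have e0 : 0 ≤ X * P := by positivity
        have e1 := mul_le_mul_of_nonneg_left (le_mul_of_one_le_left e0 (one_le_pow₀ (n := 39) hl1))
          (show 0 ≤ 6 * K by linarith)
        have e2 := mul_le_mul_of_nonneg_left (mul_le_mul_of_nonneg_right
          (pow_le_pow_right₀ hl1 (show 10 ≤ 39 by norm_num)) e0)
          (show 0 ≤ 27 * 12 ^ 10 * c by positivity)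
        rw [mul_pow (12 : ℝ) l 10, mul_pow (12 : ℝ) l 39]
        linarith
    _ ≤ _ := mul_le_mul_of_nonneg_left hfin (by positivity)

end FA.HuaCubes
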