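import Fermat.Agent.HuaCubes.Divisors
import Mathlib.Algebra.Order.Chebyshev

/-!
# Hua's eighth moment for cubes

`x₁³ + x₂³ = y₁³ + y₂³` has `O (P² (log P) ^ C)` solutions up to `P`, and with eight variables there
are `O (P⁵ (log P) ^ C)`: after one differencing `|f| ⁴ ≤ 2 P ∑ |T_h|²`, and the sum over the
non-zero differences is `O (P ^ (5/2))` times the square root of the eighth moment itself.
-/

set_option autoImplicit false

noncomputable section

namespace FA.HuaCubes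

open Finset FA.ThreePrimes
open scoped ComplexConjugate

/-- `∑ c i e (φ i t)`. -/
def intTrig {ι : Type*} (A : Finset ι) (c : ι → ℂ) (φ : ι → ℤ) (t : ℝ) : ℂ :=
  ∑ i ∈ A, c i * eAdd ((φ i : ℝ) * t)

theorem intTrig_mul {ι κ : Type*} (A : Finset ι) (B : Finset κ) (c : ι → ℂ) (d : κ → ℂ)
    (φ : ι → ℤ) (ψ : κ → ℤ) (t : ℝ) :
    intTrig A c φ t * intTrig B d ψ t =
      intTrig (A ×ˢ B) (fun z => c z.1 * d z.2) (fun z => φ z.1 + ψ z.2) t := by
  simp only [intTrig, sum_mul_sum, sum_product]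
  refine sum_congr rfl fun i _ => sum_congr rfl fun j _ => ?_
  push_cast
  rw [add_mul, eAdd_add]
  ring

theorem intTrig_conj {ι : Type*} (A : Finset ι) (c : ι → ℂ) (φ : ι → ℤ) (t : ℝ) :
    conj (intTrig A c φ t) = intTrig A (fun i => conj (c i)) (fun i => -φ i) t := by
  simp only [intTrig, map_sum, map_mul, conj_eAdd]
  push_cast
  simp only [neg_mul]

/-- **Orthogonality on a grid finer than the differences of the frequencies.** -/
theorem sum_intTrig_grid {ι : Type*} (A : Finset ι) (c : ι → ℂ) (φ : ι → ℤ) {M : ℕ}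
    (hM : ∀ i ∈ A, ∀ j ∈ A, |φ i - φ j| < (M : ℤ)) :
    ((∑ h ∈ range M, ‖intTrig A c φ (h / M)‖ ^ 2 : ℝ) : ℂ) =
      M * ∑ i ∈ A, ∑ j ∈ A, if φ i = φ j then c i * conj (c j) else 0 := by
  rcases A.eq_empty_or_nonempty with rfl | ⟨i₀, hi₀⟩
  · simp [intTrig]
  have hM0 : 0 < M := by
    have := (abs_nonneg _).trans_lt (hM i₀ hi₀ i₀ hi₀)
    omega
  rw [Complex.ofReal_sum]
  have e : ∀ h : ℕ, ((‖intTrig A c φ (h / M)‖ ^ 2 : ℝ) : ℂ) = ∑ i ∈ A, ∑ j ∈ A,
      c i * conj (c j) * eAdd (((φ i - φ j : ℤ) : ℝ) * h / M) := fun h => by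
    rw [Complex.ofReal_pow, ← Complex.mul_conj', intTrig, map_sum, sum_mul_sum]
    refine sum_congr rfl fun i _ => sum_congr rfl fun j _ => ?_
    rw [map_mul, conj_eAdd, mul_mul_mul_comm, ← eAdd_add]
    push_cast
    ring_nf
  rw [sum_congr rfl fun h _ => e h, sum_comm, mul_sum]
  refine sum_congr rfl fun i hi => ?_
  rw [sum_comm, mul_sum]
  refine sum_congr rfl fun j hj => ?_
  rw [← mul_sum, sum_eAdd_grid hM0]
  by_cases h : φ i = φ j
  · rw [if_pos h, h, sub_self, if_pos (dvd_zero _)]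
    ring
  · rw [if_neg h, if_neg, mul_zero, mul_zero]
    intro hd
    exact absurd (Int.le_of_dvd (abs_pos.2 (sub_ne_zero.2 h)) ((dvd_abs _ _).2 hd))
      (not_le.2 (hM i hi j hj))

/-- The coincidences among the frequencies. -/
def coincidences {ι : Type*} (A : Finset ι) (φ : ι → ℤ) : ℕ :=
  ∑ i ∈ A, (A.filter fun j => φ i = φ j).card

theorem sum_grid_one {ι : Type*} (A : Finset ι) (φ : ι → ℤ) {M : ℕ}
    (hM : ∀ i ∈ A, ∀ j ∈ A, |φ i - φ j| < (M : ℤ)) :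
    ∑ h ∈ range M, ‖intTrig A (fun _ => 1) φ (h / M)‖ ^ 2 = M * coincidences A φ := by
  apply Complex.ofReal_injective
  rw [sum_intTrig_grid A _ φ hM]
  simp [coincidences]

theorem sum_grid_le {ι : Type*} (A : Finset ι) (c : ι → ℂ) (φ : ι → ℤ) {M : ℕ} {B : ℝ}
    (hM : ∀ i ∈ A, ∀ j ∈ A, |φ i - φ j| < (M : ℤ)) (hc : ∀ i ∈ A, ‖c i‖ ≤ B) :
    ∑ h ∈ range M, ‖intTrig A c φ (h / M)‖ ^ 2 ≤ M * (B ^ 2 * coincidences A φ) := by
  calc ∑ h ∈ range M, ‖intTrig A c φ (h / M)‖ ^ 2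
      = ‖((∑ h ∈ range M, ‖intTrig A c φ (h / M)‖ ^ 2 : ℝ) : ℂ)‖ := by
        rw [Complex.norm_real, Real.norm_of_nonneg (sum_nonneg fun _ _ => sq_nonneg _)]
    _ ≤ _ := by
        rw [sum_intTrig_grid A c φ hM, norm_mul, Complex.norm_natCast, coincidences, Nat.cast_sum,
          mul_sum (a := B ^ 2)]
        refine mul_le_mul_of_nonneg_left ((norm_sum_le _ _).trans (sum_le_sum fun i hi => ?_))
          (Nat.cast_nonneg M)
        rw [← sum_filter]
        refine (norm_sum_le _ _).trans ((sum_le_card_nsmul _ _ (B ^ 2) fun j hj => ?_).trans ?_)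
        · rw [norm_mul, Complex.norm_conj, sq]
          exact mul_le_mul (hc i hi) (hc j (mem_filter.1 hj).1) (norm_nonneg _)
            ((norm_nonneg _).trans (hc i hi))
        · rw [nsmul_eq_mul, mul_comm]

/-- The pairs up to `P`. -/
def pairs (P : ℕ) : Finset (ℕ × ℕ) := Ioc 0 P ×ˢ Ioc 0 P

/-- `x³ + y³`. -/
def pairSum (z : ℕ × ℕ) : ℤ := (z.1 : ℤ) ^ 3 + (z.2 : ℤ) ^ 3

/-- `y³ - x³`. -/
def pairDiff (z : ℕ × ℕ) : ℤ := (z.2 : ℤ) ^ 3 - (z.1 : ℤ) ^ 3

/-- Pairs of pairs. -/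
def quads (P : ℕ) : Finset ((ℕ × ℕ) × (ℕ × ℕ)) := pairs P ×ˢ pairs P

/-- `x₁³ + x₂³ - y₁³ - y₂³`. -/
def quadVal (w : (ℕ × ℕ) × (ℕ × ℕ)) : ℤ := pairSum w.1 - pairSum w.2

/-- The representations of `m` as `x₁³ + x₂³ - y₁³ - y₂³`. -/
def rep (P : ℕ) (m : ℤ) : ℕ := ((quads P).filter fun w => quadVal w = m).card

/-- The possible values. -/
def valRange (P : ℕ) : Finset ℤ := Icc (-(2 * (P : ℤ) ^ 3)) (2 * (P : ℤ) ^ 3)

/-- The eighth moment: the solutions of `x₁³ + ⋯ + x₄³ = y₁³ + ⋯ + y₄³`. -/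
def eighthMoment (P : ℕ) : ℕ := ∑ m ∈ valRange P, rep P m ^ 2

theorem mem_pairs {P : ℕ} {z : ℕ × ℕ} :
    z ∈ pairs P ↔ (0 < z.1 ∧ z.1 ≤ P) ∧ (0 < z.2 ∧ z.2 ≤ P) := by
  simp [pairs]

theorem cube_bounds {P x : ℕ} (hx : x ≤ P) : 0 ≤ (x : ℤ) ^ 3 ∧ (x : ℤ) ^ 3 ≤ (P : ℤ) ^ 3 :=
  ⟨by positivity, pow_le_pow_left₀ (by positivity) (by exact_mod_cast hx) 3⟩

theorem pairSum_bounds {P : ℕ} {z : ℕ × ℕ} (hz : z ∈ pairs P) :
    0 ≤ pairSum z ∧ pairSum z ≤ 2 * (P : ℤ) ^ 3 := by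
  rw [mem_pairs] at hz
  have h1 := cube_bounds hz.1.2
  have h2 := cube_bounds hz.2.2
  unfold pairSum
  omega

theorem pairDiff_bounds {P : ℕ} {z : ℕ × ℕ} (hz : z ∈ pairs P) :
    -(P : ℤ) ^ 3 ≤ pairDiff z ∧ pairDiff z ≤ (P : ℤ) ^ 3 := by
  rw [mem_pairs] at hz
  have h1 := cube_bounds hz.1.2
  have h2 := cube_bounds hz.2.2
  unfold pairDiff
  omega

theorem quadVal_mem {P : ℕ} {w : (ℕ × ℕ) × (ℕ × ℕ)} (hw : w ∈ quads P) :
    quadVal w ∈ valRange P := by
  rw [quads, mem_product] at hw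
  have h1 := pairSum_bounds hw.1
  have h2 := pairSum_bounds hw.2
  rw [valRange, mem_Icc, quadVal]
  omega

theorem coincidences_quads (P : ℕ) : coincidences (quads P) quadVal = eighthMoment P := by
  rw [coincidences, eighthMoment, ← sum_fiberwise_of_maps_to (g := quadVal) (t := valRange P)
    fun w hw => quadVal_mem hw]
  refine sum_congr rfl fun m _ => ?_
  rw [sq, sum_congr rfl fun w hw => by
    rw [(mem_filter.1 hw).2, filter_congr fun j _ => eq_comm], sum_const, smul_eq_mul, rep]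

/-- `∑_{n ≤ P} c n e (n³ t)`. -/
def cubeTrig (c : ℕ → ℂ) (P : ℕ) (t : ℝ) : ℂ := intTrig (Ioc 0 P) c (fun n => (n : ℤ) ^ 3) t

theorem cubeTrig_pow_four (c : ℕ → ℂ) (P : ℕ) (t : ℝ) :
    ((‖cubeTrig c P t‖ ^ 4 : ℝ) : ℂ) = intTrig (quads P)
      (fun w => c w.1.1 * c w.1.2 * (conj (c w.2.1) * conj (c w.2.2))) quadVal t := by
  rw [show (4 : ℕ) = 2 * 2 from rfl, pow_mul, Complex.ofReal_pow, Complex.ofReal_pow,
    ← Complex.mul_conj', mul_pow, ← map_pow, sq, cubeTrig, intTrig_mul, intTrig_conj, intTrig_mul,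
    intTrig, intTrig]
  simp only [map_mul]
  refine sum_congr rfl fun w _ => ?_
  simp only [quadVal, pairSum]
  push_cast
  ring_nf

theorem norm_cubeTrig_pow_four (c : ℕ → ℂ) (P : ℕ) (t : ℝ) :
    ‖cubeTrig c P t‖ ^ 4 = ‖intTrig (quads P)
      (fun w => c w.1.1 * c w.1.2 * (conj (c w.2.1) * conj (c w.2.2))) quadVal t‖ := by
  rw [← cubeTrig_pow_four, Complex.norm_real, Real.norm_of_nonneg (by positivity)]

theorem abs_quadVal_sub_lt {P M : ℕ} (hM : 4 * P ^ 3 < M) :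
    ∀ i ∈ quads P, ∀ j ∈ quads P, |quadVal i - quadVal j| < (M : ℤ) := by
  intro i hi j hj
  have h1 := mem_Icc.1 (quadVal_mem hi)
  have h2 := mem_Icc.1 (quadVal_mem hj)
  have hM' : 4 * (P : ℤ) ^ 3 < M := by exact_mod_cast hM
  rw [abs_lt]
  omega

/-- **The eighth power on the grid.** -/
theorem sum_cubeTrig_pow_eight {P M : ℕ} (hM : 4 * P ^ 3 < M) :
    ∑ h ∈ range M, ‖cubeTrig (fun _ => 1) P (h / M)‖ ^ 8 = M * eighthMoment P := by
  simp only [show (8 : ℕ) = 4 * 2 from rfl, pow_mul, norm_cubeTrig_pow_four, map_one, mul_one]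
  rw [sum_grid_one _ _ (abs_quadVal_sub_lt hM), coincidences_quads]

/-- **The eighth power with bounded coefficients.** -/
theorem sum_cubeTrig_pow_eight_le {c : ℕ → ℂ} {P M : ℕ} {B : ℝ}
    (hc : ∀ n ∈ Ioc 0 P, ‖c n‖ ≤ B) (hM : 4 * P ^ 3 < M) :
    ∑ h ∈ range M, ‖cubeTrig c P (h / M)‖ ^ 8 ≤ M * (B ^ 8 * eighthMoment P) := by
  simp only [show (8 : ℕ) = 4 * 2 from rfl, pow_mul, norm_cubeTrig_pow_four]
  refine (sum_grid_le _ _ _ (B := B ^ 4) (abs_quadVal_sub_lt hM) fun w hw => ?_).trans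
    (le_of_eq (by rw [coincidences_quads]))
  simp only [quads, pairs, mem_product] at hw
  rw [norm_mul, norm_mul, norm_mul, Complex.norm_conj, Complex.norm_conj,
    show B ^ 4 = B * B * (B * B) by ring]
  have hB : 0 ≤ B := (norm_nonneg _).trans (hc _ hw.1.1)
  gcongr <;> exact hc _ (by tauto)

/-! ### The fourth moment -/

/-- `∑_{m ≠ 0, |m| ≤ N} F |m| ≤ 2 ∑_{n ≤ N} F n`. -/
theorem sum_natAbs_le {N : ℕ} (S : Finset ℤ) (hS : ∀ m ∈ S, m ≠ 0 ∧ m.natAbs ≤ N) (F : ℕ → ℝ)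
    (hF : ∀ n, 0 ≤ F n) : ∑ m ∈ S, F m.natAbs ≤ 2 * ∑ n ∈ Ioc 0 N, F n := by
  rw [← sum_fiberwise_of_maps_to (g := Int.natAbs) (t := Ioc 0 N) fun m hm => by
    have := hS m hm
    rw [mem_Ioc]
    omega, mul_sum]
  refine sum_le_sum fun n _ => ?_
  rw [sum_congr rfl fun m hm => by rw [(mem_filter.1 hm).2], sum_const, nsmul_eq_mul]
  refine mul_le_mul_of_nonneg_right ?_ (hF n)
  exact_mod_cast (card_le_card (t := {(n : ℤ), -(n : ℤ)}) fun m hm => by
    have := (mem_filter.1 hm).2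
    simp only [mem_insert, mem_singleton]
    omega).trans card_le_two

theorem card_cubePartner_le {P a c : ℕ} (h : c < a) :
    ((pairs P).filter fun w => a ^ 3 + w.1 ^ 3 = c ^ 3 + w.2 ^ 3).card ≤
      (a ^ 3 - c ^ 3).divisors.card := by
  have hac : c ^ 3 < a ^ 3 := Nat.pow_lt_pow_left h (by norm_num)
  have key : ∀ w : ℕ × ℕ, a ^ 3 + w.1 ^ 3 = c ^ 3 + w.2 ^ 3 →
      w.1 < w.2 ∧ a ^ 3 - c ^ 3 = w.2 ^ 3 - w.1 ^ 3 := fun w hw =>
    ⟨lt_of_pow_lt_pow_left₀ 3 (Nat.zero_le _) (by omega), by omega⟩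
  refine card_le_card_of_injOn (fun w => w.2 - w.1) (fun w hw => ?_) fun w hw v hv e => ?_
  · simp only [mem_coe, mem_filter, Nat.mem_divisors] at hw ⊢
    obtain ⟨h1, h2⟩ := key w hw.2
    exact ⟨h2 ▸ Nat.sub_dvd_pow_sub_pow _ _ 3, by omega⟩
  · simp only [mem_coe, mem_filter] at hw hv e
    obtain ⟨h1, h2⟩ := key w hw.2
    obtain ⟨g1, g2⟩ := key v hv.2
    obtain ⟨k, hk⟩ : ∃ k, w.2 = w.1 + k ∧ v.2 = v.1 + k ∧ 0 < k :=
      ⟨w.2 - w.1, by omega, by omega, by omega⟩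
    have hmono : StrictMono fun x : ℕ => (x + k) ^ 3 - x ^ 3 := by
      refine strictMono_nat_of_lt_succ fun x => ?_
      obtain ⟨hk1, hk2⟩ : x ^ 3 ≤ (x + k) ^ 3 ∧ (x + 1) ^ 3 ≤ (x + 1 + k) ^ 3 :=
        ⟨Nat.pow_le_pow_left (by omega) 3, Nat.pow_le_pow_left (by omega) 3⟩
      zify [hk1, hk2]
      have hkz : (0 : ℤ) < k := by exact_mod_cast hk.2.2
      nlinarith [mul_pos hkz (show (0 : ℤ) < 2 * x + k + 1 by positivity)]
    have h3 : w.1 = v.1 := hmono.injective (by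
      rw [← hk.1, ← hk.2.1, ← h2, ← g2])
    exact Prod.ext h3 (by omega)

theorem rep_zero_le (P : ℕ) :
    (rep P 0 : ℝ) ≤ 257 * ((P : ℝ) ^ 2 * logOne P ^ 264) := by
  obtain ⟨F, hF⟩ : ∃ F : ℕ → ℕ → ℝ, F = fun a c : ℕ =>
      (((pairs P).filter fun w => a ^ 3 + w.1 ^ 3 = c ^ 3 + w.2 ^ 3).card : ℝ) := ⟨_, rfl⟩
  have e : (rep P 0 : ℝ) = ∑ z ∈ pairs P, F z.1 z.2 := by
    simp only [rep, hF, quads, pairs, card_filter, Nat.cast_sum, sum_product]
    refine sum_congr rfl fun a _ => ?_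
    rw [sum_comm]
    refine sum_congr rfl fun c _ => sum_congr rfl fun b _ => sum_congr rfl fun d _ => ?_
    refine congrArg Nat.cast (if_congr ?_ rfl rfl)
    simp only [quadVal, pairSum, sub_eq_zero]
    constructor <;> intro h <;> exact_mod_cast h
  have hsymm : ∀ a c, F c a = F a c := fun a c => by
    rw [hF]
    simp only
    norm_cast
    refine card_bij' (fun w _ => w.swap) (fun w _ => w.swap) (fun w hw => ?_) (fun w hw => ?_)
      (fun w _ => rfl) (fun w _ => rfl)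
    all_goals
      simp only [mem_filter, pairs, mem_product, Prod.fst_swap, Prod.snd_swap] at hw ⊢
      exact ⟨⟨hw.1.2, hw.1.1⟩, hw.2.symm⟩
  have hlow : ∑ z ∈ (pairs P).filter (fun z => z.2 < z.1), F z.1 z.2 ≤
      128 * (P : ℝ) ^ 2 * logOne P ^ 264 := by
    refine le_trans (sum_le_sum fun z hz => ?_) (sum_cubeDiff_divisors_le P)
    rw [hF, tauPow, pow_one]
    exact Nat.cast_le.2 (card_cubePartner_le (mem_filter.1 hz).2)
  have hcard : ∀ T : Finset (ℕ × ℕ), (∀ z ∈ T, z.1 ∈ Ioc 0 P ∧ z.2 = z.1) → T.card ≤ P := by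
    intro T hT
    refine (card_le_card_of_injOn (fun z => z.1) (fun z hz => (hT z hz).1)
      fun z hz w hw e => Prod.ext e ((hT z hz).2.trans (e.trans (hT w hw).2.symm))).trans ?_
    simp
  have hdiag : ∑ z ∈ (pairs P).filter (fun z => z.2 = z.1), F z.1 z.2 ≤
      (P : ℝ) ^ 2 * logOne P ^ 264 := by
    refine (sum_le_card_nsmul _ _ (P : ℝ) fun z hz => ?_).trans ?_
    · rw [hF]
      refine Nat.cast_le.2 (hcard _ fun w hw => ?_)
      simp only [mem_filter, pairs, mem_product] at hw hz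
      refine ⟨hw.1.1, Nat.pow_left_injective three_ne_zero (?_ : w.2 ^ 3 = w.1 ^ 3)⟩
      have := hw.2
      rw [hz.2] at this
      omega
    · rw [nsmul_eq_mul, sq]
      refine (mul_le_mul_of_nonneg_right (Nat.cast_le.2 (hcard _ fun w hw => ?_))
        (Nat.cast_nonneg P)).trans (le_mul_of_one_le_right (by positivity)
          (one_le_pow₀ (one_le_logOne P)))
      simp only [mem_filter, pairs, mem_product] at hw
      exact ⟨hw.1.1, hw.2⟩
  have hhigh : ∑ z ∈ (pairs P).filter (fun z => z.1 < z.2), F z.1 z.2 =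
      ∑ z ∈ (pairs P).filter (fun z => z.2 < z.1), F z.1 z.2 := by
    refine sum_nbij' Prod.swap Prod.swap (fun z hz => ?_) (fun z hz => ?_) (fun z _ => rfl)
      (fun z _ => rfl) fun z _ => (hsymm z.1 z.2).symm
    all_goals
      simp only [mem_filter, pairs, mem_product, Prod.fst_swap, Prod.snd_swap] at hz ⊢
      exact ⟨⟨hz.1.2, hz.1.1⟩, hz.2⟩
  have hsplit : ∑ z ∈ pairs P, F z.1 z.2 = ∑ z ∈ (pairs P).filter (fun z => z.2 = z.1), F z.1 z.2 +
      ∑ z ∈ (pairs P).filter (fun z => z.2 < z.1), F z.1 z.2 +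
        ∑ z ∈ (pairs P).filter (fun z => z.1 < z.2), F z.1 z.2 := by
    simp only [sum_filter, ← sum_add_distrib]
    refine sum_congr rfl fun z _ => ?_
    rcases lt_trichotomy z.2 z.1 with h | h | h
    · simp [h, h.ne, h.not_gt]
    · simp [h]
    · simp [h, h.ne', h.not_gt]
  rw [e, hsplit, hhigh]
  linarith

/-! ### The eighth moment -/

/-- The pairs of pairs with equal differences. -/
def shift (P : ℕ) : Finset ((ℕ × ℕ) × (ℕ × ℕ)) :=
  (quads P).filter fun s => (s.1.2 : ℤ) - s.1.1 = (s.2.2 : ℤ) - s.2.1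

/-- `(w₂³ - w₁³) - (z₂³ - z₁³)`. -/
def shiftVal (s : (ℕ × ℕ) × (ℕ × ℕ)) : ℤ := pairDiff s.2 - pairDiff s.1

theorem shiftVal_eq {P : ℕ} {s : (ℕ × ℕ) × (ℕ × ℕ)} (hs : s ∈ shift P) :
    shiftVal s = ((s.1.2 : ℤ) - s.1.1) * ((s.1.1 : ℤ) - s.2.1) *
      (-3 * ((s.1.2 : ℤ) + s.2.1)) := by
  have h : (s.2.2 : ℤ) = s.2.1 + ((s.1.2 : ℤ) - s.1.1) := by
    have := (mem_filter.1 hs).2
    omega
  simp only [shiftVal, pairDiff, h]
  ring

theorem shiftVal_mem {P : ℕ} {s : (ℕ × ℕ) × (ℕ × ℕ)} (hs : s ∈ shift P) :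
    shiftVal s ∈ valRange P := by
  simp only [shift, quads, mem_filter, mem_product] at hs
  have h1 := pairDiff_bounds hs.1.1
  have h2 := pairDiff_bounds hs.1.2
  rw [valRange, mem_Icc, shiftVal]
  omega

theorem card_shift_zero_le (P : ℕ) :
    ((shift P).filter fun s => shiftVal s = 0).card ≤ 2 * P ^ 2 := by
  classical
  have hsub : ((shift P).filter fun s => shiftVal s = 0) ⊆
      (pairs P).image (fun z => (z, z)) ∪ (pairs P).image (fun z => ((z.1, z.1), (z.2, z.2))) := by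
    intro s hs
    rw [mem_filter] at hs
    have h := hs.2
    rw [shiftVal_eq hs.1] at h
    have hs' := hs.1
    simp only [shift, quads, mem_filter, mem_product, mem_pairs] at hs'
    simp only [mem_union, mem_image, mem_pairs]
    rcases mul_eq_zero.1 h with h | h
    · rcases mul_eq_zero.1 h with h | h
      · exact Or.inr ⟨(s.1.1, s.2.1), ⟨hs'.1.1.1, hs'.1.2.1⟩, Prod.ext (Prod.ext rfl (by
          simp only; omega)) (Prod.ext rfl (by simp only; omega))⟩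
      · exact Or.inl ⟨s.1, hs'.1.1, Prod.ext rfl (Prod.ext (by simp only; omega) (by simp only; omega))⟩
    · omega
  refine (card_le_card hsub).trans ((card_union_le _ _).trans ?_)
  have hp : (pairs P).card = P ^ 2 := by simp [pairs, sq]
  linarith [card_image_le (s := pairs P) (f := fun z => (z, z)),
    card_image_le (s := pairs P) (f := fun z => ((z.1, z.1), (z.2, z.2)))]

/-- The divisors of `m`, with both signs. -/
def signedDivisors (m : ℕ) : Finset ℤ :=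
  m.divisors.image (fun d : ℕ => (d : ℤ)) ∪ m.divisors.image (fun d : ℕ => -(d : ℤ))

theorem mem_signedDivisors {m : ℕ} (hm : m ≠ 0) {h : ℤ} (hd : h.natAbs ∣ m) :
    h ∈ signedDivisors m := by
  rw [signedDivisors, mem_union, mem_image, mem_image]
  rcases Int.natAbs_eq h with e | e
  · exact Or.inl ⟨_, Nat.mem_divisors.2 ⟨hd, hm⟩, e.symm⟩
  · exact Or.inr ⟨_, Nat.mem_divisors.2 ⟨hd, hm⟩, e.symm⟩

theorem card_signedDivisors_le (m : ℕ) : (signedDivisors m).card ≤ 2 * m.divisors.card := by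
  refine (card_union_le _ _).trans ?_
  rw [two_mul]
  exact add_le_add card_image_le card_image_le

theorem card_shift_fiber_le (P : ℕ) {m : ℤ} (hm : m ≠ 0) :
    ((shift P).filter fun s => shiftVal s = m).card ≤ 4 * m.natAbs.divisors.card ^ 2 := by
  refine le_trans (card_le_card_of_injOn
    (fun s => ((s.1.2 : ℤ) - s.1.1, (s.1.1 : ℤ) - s.2.1))
    (t := signedDivisors m.natAbs ×ˢ signedDivisors m.natAbs) (fun s hs => ?_)
    fun s hs t ht e => ?_) ?_
  · simp only [mem_coe, mem_filter] at hs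
    simp only [mem_coe, mem_product]
    have h := hs.2
    rw [shiftVal_eq hs.1] at h
    refine ⟨mem_signedDivisors (by simpa using hm) ?_, mem_signedDivisors (by simpa using hm) ?_⟩
    all_goals rw [← h]; apply Int.natAbs_dvd_natAbs.2
    · exact (dvd_mul_right _ _).mul_right _
    · exact (dvd_mul_left _ _).mul_right _
  · simp only [mem_coe, mem_filter] at hs ht
    simp only [Prod.mk.injEq] at e
    have h := hs.2.trans ht.2.symm
    rw [shiftVal_eq hs.1, shiftVal_eq ht.1, e.1, e.2] at h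
    have hne : ((t.1.2 : ℤ) - t.1.1) * ((t.1.1 : ℤ) - t.2.1) ≠ 0 := fun h0 => hm (by
      rw [← ht.2, shiftVal_eq ht.1, h0, zero_mul])
    have h3 := mul_left_cancel₀ hne h
    have hs' := (mem_filter.1 hs.1).2
    have ht' := (mem_filter.1 ht.1).2
    obtain ⟨⟨a, b⟩, ⟨c, d⟩⟩ := s
    obtain ⟨⟨a', b'⟩, ⟨c', d'⟩⟩ := t
    simp only [Prod.mk.injEq] at *
    omega
  · rw [card_product, show 4 * m.natAbs.divisors.card ^ 2 =
      (2 * m.natAbs.divisors.card) * (2 * m.natAbs.divisors.card) by ring]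
    exact Nat.mul_le_mul (card_signedDivisors_le _) (card_signedDivisors_le _)

theorem norm_cubeTrig_pow_four_le {P : ℕ} (t : ℝ) :
    ‖cubeTrig (fun _ => 1) P t‖ ^ 4 ≤ 2 * P * ∑ h ∈ Ioo (-(P : ℤ)) P,
      ‖intTrig ((pairs P).filter fun z => (z.2 : ℤ) - z.1 = h) (fun _ => 1) pairDiff t‖ ^ 2 := by
  obtain ⟨T, hT⟩ : ∃ T : ℤ → ℂ, T = fun h : ℤ =>
      intTrig ((pairs P).filter fun z => (z.2 : ℤ) - z.1 = h) (fun _ => 1) pairDiff t := ⟨_, rfl⟩
  have hsq : ((‖cubeTrig (fun _ => 1) P t‖ ^ 2 : ℝ) : ℂ) = ∑ h ∈ Ioo (-(P : ℤ)) P, T h := by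
    rw [Complex.ofReal_pow, ← Complex.conj_mul', cubeTrig, intTrig_conj, intTrig_mul, hT]
    simp only [intTrig, map_one, one_mul]
    rw [sum_fiberwise_of_maps_to (t := Ioo (-(P : ℤ)) P) fun z hz => by
      rw [mem_pairs] at hz
      rw [mem_Ioo]
      omega]
    refine sum_congr rfl fun z _ => congrArg eAdd ?_
    simp only [pairDiff]
    push_cast
    ring
  have h1 : ‖cubeTrig (fun _ => 1) P t‖ ^ 2 ≤ ∑ h ∈ Ioo (-(P : ℤ)) P, ‖T h‖ := by
    rw [← Real.norm_of_nonneg (sq_nonneg ‖cubeTrig (fun _ => 1) P t‖), ← Complex.norm_real, hsq]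
    exact norm_sum_le _ _
  rw [show (4 : ℕ) = 2 * 2 from rfl, pow_mul]
  refine (pow_le_pow_left₀ (sq_nonneg _) h1 2).trans (sq_sum_le_card_mul_sum_sq.trans ?_)
  rw [hT]
  refine mul_le_mul_of_nonneg_right ?_ (sum_nonneg fun _ _ => sq_nonneg _)
  rw [Int.card_Ioo]
  exact_mod_cast (show ((P : ℤ) - -(P : ℤ) - 1).toNat ≤ 2 * P by omega)

/-- **The differenced inequality.** -/
theorem eighthMoment_le_shift (P : ℕ) :
    (eighthMoment P : ℝ) ≤ 2 * P * ∑ s ∈ shift P, (rep P (shiftVal s) : ℝ) := by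
  classical
  obtain ⟨M, hM⟩ : ∃ M, M = 7 * P ^ 3 + 1 := ⟨_, rfl⟩
  have hMr : (0 : ℝ) < M := by rw [hM]; positivity
  refine le_of_mul_le_mul_left ?_ hMr
  rw [← sum_cubeTrig_pow_eight (by omega)]
  obtain ⟨A, hA⟩ : ∃ A : ℤ → Finset ((ℕ × ℕ) × (ℕ × ℕ)),
      A = fun h : ℤ => pairs P ×ˢ (pairs P).filter fun z => (z.2 : ℤ) - z.1 = h := ⟨_, rfl⟩
  obtain ⟨φ, hφ⟩ : ∃ φ : (ℕ × ℕ) × (ℕ × ℕ) → ℤ, φ = fun w => pairSum w.1 + pairDiff w.2 :=
    ⟨_, rfl⟩
  have hgrid : ∀ h : ℤ, ∀ i ∈ A h, ∀ j ∈ A h, |φ i - φ j| < (M : ℤ) := by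
    intro h i hi j hj
    simp only [hA, mem_product, mem_filter] at hi hj
    have h1 := pairSum_bounds hi.1
    have h2 := pairDiff_bounds hi.2.1
    have h3 := pairSum_bounds hj.1
    have h4 := pairDiff_bounds hj.2.1
    have hM' : (M : ℤ) = 7 * (P : ℤ) ^ 3 + 1 := by rw [hM]; push_cast; ring
    rw [hφ, abs_lt]
    simp only
    omega
  have hpt : ∀ t : ℝ, ‖cubeTrig (fun _ => 1) P t‖ ^ 8 ≤ 2 * P * ∑ h ∈ Ioo (-(P : ℤ)) P,
      ‖intTrig (A h) (fun _ => 1) φ t‖ ^ 2 := by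
    intro t
    rw [show (8 : ℕ) = 4 + 4 from rfl, pow_add]
    refine (mul_le_mul_of_nonneg_left (norm_cubeTrig_pow_four_le t) (by positivity)).trans
      (le_of_eq ?_)
    rw [mul_left_comm, mul_sum]
    refine congrArg _ (sum_congr rfl fun h _ => ?_)
    rw [show ‖cubeTrig (fun _ => 1) P t‖ ^ 4 = ‖cubeTrig (fun _ => 1) P t ^ 2‖ ^ 2 by
      rw [norm_pow, ← pow_mul], ← mul_pow, ← norm_mul, sq (cubeTrig (fun _ => 1) P t), cubeTrig,
      intTrig_mul, intTrig_mul, hA, hφ]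
    simp only [intTrig, mul_one, pairSum]
    rfl
  refine (sum_le_sum fun h _ => hpt _).trans (le_of_eq ?_)
  rw [← mul_sum, sum_comm, sum_congr rfl fun h _ => sum_grid_one _ φ (hgrid h), ← mul_sum,
    mul_left_comm, ← Nat.cast_sum, ← Nat.cast_sum]
  congr 3
  rw [← sum_fiberwise_of_maps_to (s := shift P)
    (g := fun s => (s.1.2 : ℤ) - s.1.1) (t := Ioo (-(P : ℤ)) P) fun s hs => by
      simp only [shift, quads, mem_filter, mem_product, mem_pairs] at hs
      rw [mem_Ioo]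
      omega]
  refine sum_congr rfl fun h _ => ?_
  have e : (shift P).filter (fun s => (s.1.2 : ℤ) - s.1.1 = h) =
      (pairs P).filter (fun z => (z.2 : ℤ) - z.1 = h) ×ˢ
        (pairs P).filter (fun z => (z.2 : ℤ) - z.1 = h) := by
    ext s
    simp only [shift, quads, mem_filter, mem_product]
    constructor
    · rintro ⟨⟨⟨h1, h2⟩, h3⟩, h4⟩
      exact ⟨⟨h1, h4⟩, h2, h3 ▸ h4⟩
    · rintro ⟨⟨h1, h4⟩, h2, h5⟩
      exact ⟨⟨⟨h1, h2⟩, h4.trans h5.symm⟩, h4⟩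
  rw [e]
  simp only [hA, coincidences, rep, quads, card_filter, sum_product, hφ]
  rw [sum_comm]
  refine sum_congr rfl fun z _ => ?_
  rw [sum_congr rfl fun u _ => sum_comm, sum_comm]
  refine sum_congr rfl fun w _ => sum_congr rfl fun u _ => sum_congr rfl fun v _ =>
    if_congr ?_ rfl rfl
  simp only [quadVal, shiftVal]
  omega

/-- **Hua's eighth moment**, with a power of the logarithm. -/
theorem exists_eighthMoment_le : ∃ C : ℝ, 0 < C ∧ ∀ P : ℕ,
    (eighthMoment P : ℝ) ≤ C * ((P : ℝ) ^ 5 * logOne P ^ 264) := by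
  refine ⟨8 * 257 + 256 * 5 ^ 15, by norm_num, fun P => ?_⟩
  rcases Nat.eq_zero_or_pos P with rfl | hP
  · simp [eighthMoment, rep, quads, pairs]
  obtain ⟨L, hL⟩ : ∃ L, L = logOne P := ⟨_, rfl⟩
  rw [← hL]
  have hL1 : 1 ≤ L := hL ▸ one_le_logOne P
  obtain ⟨S, hS⟩ : ∃ S, S = (valRange P).filter (fun m => m ≠ 0) := ⟨_, rfl⟩
  have h2 : ∑ m ∈ S, tauPow 4 m.natAbs ≤ 4 * (P : ℝ) ^ 3 * (5 * L) ^ 15 := by
    refine (sum_natAbs_le (N := 2 * P ^ 3) S (fun m hm => ?_) (tauPow 4) (tauPow_nonneg 4)).trans ?_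
    · simp only [hS, valRange, mem_filter, mem_Icc] at hm
      refine ⟨hm.2, ?_⟩
      have hc : ((2 * P ^ 3 : ℕ) : ℤ) = 2 * (P : ℤ) ^ 3 := by push_cast; ring
      omega
    · refine (mul_le_mul_of_nonneg_left (sum_tauPow_le 4 _) zero_le_two).trans ?_
      push_cast
      rw [← mul_assoc, ← mul_assoc, show (2 : ℝ) * 2 = 4 by norm_num]
      refine mul_le_mul_of_nonneg_left (pow_le_pow_left₀
        (zero_le_one.trans (one_le_logOne _)) ?_ _) (by positivity)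
      rw [hL, logOne, logOne, show (((2 * P ^ 3 : ℕ)) : ℝ) = 2 * (P : ℝ) ^ 3 by push_cast; ring,
        Real.log_mul two_ne_zero (by positivity), Real.log_pow]
      push_cast
      linarith [Real.log_two_lt_d9, Real.log_natCast_nonneg P]
  have hstep : (eighthMoment P : ℝ) ≤ 4 * (P : ℝ) ^ 3 * rep P 0 +
      8 * P * (√(∑ m ∈ S, tauPow 4 m.natAbs) * √(eighthMoment P : ℝ)) := by
    refine (eighthMoment_le_shift P).trans ?_
    rw [← sum_filter_add_sum_filter_not (shift P) (fun s => shiftVal s = 0), mul_add]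
    refine add_le_add ?_ ?_
    · rw [sum_congr rfl fun s hs => by rw [(mem_filter.1 hs).2], sum_const, nsmul_eq_mul]
      refine (mul_le_mul_of_nonneg_left (mul_le_mul_of_nonneg_right
        (Nat.cast_le.2 (card_shift_zero_le P)) (Nat.cast_nonneg _)) (by positivity)).trans
        (le_of_eq ?_)
      push_cast
      ring
    · have h : ∑ s ∈ (shift P).filter (fun s => ¬shiftVal s = 0), (rep P (shiftVal s) : ℝ) ≤
          ∑ m ∈ S, 4 * (tauPow 2 m.natAbs * rep P m) := by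
        rw [← sum_fiberwise_of_maps_to (g := shiftVal) (t := S) fun s hs => by
          rw [mem_filter] at hs
          rw [hS, mem_filter]
          exact ⟨shiftVal_mem hs.1, hs.2⟩]
        refine sum_le_sum fun m hm => ?_
        rw [sum_congr rfl fun s hs => by rw [(mem_filter.1 hs).2], sum_const, nsmul_eq_mul,
          ← mul_assoc]
        refine mul_le_mul_of_nonneg_right ?_ (Nat.cast_nonneg _)
        refine le_trans (Nat.cast_le.2 ((card_le_card (filter_subset_filter _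
          (filter_subset _ _))).trans (card_shift_fiber_le P (by
            rw [hS, mem_filter] at hm; exact hm.2)))) (le_of_eq ?_)
        rw [tauPow]
        push_cast
        rfl
      refine (mul_le_mul_of_nonneg_left h (by positivity)).trans ?_
      rw [← mul_sum, ← mul_assoc, show (2 : ℝ) * P * 4 = 8 * P by ring]
      refine mul_le_mul_of_nonneg_left ((Real.sum_mul_le_sqrt_mul_sqrt _ _ _).trans
        (mul_le_mul ?_ ?_ (Real.sqrt_nonneg _) (Real.sqrt_nonneg _))) (by positivity)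
      · refine Real.sqrt_le_sqrt (le_of_eq (sum_congr rfl fun m _ => ?_))
        rw [tauPow, tauPow, ← pow_mul]
      · refine Real.sqrt_le_sqrt ?_
        rw [eighthMoment]
        push_cast
        exact sum_le_sum_of_subset_of_nonneg (hS ▸ filter_subset _ _) fun m _ _ => by positivity
  obtain ⟨a, ha⟩ : ∃ a, a = 4 * (P : ℝ) ^ 3 * rep P 0 := ⟨_, rfl⟩
  obtain ⟨b, hb⟩ : ∃ b, b = 8 * P * √(∑ m ∈ S, tauPow 4 m.natAbs) := ⟨_, rfl⟩
  have hX : (eighthMoment P : ℝ) ≤ 2 * a + b ^ 2 := by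
    have h1 : (eighthMoment P : ℝ) ≤ a + b * √(eighthMoment P : ℝ) := by
      rw [ha, hb]
      linarith [hstep]
    nlinarith [sq_nonneg (b - √(eighthMoment P : ℝ)),
      Real.sq_sqrt (Nat.cast_nonneg (eighthMoment P) : (0 : ℝ) ≤ eighthMoment P)]
  refine hX.trans ?_
  rw [hb, mul_pow, Real.sq_sqrt (sum_nonneg fun m _ => tauPow_nonneg _ _), ha]
  have h3 := mul_le_mul_of_nonneg_left (rep_zero_le P) (show 0 ≤ 8 * (P : ℝ) ^ 3 by positivity)
  rw [← hL] at h3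
  have h4 := mul_le_mul_of_nonneg_left h2 (show 0 ≤ (8 * (P : ℝ)) ^ 2 by positivity)
  have h5 : L ^ 15 ≤ L ^ 264 := pow_le_pow_right₀ hL1 (by norm_num)
  have h6 := mul_le_mul_of_nonneg_left h5 (show 0 ≤ 256 * (5 : ℝ) ^ 15 * (P : ℝ) ^ 5 by positivity)
  rw [mul_pow 5 L] at h4
  linarith

end FA.HuaCubes
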