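import Fermat.Agent.HuaCubes.Moment
import Fermat.Agent.WaringAsymptotic.Weyl

/-!
# The bilinear sums with cubes

`|∑_{k ≤ j} e (α D k³)| ⁴ ≤ 2 M ∑ clip (M, 6 α h₁ h₂ D)` for `j ≤ M`; on average over `D` this is
small by Vinogradov's lemma and the mean values of the divisor function, and with Cauchy's
inequality and the eighth moment it bounds the bilinear sums `∑ f m g k e (α m³ k³)`.
-/

set_option autoImplicit false

noncomputable section

namespace FA.HuaCubes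

open Finset FA.ThreePrimes
open scoped ComplexConjugate

/-- `12 (1 + log P)`. -/
def scale (P : ℕ) : ℝ := 12 * logOne P

theorem one_le_scale (P : ℕ) : 1 ≤ scale P := by
  unfold scale
  linarith [one_le_logOne P]

theorem logOne_le_scale {P n : ℕ} (h : n ≤ 2 ^ 7 * P ^ 5) : logOne n ≤ scale P := by
  rcases Nat.eq_zero_or_pos n with rfl | hn
  · simpa [logOne] using one_le_scale P
  have hP : (P : ℝ) ≠ 0 := by
    refine Nat.cast_ne_zero.2 ?_
    rintro rfl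
    simp at h
    omega
  have h1 : Real.log n ≤ Real.log (2 ^ 7 * (P : ℝ) ^ 5) :=
    Real.log_le_log (Nat.cast_pos.2 hn) (by exact_mod_cast h)
  rw [Real.log_mul (by norm_num) (by positivity), Real.log_pow, Real.log_pow] at h1
  unfold scale logOne
  push_cast at h1
  linarith [Real.log_two_lt_d9, Real.log_natCast_nonneg P]

/-- `∑_{k ≤ K} e (γ k³)`. -/
def cubeSum (γ : ℝ) (K : ℕ) : ℂ := ∑ k ∈ Ioc 0 K, eAdd (γ * (k : ℝ) ^ 3)

/-- The differencing steps. -/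
def stepPairs (M : ℕ) : Finset (ℤ × ℤ) := Ioo (-(M : ℤ)) M ×ˢ Ioo (-(M : ℤ)) M

/-- The majorant of `|∑_{k ≤ j} e (α D k³)| ⁴`, `j ≤ M`. -/
def cubeBound (α : ℝ) (M : ℕ) (D : ℤ) : ℝ :=
  2 * M * ∑ h ∈ stepPairs M, clip M (α * ((6 * h.1 * h.2 * D : ℤ) : ℝ))

theorem cubeBound_nonneg (α : ℝ) (M : ℕ) (D : ℤ) : 0 ≤ cubeBound α M D :=
  mul_nonneg (by positivity) (sum_nonneg fun _ _ => clip_nonneg (Nat.cast_nonneg M) _)

/-- **Weyl's inequality.** -/
theorem norm_cubeSum_pow_four_le {j M : ℕ} (hj : j ≤ M) (α : ℝ) (D : ℤ) :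
    ‖cubeSum (α * D) j‖ ^ 4 ≤ cubeBound α M D := by
  classical
  rcases Nat.eq_zero_or_pos M with rfl | hM
  · obtain rfl : j = 0 := by omega
    simp [cubeSum, cubeBound]
  have h := WaringAsymptotic.weyl_differencing 2 (WaringAsymptotic.hasLead_pow (α * D) 3) (P := M)
    hM 0 j (by omega)
  have e : cubeSum (α * D) j = ∑ x ∈ Ioc (0 : ℤ) j, eAdd (α * D * (x : ℝ) ^ 3) := by
    rw [← WaringAsymptotic.waringSum_eq_int]
    rfl
  rw [← e] at h
  norm_num [WaringAsymptotic.steps] at h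
  rw [WaringAsymptotic.sum_piFinset_succ] at h
  simp only [WaringAsymptotic.sum_piFinset_succ] at h
  simp only [Fintype.piFinset_of_isEmpty, univ_unique, sum_singleton, Fin.cons_zero,
    Fin.cons_one] at h
  refine h.trans (le_of_eq ?_)
  rw [cubeBound, stepPairs, sum_product]
  refine congrArg _ (sum_congr rfl fun x _ => sum_congr rfl fun y _ => congrArg _ ?_)
  push_cast
  ring

variable {q : ℕ} [NeZero q] {a : ℤ} {α : ℝ}

/-- **The triples `6 h₁ h₂ D`.** -/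
theorem sum_clip_triples_le {M N : ℕ} (S : Finset ((ℤ × ℤ) × ℤ))
    (hS : ∀ t ∈ S, 6 * t.1.1 * t.1.2 * t.2 ≠ 0 ∧ (6 * t.1.1 * t.1.2 * t.2).natAbs ≤ N) :
    ∑ t ∈ S, clip M (α * ((6 * t.1.1 * t.1.2 * t.2 : ℤ) : ℝ)) ≤
      8 * (√(∑ n ∈ Ioc 0 N, tauPow 6 n) * √((M : ℝ) * ∑ n ∈ Ioc 0 N, clip M (α * n))) := by
  classical
  have hc : ∀ x, 0 ≤ clip (M : ℝ) x := fun x => clip_nonneg (Nat.cast_nonneg M) x
  rw [← sum_fiberwise_of_maps_to (g := fun t => (6 * t.1.1 * t.1.2 * t.2).natAbs) (t := Ioc 0 N)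
    fun t ht => by
      have := hS t ht
      rw [mem_Ioc]
      omega]
  refine (sum_le_sum (g := fun n => 8 * (tauPow 3 n * clip M (α * n))) fun n hn => ?_).trans ?_
  · rw [mem_Ioc] at hn
    refine (sum_le_card_nsmul _ _ (clip M (α * n)) fun t ht => le_of_eq ?_).trans ?_
    · rw [mem_filter] at ht
      rcases Int.natAbs_eq (6 * t.1.1 * t.1.2 * t.2) with e | e
      · rw [e, ht.2, Int.cast_natCast]
      · rw [e, ht.2, Int.cast_neg, Int.cast_natCast, mul_neg, ThreePrimes.clip_neg]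
    · rw [nsmul_eq_mul, ← mul_assoc]
      refine mul_le_mul_of_nonneg_right ?_ (hc _)
      refine le_trans (Nat.cast_le.2 (card_le_card (t := (signedDivisors n ×ˢ signedDivisors n) ×ˢ
        signedDivisors n) fun t ht => ?_)) ?_
      · rw [mem_filter] at ht
        simp only [mem_product]
        refine ⟨⟨mem_signedDivisors hn.1.ne' ?_, mem_signedDivisors hn.1.ne' ?_⟩,
          mem_signedDivisors hn.1.ne' ?_⟩
        all_goals rw [← ht.2]; apply Int.natAbs_dvd_natAbs.2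
        · exact ((dvd_mul_left _ _).mul_right _).mul_right _
        · exact (dvd_mul_left _ _).mul_right _
        · exact dvd_mul_left _ _
      · rw [card_product, card_product, tauPow,
          show 8 * ((n.divisors.card : ℝ)) ^ 3 = ((2 * n.divisors.card * (2 * n.divisors.card) *
            (2 * n.divisors.card) : ℕ) : ℝ) by push_cast; ring]
        exact Nat.cast_le.2 (Nat.mul_le_mul (Nat.mul_le_mul (card_signedDivisors_le n)
          (card_signedDivisors_le n)) (card_signedDivisors_le n))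
  · rw [← mul_sum]
    refine mul_le_mul_of_nonneg_left ((Real.sum_mul_le_sqrt_mul_sqrt _ _ _).trans
      (mul_le_mul (Real.sqrt_le_sqrt (le_of_eq (sum_congr rfl fun n _ => ?_)))
        (Real.sqrt_le_sqrt ?_) (Real.sqrt_nonneg _) (Real.sqrt_nonneg _))) (by norm_num)
    · rw [tauPow, tauPow, ← pow_mul]
    · rw [mul_sum]
      refine sum_le_sum fun n _ => ?_
      rw [sq]
      exact mul_le_mul_of_nonneg_right (clip_le _ _) (hc _)

/-- **The Weyl bounds on average.** -/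
theorem sum_cubeBound_le (ha : IsUnit (a : ZMod q)) (hα : |α - a / q| ≤ 1 / (q : ℝ) ^ 2)
    {M X : ℕ} (hM : 1 ≤ M) (hX : 1 ≤ X) (S : Finset ℤ) (hS : ∀ D ∈ S, D.natAbs ≤ X) {l : ℝ}
    (hl : 1 + Real.log q ≤ l) (hlN : logOne (6 * M ^ 2 * X) ≤ l) :
    ∑ D ∈ S, cubeBound α M D ≤ 2 * M * (4 * (M : ℝ) ^ 2 * S.card +
      4 * (M : ℝ) ^ 3 * (S.filter fun D => D = 0).card +
      48 * l ^ 32 * √((6 * M ^ 2 * X : ℕ) * M * ((6 * M ^ 2 * X : ℕ) * M / q +
        (6 * M ^ 2 * X : ℕ) + M + q))) := by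
  classical
  obtain ⟨N, hN⟩ : ∃ N, N = 6 * M ^ 2 * X := ⟨_, rfl⟩
  rw [← hN] at hlN ⊢
  have hl1 : 1 ≤ l := (one_le_logOne N).trans hlN
  have hN1 : 1 ≤ N := hN ▸ Nat.mul_pos (Nat.mul_pos (by norm_num) (pow_pos hM 2)) hX
  have hc : ∀ x, 0 ≤ clip (M : ℝ) x := fun x => clip_nonneg (Nat.cast_nonneg M) x
  simp only [cubeBound, ← mul_sum]
  refine mul_le_mul_of_nonneg_left ?_ (by positivity)
  rw [sum_comm, ← sum_product' (f := fun (h : ℤ × ℤ) D =>
      clip M (α * ((6 * h.1 * h.2 * D : ℤ) : ℝ))),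
    ← sum_filter_add_sum_filter_not _ (fun t : (ℤ × ℤ) × ℤ => 6 * t.1.1 * t.1.2 * t.2 = 0)]
  obtain ⟨I, hI⟩ : ∃ I, I = Ioo (-(M : ℤ)) M := ⟨_, rfl⟩
  have hIc : (I.card : ℝ) ≤ 2 * M := by
    rw [hI, Int.card_Ioo]
    exact_mod_cast (show ((M : ℤ) - -(M : ℤ) - 1).toNat ≤ 2 * M by omega)
  rw [stepPairs, ← hI]
  refine add_le_add ?_ ?_
  · refine (sum_le_card_nsmul _ _ (M : ℝ) fun t _ => clip_le _ _).trans ?_
    rw [nsmul_eq_mul]
    refine (mul_le_mul_of_nonneg_right (Nat.cast_le.2 (card_le_card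
      (t := (({0} : Finset ℤ) ×ˢ I) ×ˢ S ∪ (I ×ˢ ({0} : Finset ℤ)) ×ˢ S ∪
        (I ×ˢ I) ×ˢ (S.filter fun D => D = 0)) fun t ht => ?_)) (Nat.cast_nonneg M)).trans ?_
    · simp only [mem_filter, mem_product, mul_eq_zero] at ht
      simp only [mem_union, mem_product, mem_singleton, mem_filter]
      rcases ht.2 with ((h | h) | h) | h
      · norm_num at h
      · exact Or.inl (Or.inl ⟨⟨h, ht.1.1.2⟩, ht.1.2⟩)
      · exact Or.inl (Or.inr ⟨⟨ht.1.1.1, h⟩, ht.1.2⟩)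
      · exact Or.inr ⟨ht.1.1, ht.1.2, h⟩
    · refine (mul_le_mul_of_nonneg_right (Nat.cast_le.2 ((card_union_le _ _).trans
        (add_le_add (card_union_le _ _) le_rfl))) (Nat.cast_nonneg M)).trans ?_
      simp only [card_product, card_singleton]
      push_cast
      have h1 : (I.card : ℝ) * S.card ≤ 2 * M * S.card :=
        mul_le_mul_of_nonneg_right hIc (Nat.cast_nonneg _)
      have h2 : (I.card : ℝ) * I.card * (S.filter fun D => D = 0).card ≤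
          2 * M * (2 * M) * (S.filter fun D => D = 0).card :=
        mul_le_mul_of_nonneg_right (mul_le_mul hIc hIc (Nat.cast_nonneg _) (by positivity))
          (Nat.cast_nonneg _)
      have h3 := mul_le_mul_of_nonneg_right h1 (Nat.cast_nonneg (α := ℝ) M)
      have h4 := mul_le_mul_of_nonneg_right h2 (Nat.cast_nonneg (α := ℝ) M)
      linarith
  · refine (sum_clip_triples_le (N := N) _ fun t ht => ?_).trans ?_
    · simp only [mem_filter, mem_product, hI, mem_Ioo] at ht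
      refine ⟨ht.2, ?_⟩
      rw [Int.natAbs_mul, Int.natAbs_mul, Int.natAbs_mul, hN,
        show 6 * M ^ 2 * X = 6 * M * M * X by ring]
      exact Nat.mul_le_mul (Nat.mul_le_mul (Nat.mul_le_mul le_rfl (by omega)) (by omega))
        (hS _ ht.1.2)
    · rw [show 48 * l ^ 32 = 8 * (6 * l ^ 32) by ring, mul_assoc (8 : ℝ)]
      refine mul_le_mul_of_nonneg_left ?_ (by norm_num)
      rw [← Real.sqrt_mul (sum_nonneg fun n _ => tauPow_nonneg _ _),
        ← Real.sqrt_sq (show 0 ≤ 6 * l ^ 32 by positivity), ← Real.sqrt_mul (by positivity)]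
      refine Real.sqrt_le_sqrt ?_
      have h1 : ∑ n ∈ Ioc 0 N, tauPow 6 n ≤ N * l ^ 63 :=
        (sum_tauPow_le 6 N).trans (mul_le_mul_of_nonneg_left (pow_le_pow_left₀
          (zero_le_one.trans (one_le_logOne N)) hlN _) (Nat.cast_nonneg N))
      have hsub : Ioc 0 N ⊆ range (N + 1) := fun n hn => by
        rw [mem_Ioc] at hn
        rw [mem_range]
        omega
      have hN1' : (1 : ℝ) ≤ N := by exact_mod_cast hN1
      have h2 : ∑ n ∈ Ioc 0 N, clip M (α * n) ≤ 30 * l * ((N : ℝ) * M / q + N + M + q) := by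
        refine (sum_le_sum_of_subset_of_nonneg hsub fun n _ _ => hc _).trans ?_
        have h := sum_clip_range_le ha hα 0 (Nat.cast_nonneg M : (0 : ℝ) ≤ M) (N + 1)
        simp only [zero_add] at h
        refine h.trans ?_
        have hq : (0 : ℝ) < q := Nat.cast_pos.2 (NeZero.pos q)
        have hq1 : ((N + 1 : ℕ) : ℝ) / q + 1 ≤ 2 * (N / q) + 1 := by
          push_cast
          rw [mul_div_assoc']
          gcongr
          linarith
        calc ((((N + 1 : ℕ) : ℝ) / q + 1) * (5 * M + 2 * q * (1 + Real.log q)))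
            ≤ (2 * (N / q) + 1) * (5 * M + 2 * q * l) := by
              gcongr
          _ = 10 * ((N : ℝ) * M / q) + 4 * l * N + 5 * M + 2 * l * q := by field_simp; ring
          _ ≤ _ := by
              have e1 : 0 ≤ (N : ℝ) * M / q * (l - 1) := mul_nonneg (by positivity) (by linarith)
              have e2 : 0 ≤ (M : ℝ) * (l - 1) := mul_nonneg (by positivity) (by linarith)
              have e3 : 0 ≤ (N : ℝ) * l := by positivity
              have e4 : 0 ≤ (q : ℝ) * l := by positivity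
              have e5 : 0 ≤ (N : ℝ) * M / q * l := by positivity
              have e6 : 0 ≤ (M : ℝ) * l := by positivity
              linarith
      refine (mul_le_mul h1 (mul_le_mul_of_nonneg_left h2 (Nat.cast_nonneg M))
        (mul_nonneg (Nat.cast_nonneg M) (sum_nonneg fun n _ => hc _)) (by positivity)).trans ?_
      calc (N : ℝ) * l ^ 63 * (M * (30 * l * ((N : ℝ) * M / q + N + M + q)))
          = 30 * l ^ 64 * ((N : ℝ) * M * ((N : ℝ) * M / q + N + M + q)) := by ring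
        _ ≤ 36 * l ^ 64 * ((N : ℝ) * M * ((N : ℝ) * M / q + N + M + q)) := by gcongr; norm_num
        _ = _ := by ring

/-- `1/q + 1/U + q/P³`. -/
def cubeSaving (U q P : ℕ) : ℝ := 1 / (q : ℝ) + 1 / (U : ℝ) + (q : ℝ) / (P : ℝ) ^ 3

theorem cubeSaving_nonneg (U q P : ℕ) : 0 ≤ cubeSaving U q P := by
  unfold cubeSaving
  positivity

/-- `∑_{k ≤ P/m} g k e (α m³ k³)`. -/
def cubeInner (α : ℝ) (g : ℕ → ℝ) (P m : ℕ) : ℂ :=
  ∑ k ∈ Ioc 0 (P / m), (g k : ℂ) * eAdd (α * ((m : ℝ) * k) ^ 3)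

/-- The coefficient at `m` of the inner sum for `k`. -/
def blockCoef (f : ℕ → ℝ) (P L k m : ℕ) : ℂ := if L < m ∧ k ≤ P / m then (f m : ℂ) else 0

/-- The fourth root of the majorant. -/
def rootBound (α : ℝ) (M : ℕ) (D : ℤ) : ℝ := √√(cubeBound α M D)

theorem sum_fourth_le (α : ℝ) (f : ℕ → ℝ) {P L M : ℕ} {F : ℝ} (hL : 0 < L) (hM : M = P / L)
    (hF : ∀ m ∈ Ioc L (2 * L), |f m| ≤ F) :
    ∑ k ∈ Ioc 0 M, ‖cubeTrig (blockCoef f P L k) (2 * L) (α * (k : ℝ) ^ 3)‖ ^ 4 ≤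
      F ^ 4 * ∑ w ∈ quads (2 * L), rootBound α M (quadVal w) := by
  classical
  have hF0 : 0 ≤ F := (abs_nonneg _).trans (hF (L + 1) (mem_Ioc.2 ⟨by omega, by omega⟩))
  obtain ⟨g, hg⟩ : ∃ g : ℕ → ℂ, g = fun m => if L < m then (f m : ℂ) else 0 := ⟨_, rfl⟩
  obtain ⟨J, hJ⟩ : ∃ J : (ℕ × ℕ) × (ℕ × ℕ) → ℕ,
      J = fun w => min (min (P / w.1.1) (P / w.1.2)) (min (P / w.2.1) (P / w.2.2)) := ⟨_, rfl⟩
  obtain ⟨G, hG⟩ : ∃ G : (ℕ × ℕ) × (ℕ × ℕ) → ℂ,
      G = fun w => g w.1.1 * g w.1.2 * (conj (g w.2.1) * conj (g w.2.2)) := ⟨_, rfl⟩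
  have hcoef : ∀ k (w : (ℕ × ℕ) × (ℕ × ℕ)),
      blockCoef f P L k w.1.1 * blockCoef f P L k w.1.2 *
        (conj (blockCoef f P L k w.2.1) * conj (blockCoef f P L k w.2.2)) =
      if k ≤ J w then G w else 0 := fun k w => by
    simp only [blockCoef, hG, hg, hJ, le_min_iff, ite_and]
    split_ifs <;> simp_all
  have e : ∀ k : ℕ, ((‖cubeTrig (blockCoef f P L k) (2 * L) (α * (k : ℝ) ^ 3)‖ ^ 4 : ℝ) : ℂ) =
      ∑ w ∈ quads (2 * L), if k ≤ J w then
        G w * eAdd ((quadVal w : ℝ) * (α * (k : ℝ) ^ 3)) else 0 := by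
    intro k
    rw [cubeTrig_pow_four, intTrig]
    refine sum_congr rfl fun w _ => ?_
    rw [hcoef k w, ite_mul, zero_mul]
  calc ∑ k ∈ Ioc 0 M, ‖cubeTrig (blockCoef f P L k) (2 * L) (α * (k : ℝ) ^ 3)‖ ^ 4
      = ‖∑ k ∈ Ioc 0 M,
          ((‖cubeTrig (blockCoef f P L k) (2 * L) (α * (k : ℝ) ^ 3)‖ ^ 4 : ℝ) : ℂ)‖ := by
        rw [← Complex.ofReal_sum, Complex.norm_real,
          Real.norm_of_nonneg (sum_nonneg fun _ _ => by positivity)]
    _ ≤ _ := by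
        rw [sum_congr rfl fun k _ => e k, sum_comm, mul_sum]
        refine (norm_sum_le _ _).trans (sum_le_sum fun w hw => ?_)
        rw [← sum_filter, ← mul_sum, norm_mul]
        simp only [quads, pairs, mem_product, mem_Ioc] at hw
        by_cases h0 : G w = 0
        · rw [h0, norm_zero, zero_mul]
          exact mul_nonneg (by positivity) (Real.sqrt_nonneg _)
        have hgm : ∀ m, m ≤ 2 * L → ‖g m‖ ≤ F := fun m hm => by
          rw [hg]
          simp only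
          split_ifs with h
          · rw [Complex.norm_real]
            exact hF m (mem_Ioc.2 ⟨h, hm⟩)
          · simpa using hF0
        refine mul_le_mul ?_ ?_ (norm_nonneg _) (by positivity)
        · simp only [hG, norm_mul, Complex.norm_conj]
          rw [show F ^ 4 = F * F * (F * F) by ring]
          gcongr
          exacts [hgm _ hw.1.1.2, hgm _ hw.1.2.2, hgm _ hw.2.1.2, hgm _ hw.2.2.2]
        · have hJM : J w ≤ M := by
            have hw1 : L < w.1.1 := by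
              by_contra h
              exact h0 (by simp [hG, hg, h])
            rw [hJ, hM]
            exact ((min_le_left _ _).trans (min_le_left _ _)).trans
              (Nat.div_le_div_left hw1.le hL)
          have e2 : ∑ k ∈ (Ioc 0 M).filter (fun k => k ≤ J w),
              eAdd ((quadVal w : ℝ) * (α * (k : ℝ) ^ 3)) = cubeSum (α * (quadVal w : ℤ)) (J w) := by
            rw [cubeSum]
            refine sum_congr (ext fun k => ?_) fun k _ => by ring_nf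
            simp only [mem_filter, mem_Ioc]
            omega
          rw [e2, rootBound]
          refine Real.le_sqrt_of_sq_le (Real.le_sqrt_of_sq_le ?_)
          rw [← pow_mul]
          exact norm_cubeSum_pow_four_le hJM α _

theorem sum_rootBound_le (ha : IsUnit (a : ZMod q)) (hα : |α - a / q| ≤ 1 / (q : ℝ) ^ 2)
    {P L M U : ℕ} (hU : 1 ≤ U) (hUL : U ≤ L) (hUM : U ≤ M) (hM : M = P / L)
    (hqP : q ≤ 8 * P ^ 3) :
    ∑ w ∈ quads (2 * L), rootBound α M (quadVal w) ≤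
      √(eighthMoment (2 * L) : ℝ) *
        √(820 * scale P ^ 16 * (M : ℝ) ^ 2 * (L : ℝ) ^ 3 * √√(cubeSaving U q P)) := by
  classical
  obtain ⟨S, hS⟩ : ∃ S, S = valRange (2 * L) := ⟨_, rfl⟩
  obtain ⟨ε, hε⟩ : ∃ ε, ε = cubeSaving U q P := ⟨_, rfl⟩
  obtain ⟨l, hl⟩ : ∃ l, l = scale P := ⟨_, rfl⟩
  rw [← hε, ← hl]
  have hl1 : 1 ≤ l := hl ▸ one_le_scale P
  have hε0 : 0 ≤ ε := hε ▸ cubeSaving_nonneg U q P
  rw [← sum_fiberwise_of_maps_to (g := quadVal) (t := S) fun w hw => hS ▸ quadVal_mem hw]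
  refine le_trans (le_of_eq (sum_congr rfl (g := fun m => (rep (2 * L) m : ℝ) * rootBound α M m)
    fun m _ => by rw [sum_congr rfl fun w hw => by rw [(mem_filter.1 hw).2], sum_const,
      nsmul_eq_mul]; rfl)) ((Real.sum_mul_le_sqrt_mul_sqrt _ _ _).trans ?_)
  refine mul_le_mul (Real.sqrt_le_sqrt (le_of_eq ?_)) (Real.sqrt_le_sqrt ?_) (Real.sqrt_nonneg _)
    (Real.sqrt_nonneg _)
  · rw [eighthMoment, hS]
    push_cast
    rfl
  have hL : 1 ≤ L := hU.trans hUL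
  have hM1 : 1 ≤ M := hU.trans hUM
  have hLM : L * M ≤ P := by rw [hM, mul_comm]; exact Nat.div_mul_le_self P L
  have hP1 : 1 ≤ P := le_trans (Nat.mul_pos hL hM1) hLM
  have hP2 : (P : ℝ) ≤ 2 * ((L : ℝ) * M) := by
    have h1 := Nat.lt_div_mul_add (a := P) (show 0 < L by omega)
    rw [← hM] at h1
    have h2 : L ≤ L * M := Nat.le_mul_of_pos_right L hM1
    exact_mod_cast (show P ≤ 2 * (L * M) by rw [mul_comm L M] at *; omega)
  have hq : (0 : ℝ) < q := Nat.cast_pos.2 (NeZero.pos q)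
  have hS' : ∀ D ∈ S, D.natAbs ≤ 16 * L ^ 3 := fun D hD => by
    rw [hS, valRange, mem_Icc] at hD
    push_cast at hD
    have hc : ((16 * L ^ 3 : ℕ) : ℤ) = 2 * (2 * (L : ℤ)) ^ 3 := by push_cast; ring
    omega
  have hlq : 1 + Real.log q ≤ l := hl ▸ logOne_le_scale (hqP.trans (by
    have : P ^ 3 ≤ P ^ 5 := Nat.pow_le_pow_right hP1 (by norm_num)
    omega))
  have hN : 6 * M ^ 2 * (16 * L ^ 3) ≤ 2 ^ 7 * P ^ 5 := by
    have h1 : (L * M) ^ 2 * L ≤ P ^ 2 * P := Nat.mul_le_mul (Nat.pow_le_pow_left hLM 2)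
      ((Nat.le_mul_of_pos_right L hM1).trans hLM)
    have h2 : P ^ 2 * P ≤ P ^ 5 := by
      rw [← pow_succ]
      exact Nat.pow_le_pow_right hP1 (by norm_num)
    calc 6 * M ^ 2 * (16 * L ^ 3) = 96 * ((L * M) ^ 2 * L) := by ring
      _ ≤ _ := Nat.mul_le_mul (by norm_num) (h1.trans h2)
  have h4 := sum_cubeBound_le ha hα hM1 (Nat.mul_pos (by norm_num) (pow_pos hL 3)) S hS' hlq
    (hl ▸ logOne_le_scale hN)
  obtain ⟨Y, hY⟩ : ∃ Y : ℝ, Y = (M : ℝ) ^ 3 * (L : ℝ) ^ 3 := ⟨_, rfl⟩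
  have hMr : (1 : ℝ) ≤ M := by exact_mod_cast hM1
  have hLr : (1 : ℝ) ≤ L := by exact_mod_cast hL
  have hUr : (1 : ℝ) ≤ U := by exact_mod_cast hU
  have hUM' : (1 : ℝ) / M ≤ 1 / U := one_div_le_one_div_of_le (by linarith) (Nat.cast_le.2 hUM)
  have hUL' : (1 : ℝ) / L ≤ 1 / U := one_div_le_one_div_of_le (by linarith) (Nat.cast_le.2 hUL)
  have hεU : (1 : ℝ) / U ≤ ε := by
    rw [hε, cubeSaving]
    have : 0 ≤ 1 / (q : ℝ) + (q : ℝ) / (P : ℝ) ^ 3 := by positivity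
    linarith
  have hsmall : ∀ x : ℝ, 0 ≤ x → x ≤ 1 → x ≤ ε → x ≤ √ε := fun x h0 h1 h2 =>
    Real.le_sqrt_of_sq_le ((pow_le_of_le_one h0 h1 two_ne_zero).trans h2)
  have hbig : √((6 * M ^ 2 * (16 * L ^ 3) : ℕ) * M * ((6 * M ^ 2 * (16 * L ^ 3) : ℕ) * M / q +
      (6 * M ^ 2 * (16 * L ^ 3) : ℕ) + M + q)) ≤ 192 * Y * √ε := by
    rw [show (((6 * M ^ 2 * (16 * L ^ 3) : ℕ)) : ℝ) = 96 * ((M : ℝ) ^ 2 * (L : ℝ) ^ 3) by
      push_cast; ring, ← Real.sqrt_sq (show 0 ≤ 192 * Y by rw [hY]; positivity),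
      ← Real.sqrt_mul (by positivity)]
    refine Real.sqrt_le_sqrt ?_
    have hY0 : 0 ≤ Y := by rw [hY]; positivity
    have h1 : 96 * ((M : ℝ) ^ 2 * (L : ℝ) ^ 3) + M + q ≤
        288 * Y * (1 / U) + 8 * Y * (q / (P : ℝ) ^ 3) := by
      have a1 : (M : ℝ) ^ 2 * (L : ℝ) ^ 3 ≤ Y * (1 / U) := by
        calc (M : ℝ) ^ 2 * (L : ℝ) ^ 3 = Y * (1 / M) := by rw [hY]; field_simp
          _ ≤ _ := mul_le_mul_of_nonneg_left hUM' hY0
      have a2 : (M : ℝ) ≤ (M : ℝ) ^ 2 * (L : ℝ) ^ 3 := by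
        calc (M : ℝ) = M * 1 * 1 := by ring
          _ ≤ (M : ℝ) * M * (L : ℝ) ^ 3 := by gcongr; exact one_le_pow₀ hLr
          _ = _ := by ring
      have a3 : (q : ℝ) ≤ 8 * Y * (q / (P : ℝ) ^ 3) := by
        rw [mul_div_assoc', le_div_iff₀ (by positivity), mul_comm (8 * Y)]
        refine mul_le_mul_of_nonneg_left ?_ hq.le
        calc (P : ℝ) ^ 3 ≤ (2 * ((L : ℝ) * M)) ^ 3 :=
              pow_le_pow_left₀ (Nat.cast_nonneg P) hP2 3
          _ = _ := by rw [hY]; ring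
      have a4 : 0 ≤ Y * (1 / U) := by positivity
      linarith
    calc 96 * ((M : ℝ) ^ 2 * (L : ℝ) ^ 3) * M * (96 * ((M : ℝ) ^ 2 * (L : ℝ) ^ 3) * M / q +
          96 * ((M : ℝ) ^ 2 * (L : ℝ) ^ 3) + M + q)
        = 96 * Y * (96 * Y * (1 / q) + (96 * ((M : ℝ) ^ 2 * (L : ℝ) ^ 3) + M + q)) := by
          rw [hY]; ring
      _ ≤ 96 * Y * (96 * Y * (1 / q) + (288 * Y * (1 / U) + 8 * Y * (q / (P : ℝ) ^ 3))) := by
          gcongr
      _ ≤ 96 * Y * (288 * Y * ε) := by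
          refine mul_le_mul_of_nonneg_left ?_ (by positivity)
          rw [hε, cubeSaving]
          have b1 : 0 ≤ Y * (1 / q) := by positivity
          have b2 : 0 ≤ Y * (q / (P : ℝ) ^ 3) := by positivity
          linarith
      _ ≤ _ := by
          have b3 : 0 ≤ Y ^ 2 * ε := by positivity
          linarith
  have hcard : (S.card : ℝ) ≤ 33 * (L : ℝ) ^ 3 := by
    have hc : ((L : ℤ) ^ 3) = ((L ^ 3 : ℕ) : ℤ) := by push_cast; rfl
    rw [hS, valRange, Int.card_Icc]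
    have : 1 ≤ L ^ 3 := Nat.one_le_pow _ _ hL
    exact_mod_cast (show (2 * ((2 * L : ℕ) : ℤ) ^ 3 + 1 - -(2 * ((2 * L : ℕ) : ℤ) ^ 3)).toNat ≤
      33 * L ^ 3 by push_cast; ring_nf; omega)
  have hz : ((S.filter fun D => D = 0).card : ℝ) ≤ 1 := by
    refine Nat.cast_le_one.2 (card_le_one.2 fun u hu v hv => ?_)
    rw [mem_filter] at hu hv
    rw [hu.2, hv.2]
  have hfour : ∑ D ∈ S, cubeBound α M D ≤ 20000 * l ^ 32 * (M : ℝ) ^ 4 * (L : ℝ) ^ 3 * √ε := by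
    refine h4.trans ((mul_le_mul_of_nonneg_left (add_le_add (add_le_add
      (mul_le_mul_of_nonneg_left hcard (by positivity))
      (mul_le_mul_of_nonneg_left hz (by positivity)))
      (mul_le_mul_of_nonneg_left hbig (by positivity))) (by positivity)).trans ?_)
    have hl32 : 1 ≤ l ^ 32 := one_le_pow₀ hl1
    have c1 : (M : ℝ) ^ 2 * (L : ℝ) ^ 3 ≤ Y * √ε := by
      calc (M : ℝ) ^ 2 * (L : ℝ) ^ 3 = Y * (1 / M) := by rw [hY]; field_simp
        _ ≤ _ := mul_le_mul_of_nonneg_left (hsmall _ (by positivity) ((div_le_one (by positivity)).2 hMr)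
            (hUM'.trans hεU)) (by rw [hY]; positivity)
    have c2 : (M : ℝ) ^ 3 ≤ Y * √ε := by
      calc (M : ℝ) ^ 3 ≤ (M : ℝ) ^ 3 * (L : ℝ) ^ 2 :=
            le_mul_of_one_le_right (by positivity) (one_le_pow₀ hLr)
        _ = Y * (1 / L) := by rw [hY]; field_simp
        _ ≤ _ := mul_le_mul_of_nonneg_left (hsmall _ (by positivity) ((div_le_one (by positivity)).2 hLr)
            (hUL'.trans hεU)) (by rw [hY]; positivity)
    have c3 : 0 ≤ Y * √ε := by rw [hY]; positivity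
    calc 2 * (M : ℝ) * (4 * (M : ℝ) ^ 2 * (33 * (L : ℝ) ^ 3) + 4 * (M : ℝ) ^ 3 * 1 +
          48 * l ^ 32 * (192 * Y * √ε))
        ≤ 2 * (M : ℝ) * (10000 * l ^ 32 * (Y * √ε)) := by
          refine mul_le_mul_of_nonneg_left ?_ (by positivity)
          have := mul_le_mul_of_nonneg_right hl32 c3
          linarith
      _ = _ := by rw [hY]; ring
  have hsq : ∑ D ∈ S, rootBound α M D ^ 2 ≤ √(S.card : ℝ) * √(∑ D ∈ S, cubeBound α M D) := by
    refine le_trans (le_of_eq (sum_congr rfl fun D _ => (one_mul (rootBound α M D ^ 2)).symm))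
      ((Real.sum_mul_le_sqrt_mul_sqrt _ _ _).trans (le_of_eq ?_))
    congr 2
    · simp
    · refine sum_congr rfl fun D _ => ?_
      rw [rootBound, Real.sq_sqrt (Real.sqrt_nonneg _), Real.sq_sqrt (cubeBound_nonneg _ _ _)]
  refine hsq.trans ((mul_le_mul (Real.sqrt_le_sqrt hcard) (Real.sqrt_le_sqrt hfour)
    (Real.sqrt_nonneg _) (Real.sqrt_nonneg _)).trans ?_)
  rw [← Real.sqrt_mul (by positivity)]
  refine (Real.sqrt_le_left (by positivity)).2 ?_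
  rw [mul_pow, Real.sq_sqrt (Real.sqrt_nonneg _)]
  have : 0 ≤ l ^ 32 * (M : ℝ) ^ 4 * (L : ℝ) ^ 6 * √ε := by positivity
  linarith

/-- **A block.** -/
theorem exists_block_le : ∃ K : ℝ, 0 < K ∧ ∀ (q : ℕ) [NeZero q] (a : ℤ) (α : ℝ),
    IsUnit (a : ZMod q) → |α - a / q| ≤ 1 / (q : ℝ) ^ 2 →
      ∀ (f g : ℕ → ℝ) (P L U : ℕ) (F G : ℝ), 1 ≤ U → U ≤ L → U ≤ P / L → q ≤ 8 * P ^ 3 →
        (∀ m ∈ Ioc L (2 * L), |f m| ≤ F) → 0 ≤ G →
        ∑ k ∈ Ioc 0 (P / L), g k ^ 2 ≤ G ^ 2 * (P / L : ℕ) →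
        ‖∑ m ∈ Ioc L (2 * L), (f m : ℂ) * cubeInner α g P m‖ ≤
          K * (G * F * scale P ^ 35 * P * cubeSaving U q P ^ (1 / 32 : ℝ)) := by
  obtain ⟨C, hC, hmom⟩ := exists_eighthMoment_le
  refine ⟨26240 * C + 1, by positivity, fun q _ a α ha hα f g P L U F G hU hUL hUM hqP hF hG hg =>
    ?_⟩
  obtain ⟨M, hM⟩ : ∃ M, M = P / L := ⟨_, rfl⟩
  rw [← hM] at hUM hg
  have hL : 0 < L := by omega
  have hF0 : 0 ≤ F := (abs_nonneg _).trans (hF (L + 1) (mem_Ioc.2 ⟨by omega, by omega⟩))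
  have hLM : L * M ≤ P := by rw [hM, mul_comm]; exact Nat.div_mul_le_self P L
  obtain ⟨ε, hε⟩ : ∃ ε, ε = cubeSaving U q P := ⟨_, rfl⟩
  have hε0 : 0 ≤ ε := hε ▸ cubeSaving_nonneg U q P
  obtain ⟨l, hl⟩ : ∃ l, l = scale P := ⟨_, rfl⟩
  have hl1 : 1 ≤ l := hl ▸ one_le_scale P
  rw [← hε, ← hl]
  obtain ⟨R, hR⟩ : ∃ R : ℕ → ℂ,
      R = fun k : ℕ => cubeTrig (blockCoef f P L k) (2 * L) (α * (k : ℝ) ^ 3) := ⟨_, rfl⟩
  have e1 : ∑ m ∈ Ioc L (2 * L), (f m : ℂ) * cubeInner α g P m =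
      ∑ k ∈ Ioc 0 M, (g k : ℂ) * R k := by
    have e : ∀ k, R k = ∑ m ∈ (Ioc L (2 * L)).filter (fun m => k ≤ P / m),
        (f m : ℂ) * eAdd (α * ((m : ℝ) * k) ^ 3) := fun k => by
      simp only [hR, cubeTrig, intTrig, blockCoef, ite_mul, zero_mul]
      rw [← sum_filter]
      refine sum_congr (ext fun m => ?_) fun m _ => ?_
      · simp only [mem_filter, mem_Ioc]
        constructor
        · rintro ⟨⟨-, h1⟩, h2, h3⟩; exact ⟨⟨h2, h1⟩, h3⟩
        · rintro ⟨⟨h2, h1⟩, h3⟩; exact ⟨⟨by omega, h1⟩, h2, h3⟩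
      · push_cast
        ring_nf
    simp only [e, cubeInner, mul_sum]
    rw [sum_comm' (t' := Ioc 0 M) (s' := fun k => (Ioc L (2 * L)).filter (fun m => k ≤ P / m))]
    · exact sum_congr rfl fun k _ => sum_congr rfl fun m _ => by ring
    · intro m k
      simp only [mem_Ioc, mem_filter]
      constructor
      · rintro ⟨hm, hk0, hk⟩
        exact ⟨⟨hm, hk⟩, hk0, hk.trans (hM ▸ Nat.div_le_div_left hm.1.le hL)⟩
      · rintro ⟨⟨hm, hk⟩, hk0, -⟩
        exact ⟨hm, hk0, hk⟩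
  have h4 : ∑ k ∈ Ioc 0 M, ‖R k‖ ^ 4 ≤ F ^ 4 * (√(820 * C * 32 * (L : ℝ) ^ 8 * l ^ 280 *
      (M : ℝ) ^ 2 * √√ε)) := by
    rw [hR]
    refine (sum_fourth_le α f hL hM hF).trans (mul_le_mul_of_nonneg_left
      ((sum_rootBound_le ha hα hU hUL hUM hM hqP).trans ?_) (by positivity))
    rw [← hε, ← hl, ← Real.sqrt_mul (Nat.cast_nonneg _)]
    refine Real.sqrt_le_sqrt ((mul_le_mul_of_nonneg_right ((hmom (2 * L)).trans
      (mul_le_mul_of_nonneg_left (mul_le_mul_of_nonneg_left (pow_le_pow_left₀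
        (zero_le_one.trans (one_le_logOne _)) (hl ▸ logOne_le_scale (P := P) ?_) 264)
        (by positivity)) hC.le)) (by positivity)).trans (le_of_eq ?_))
    · push_cast
      ring
    · have h1 : L ≤ P := (Nat.le_mul_of_pos_right L (by omega)).trans hLM
      have h2 := Nat.le_self_pow (by norm_num : (5 : ℕ) ≠ 0) P
      omega
  obtain ⟨B, hB⟩ : ∃ B, B = ‖∑ m ∈ Ioc L (2 * L), (f m : ℂ) * cubeInner α g P m‖ := ⟨_, rfl⟩
  rw [← hB]
  refine le_of_pow_le_pow_left₀ (show (4 : ℕ) ≠ 0 by norm_num) (by positivity) ?_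
  have h1 : B ^ 2 ≤ G ^ 2 * M * ∑ k ∈ Ioc 0 M, ‖R k‖ ^ 2 := by
    rw [hB, e1]
    refine (pow_le_pow_left₀ (norm_nonneg _) (norm_sum_le _ _) 2).trans ?_
    simp only [norm_mul]
    refine (sum_mul_sq_le_sq_mul_sq _ _ _).trans (mul_le_mul_of_nonneg_right
      (le_trans (le_of_eq (sum_congr rfl fun k _ => ?_)) hg) (sum_nonneg fun _ _ => sq_nonneg _))
    rw [Complex.norm_real, Real.norm_eq_abs, sq_abs]
  have h2 : (∑ k ∈ Ioc 0 M, ‖R k‖ ^ 2) ^ 2 ≤ M * ∑ k ∈ Ioc 0 M, ‖R k‖ ^ 4 := by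
    refine sq_sum_le_card_mul_sum_sq.trans (le_of_eq ?_)
    simp [← pow_mul]
  calc B ^ 4 = (B ^ 2) ^ 2 := by ring
    _ ≤ (G ^ 2 * M * ∑ k ∈ Ioc 0 M, ‖R k‖ ^ 2) ^ 2 := pow_le_pow_left₀ (sq_nonneg B) h1 2
    _ = G ^ 4 * (M : ℝ) ^ 2 * (∑ k ∈ Ioc 0 M, ‖R k‖ ^ 2) ^ 2 := by ring
    _ ≤ G ^ 4 * (M : ℝ) ^ 2 * (M * (F ^ 4 * √(820 * C * 32 * (L : ℝ) ^ 8 * l ^ 280 *
        (M : ℝ) ^ 2 * √√ε))) := by gcongr; exact h2.trans (by gcongr)
    _ = G ^ 4 * F ^ 4 * l ^ 140 * ((L : ℝ) * M) ^ 4 * (√(26240 * C) * (√√√ε)) := by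
        rw [show 820 * C * 32 * (L : ℝ) ^ 8 * l ^ 280 * (M : ℝ) ^ 2 * √√ε =
          ((L : ℝ) ^ 4 * l ^ 140 * M) ^ 2 * (26240 * C * √√ε) by ring,
          Real.sqrt_mul (by positivity), Real.sqrt_sq (by positivity),
          Real.sqrt_mul (by positivity)]
        ring
    _ ≤ G ^ 4 * F ^ 4 * l ^ 140 * (P : ℝ) ^ 4 *
        ((26240 * C + 1) ^ 4 * (ε ^ (1 / 32 : ℝ)) ^ 4) := by
        have hs : √√√ε = (ε ^ (1 / 32 : ℝ)) ^ 4 := by
          rw [Real.sqrt_eq_rpow, Real.sqrt_eq_rpow, Real.sqrt_eq_rpow, ← Real.rpow_mul hε0,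
            ← Real.rpow_mul hε0, ← Real.rpow_natCast, ← Real.rpow_mul hε0]
          norm_num
        rw [hs]
        have hC1 : √(26240 * C) ≤ (26240 * C + 1) ^ 4 := by
          refine le_trans ?_ (le_self_pow₀ (by linarith) (by norm_num : (4 : ℕ) ≠ 0))
          rw [Real.sqrt_le_left (by positivity)]
          nlinarith
        gcongr
        exact_mod_cast hLM
    _ = _ := by ring

/-- **One short variable.** -/
theorem norm_cubeSum_short_le (ha : IsUnit (a : ZMod q)) (hα : |α - a / q| ≤ 1 / (q : ℝ) ^ 2)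
    {P K m j : ℕ} (hqP : q ≤ 8 * P ^ 3) (hm : 1 ≤ m) (hmK : m ≤ K) (hj : j ≤ P / m) :
    ‖cubeSum (α * (m ^ 3 : ℕ)) j‖ ≤
      9 * scale P ^ 8 * P * (1 / (q : ℝ) + K / P + q / (P : ℝ) ^ 3) ^ (1 / 8 : ℝ) := by
  classical
  obtain ⟨ε, hε⟩ : ∃ ε, ε = 1 / (q : ℝ) + K / P + q / (P : ℝ) ^ 3 := ⟨_, rfl⟩
  rw [← hε]
  obtain ⟨M, hM⟩ : ∃ M, M = P / m := ⟨_, rfl⟩
  rw [← hM] at hj
  have hε0 : 0 ≤ ε := by rw [hε]; positivity
  rcases Nat.eq_zero_or_pos M with h | hM1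
  · obtain rfl : j = 0 := by omega
    simp only [cubeSum, Ioc_self, sum_empty, norm_zero]
    have := one_le_scale P
    positivity
  obtain ⟨l, hl⟩ : ∃ l, l = scale P := ⟨_, rfl⟩
  rw [← hl]
  have hl1 : 1 ≤ l := hl ▸ one_le_scale P
  have hmM : m * M ≤ P := by rw [hM, mul_comm]; exact Nat.div_mul_le_self P m
  have hP1 : 1 ≤ P := le_trans (Nat.mul_pos hm hM1) hmM
  have hMP : M ≤ P := (Nat.le_mul_of_pos_left M hm).trans hmM
  have hlq : 1 + Real.log q ≤ l := hl ▸ logOne_le_scale (hqP.trans (by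
    have : P ^ 3 ≤ P ^ 5 := Nat.pow_le_pow_right hP1 (by norm_num)
    omega))
  have hN1 : 6 * M ^ 2 * m ^ 3 ≤ 6 * (P ^ 2 * m) := by
    calc 6 * M ^ 2 * m ^ 3 = 6 * ((m * M) ^ 2 * m) := by ring
      _ ≤ _ := by gcongr
  have hN2 : 6 * M ^ 2 * m ^ 3 ≤ 2 ^ 7 * P ^ 5 := by
    refine hN1.trans ?_
    have h1 : P ^ 2 * m ≤ P ^ 3 := by
      rw [pow_succ P 2]
      exact Nat.mul_le_mul_left _ ((Nat.le_mul_of_pos_right m hM1).trans hmM)
    have : P ^ 3 ≤ P ^ 5 := Nat.pow_le_pow_right hP1 (by norm_num)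
    omega
  have hne : ((m ^ 3 : ℕ) : ℤ) ≠ 0 := by positivity
  have h4 := sum_cubeBound_le ha hα hM1 (Nat.one_le_pow 3 m hm) {((m ^ 3 : ℕ) : ℤ)}
    (fun D hD => by rw [mem_singleton] at hD; rw [hD, Int.natAbs_natCast]) hlq
    (hl ▸ logOne_le_scale hN2)
  rw [sum_singleton, card_singleton, filter_singleton, if_neg hne, card_empty] at h4
  refine le_of_pow_le_pow_left₀ (show (4 : ℕ) ≠ 0 by norm_num) (by positivity) ?_
  refine (le_of_eq_of_le ?_ ((norm_cubeSum_pow_four_le hj α _).trans h4)).trans ?_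
  · push_cast; rfl
  have hs : (ε ^ (1 / 8 : ℝ)) ^ 4 = √ε := by
    rw [Real.sqrt_eq_rpow, ← Real.rpow_natCast, ← Real.rpow_mul hε0]
    norm_num
  rw [mul_pow, mul_pow, mul_pow, hs, ← pow_mul]
  have hK1 : 1 ≤ K := hm.trans hmK
  have hPr : (1 : ℝ) ≤ P := by exact_mod_cast hP1
  have hMr : (M : ℝ) ≤ P := by exact_mod_cast hMP
  have hKr : (1 : ℝ) ≤ K := by exact_mod_cast hK1
  have hP : 1 / (P : ℝ) ≤ √ε := by
    have h1 : 1 / (P : ℝ) ≤ ε := by
      rw [hε]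
      have h2 : 1 / (P : ℝ) ≤ K / P := div_le_div_of_nonneg_right hKr (by positivity)
      have h3 : 0 ≤ 1 / (q : ℝ) + q / (P : ℝ) ^ 3 := by positivity
      linarith
    refine Real.le_sqrt_of_sq_le (le_trans ?_ h1)
    exact pow_le_of_le_one (by positivity) ((div_le_one (by positivity)).2 hPr) two_ne_zero
  have hroot : √((6 * M ^ 2 * m ^ 3 : ℕ) * M * ((6 * M ^ 2 * m ^ 3 : ℕ) * M / q +
      (6 * M ^ 2 * m ^ 3 : ℕ) + M + q)) ≤ 7 * (P : ℝ) ^ 3 * √ε := by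
    rw [← Real.sqrt_sq (show 0 ≤ 7 * (P : ℝ) ^ 3 by positivity), ← Real.sqrt_mul (sq_nonneg _)]
    refine Real.sqrt_le_sqrt ?_
    have e1 : ((6 * M ^ 2 * m ^ 3 : ℕ) : ℝ) * M ≤ 6 * (P : ℝ) ^ 3 := by
      exact_mod_cast (show 6 * M ^ 2 * m ^ 3 * M ≤ 6 * P ^ 3 by
        calc 6 * M ^ 2 * m ^ 3 * M = 6 * (m * M) ^ 3 := by ring
          _ ≤ _ := by gcongr)
    have e2 : ((6 * M ^ 2 * m ^ 3 : ℕ) : ℝ) ≤ 6 * ((P : ℝ) ^ 2 * K) := by
      exact_mod_cast hN1.trans (by gcongr)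
    have e3 : (M : ℝ) ≤ (P : ℝ) ^ 2 * K := by
      calc (M : ℝ) ≤ P * 1 * 1 := by linarith
        _ ≤ (P : ℝ) * P * K := by gcongr
        _ = _ := by ring
    calc ((6 * M ^ 2 * m ^ 3 : ℕ) : ℝ) * M * (((6 * M ^ 2 * m ^ 3 : ℕ) : ℝ) * M / q +
          ((6 * M ^ 2 * m ^ 3 : ℕ) : ℝ) + M + q)
        ≤ 6 * (P : ℝ) ^ 3 * (6 * (P : ℝ) ^ 3 / q + 6 * ((P : ℝ) ^ 2 * K) + (P : ℝ) ^ 2 * K + q) := by
          gcongr
      _ ≤ 6 * (P : ℝ) ^ 3 * (7 * (P : ℝ) ^ 3 * ε) := by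
          refine mul_le_mul_of_nonneg_left ?_ (by positivity)
          have e : (P : ℝ) ^ 3 * ε = (P : ℝ) ^ 3 / q + (P : ℝ) ^ 2 * K + q := by
            rw [hε]; field_simp
          have : 0 ≤ (P : ℝ) ^ 3 / q := by positivity
          have : (0 : ℝ) ≤ q := Nat.cast_nonneg q
          rw [mul_div_assoc, mul_assoc (7 : ℝ), e]
          linarith
      _ ≤ _ := by
          have : 0 ≤ (P : ℝ) ^ 6 * ε := by positivity
          linarith
  refine (mul_le_mul_of_nonneg_left (add_le_add le_rfl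
    (mul_le_mul_of_nonneg_left hroot (by positivity))) (by positivity)).trans ?_
  have h2 : (M : ℝ) ^ 2 ≤ (P : ℝ) ^ 3 * √ε := by
    calc (M : ℝ) ^ 2 ≤ (P : ℝ) ^ 2 := pow_le_pow_left₀ (Nat.cast_nonneg M) hMr 2
      _ = (P : ℝ) ^ 3 * (1 / P) := by field_simp
      _ ≤ _ := mul_le_mul_of_nonneg_left hP (by positivity)
  have hl32 : (1 : ℝ) ≤ l ^ 32 := one_le_pow₀ hl1
  have h3 : 0 ≤ (P : ℝ) ^ 3 * √ε := by positivity
  have h5 := mul_le_mul_of_nonneg_right hl32 h3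
  push_cast
  calc 2 * (M : ℝ) * (4 * (M : ℝ) ^ 2 * 1 + 4 * (M : ℝ) ^ 3 * 0 +
        48 * l ^ 32 * (7 * (P : ℝ) ^ 3 * √ε))
      ≤ 2 * (P : ℝ) * (340 * (l ^ 32 * ((P : ℝ) ^ 3 * √ε))) := by
        refine mul_le_mul (by linarith) ?_ (by positivity) (by positivity)
        linarith
    _ ≤ _ := by
        have : 0 ≤ l ^ 32 * (P : ℝ) ^ 4 * √ε := by positivity
        norm_num
        linarith

end FA.HuaCubes
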